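import Mathlib

/-!
# ES, part AK (abstract KIL): definitions

Setting: `R` a DVR with uniformiser `π`, `K = Frac R` of characteristic zero, `L` a field
containing `K`, `T ∈ L` transcendental over `K` ("a chart"), `L / K(T)` finite.
Everything is phrased with *elements* of `L`:
* `IsIntegral (Algebra.adjoin R {T}) x` : `x` lies in `Bfin(T)`, the integral closure of `R[T]`;
* `PiInt π T x` : `x` is integral over the Gauss valuation ring `R[T]_(π)`;
* `LocAt π T ε r a` : `∃ e ∈ Bfin(T), r(T) (e - a(T) ε) ∈ π Bfin(T)`;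
* `GaussDom π T V σ` : the valuation subring `V` of `Ω` dominates `R[T]_(π)` via `σ : L → Ω`;
* `UnitDiff K π T` : (Hπ) two distinct embeddings over `K(T)` are distinct modulo `𝔪_V`;
* `SplitAt K Ch T w`, `HhAt`, `HhAtF` : (Hh) all the embeddings of `L` over `T ↦ w ∈ Ch((τ))` land in
  `Ch((τ))`.
-/

set_option autoImplicit false

namespace Fermat.Agent.ESlib

open Polynomial

universe u

/-- `x` is integral over the Gauss valuation ring `R[T]_(π)`. -/
def PiInt {R L : Type*} [CommRing R] [Field L] [Algebra R L] (π : R) (T x : L) : Prop :=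
  ∃ r : R[X], ¬ C π ∣ r ∧ IsIntegral (Algebra.adjoin R {T}) (aeval T r * x)

/-- `∃ e ∈ Bfin(T), r(T) (e - a(T) ε) ∈ π Bfin(T)`. -/
def LocAt {R L : Type*} [CommRing R] [Field L] [Algebra R L] (π : R) (T ε : L) (r a : R[X]) :
    Prop :=
  ∃ e z : L, IsIntegral (Algebra.adjoin R {T}) e ∧ IsIntegral (Algebra.adjoin R {T}) z ∧
    aeval T r * (e - aeval T a * ε) = algebraMap R L π * z

/-- The reduction of `ε` modulo `π` is integral over `Bfin(T) / π`: `ε` is a root modulo `π C` of a
monic polynomial with coefficients in `Bfin(T)` (`C` = the `π`-integral elements).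
Example: `ε ^ 2 - ε ∈ π C`. -/
def IntModPi {R L : Type*} [CommRing R] [Field L] [Algebra R L] (π : R) (T ε : L) : Prop :=
  ∃ p : L[X], p.Monic ∧ (∀ i, IsIntegral (Algebra.adjoin R {T}) (p.coeff i)) ∧
    PiInt π T (p.eval ε / algebraMap R L π)

/-- The valuation subring `V` of `Ω` dominates `R[T]_(π)` via `σ : L → Ω`. -/
def GaussDom {R L Ω : Type*} [CommRing R] [Field L] [Algebra R L] [Field Ω] (π : R) (T : L)
    (V : ValuationSubring Ω) (σ : L →+* Ω) : Prop :=
  ∀ p : R[X], V.valuation (σ (aeval T p)) ≤ 1 ∧ (V.valuation (σ (aeval T p)) < 1 ↔ C π ∣ p)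

/-- **(Hπ)**: two distinct embeddings of `L` over `K(T)` are distinct modulo the maximal ideal of
any valuation ring dominating the Gauss ring. -/
def UnitDiff (K : Type u) {R L : Type u} [CommRing R] [Field K] [Field L] [Algebra R L]
    [Algebra K L] (π : R) (T : L) : Prop :=
  ∀ (Ω : Type u) [Field Ω] [Algebra K Ω] (V : ValuationSubring Ω) (σ σ' : L →ₐ[K] Ω),
    σ T = σ' T → GaussDom π T V (σ : L →+* Ω) → σ ≠ σ' →
      ∃ c : L, PiInt π T c ∧ V.valuation (σ c - σ' c) = 1

/-- All the embeddings of `L` over `T ↦ w ∈ Ch((τ))` land in `Ch((τ))`. -/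
def SplitAt (K : Type*) {L : Type*} (Ch : Type*) [Field K] [Field L] [Algebra K L] [Field Ch]
    [Algebra K Ch] (T : L) (w : LaurentSeries Ch) : Prop :=
  ∀ σ : L →ₐ[K] AlgebraicClosure (LaurentSeries Ch),
    σ T = algebraMap (LaurentSeries Ch) (AlgebraicClosure (LaurentSeries Ch)) w →
      ∀ x, σ x ∈ (algebraMap (LaurentSeries Ch) (AlgebraicClosure (LaurentSeries Ch))).range

/-- **(Hh)** at the point `T = b`, with ramification index `M`. -/
def HhAt (K : Type*) {L : Type*} (Ch : Type*) [Field K] [Field L] [Algebra K L] [Field Ch]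
    [Algebra K Ch] (T : L) (b : Ch) (M : ℕ) : Prop :=
  ∃ w : LaurentSeries Ch, (w - HahnSeries.C b).order = (M : ℤ) ∧ SplitAt K Ch T w

/-- **(Hh)** at the point `T = b` for the field `F`, together with `m ∣ ord f` at all the points
above `T = b`. -/
def HhAtF (K : Type*) {F : Type*} (Ch : Type*) [Field K] [Field F] [Algebra K F] [Field Ch]
    [Algebra K Ch] (T f : F) (m : ℕ) (b : Ch) (M : ℕ) : Prop :=
  ∃ w : LaurentSeries Ch, (w - HahnSeries.C b).order = (M : ℤ) ∧
    ∀ σ : F →ₐ[K] AlgebraicClosure (LaurentSeries Ch),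
      σ T = algebraMap (LaurentSeries Ch) (AlgebraicClosure (LaurentSeries Ch)) w →
      (∀ x, σ x ∈ (algebraMap (LaurentSeries Ch) (AlgebraicClosure (LaurentSeries Ch))).range) ∧
      ∃ g : LaurentSeries Ch,
        σ f = algebraMap (LaurentSeries Ch) (AlgebraicClosure (LaurentSeries Ch)) g ∧
          (m : ℤ) ∣ g.order

/-- `b` is an integral basis: the integral closure of `O` in `L` is the `O`-span of `b`. -/
def IsIntBasis (O : Type*) {Kt L ι : Type*} [CommRing O] [Field Kt] [Field L] [Algebra O Kt]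
    [Algebra Kt L] [Algebra O L] (b : Module.Basis ι Kt L) : Prop :=
  ∀ x : L, IsIntegral O x ↔ ∀ k, b.repr x k ∈ (algebraMap O Kt).range

/-- The data needed by the discriminant criterion at a prime `h` of residue characteristic zero:
an embedding `φ : O → Ch[[τ]]` with `ord φ(h) = 1`, `φ⁻¹(τ) = (h)`, such that all the embeddings of
`L` above `φ` land in `Ch((τ))`. -/
def PhiData {O : Type*} (Kt L Ch : Type*) [CommRing O] [Field Kt] [Field L] [Algebra O Kt]
    [Algebra Kt L] [Field Ch] (h : O) : Prop :=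
  ∃ (φ : O →+* PowerSeries Ch) (φ' : Kt →+* LaurentSeries Ch),
    (∀ a, φ' (algebraMap O Kt a) = ((φ a : PowerSeries Ch) : LaurentSeries Ch)) ∧
    (φ h).order = 1 ∧ (∀ a, PowerSeries.constantCoeff (φ a) = 0 → h ∣ a) ∧
    ∀ σ : L →+* AlgebraicClosure (LaurentSeries Ch),
      (∀ x : Kt, σ (algebraMap Kt L x) =
        algebraMap (LaurentSeries Ch) (AlgebraicClosure (LaurentSeries Ch)) (φ' x)) →
      ∀ x, σ x ∈ (algebraMap (LaurentSeries Ch) (AlgebraicClosure (LaurentSeries Ch))).range

end Fermat.Agent.ESlib
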