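import Mathlib

/-!
# ES, AK3: polynomial lemmas over a discrete valuation ring
-/

set_option autoImplicit false

namespace Fermat.Agent.ESlib

open Polynomial

/-- **AK3a.** An irreducible element of `R[X]` (`R` a DVR) is associated to `C π` or has positive
degree. -/
theorem associated_C_or_natDegree_pos {R : Type*} [CommRing R] [IsDomain R]
    [IsDiscreteValuationRing R] {π : R} (hπ : Irreducible π) {h : R[X]} (hh : Irreducible h) :
    Associated h (C π) ∨ 0 < h.natDegree := by
  rcases Nat.eq_zero_or_pos h.natDegree with h0 | h0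
  · left
    obtain ⟨c, rfl⟩ : ∃ c, h = C c := ⟨_, eq_C_of_natDegree_eq_zero h0⟩
    have hc : Irreducible c := by
      refine ⟨fun hu => hh.not_isUnit (hu.map C), fun a b hab => ?_⟩
      have := hh.isUnit_or_isUnit (a := C a) (b := C b) (by rw [hab, C_mul])
      simpa [isUnit_C] using this
    exact (IsDiscreteValuationRing.associated_of_irreducible R hc hπ).map (C : R →+* R[X])
  · exact Or.inr h0

/-- **AK3b** (Gauss).  `h ∈ R[X]` irreducible of positive degree, `β` a root of `h` in a field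
`Ch ⊇ R`.  Every `a ∈ R[X]` with `a(β) = 0` is divisible by `h` in `R[X]`. -/
theorem dvd_of_aeval_eq_zero_of_irreducible {R Ch : Type*} [CommRing R] [IsDomain R]
    [IsDiscreteValuationRing R] [Field Ch] [Algebra R Ch] [FaithfulSMul R Ch]
    {h : R[X]} (hh : Irreducible h) (hdeg : 0 < h.natDegree) {β : Ch} (hβ : aeval β h = 0)
    {a : R[X]} (ha : aeval β a = 0) : h ∣ a := by
  have hprim : h.IsPrimitive := hh.isPrimitive hdeg.ne'
  have hirr : Irreducible (h.map (algebraMap R (FractionRing R))) :=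
    (hprim.irreducible_iff_irreducible_map_fraction_map).1 hh
  apply hprim.dvd_of_fraction_map_dvd_fraction_map (K := FractionRing R)
  rcases dvd_or_isCoprime _ (a.map (algebraMap R (FractionRing R))) hirr with hd | hc
  · exact hd
  · exfalso
    obtain ⟨u, v, huv⟩ := hc
    let φ : FractionRing R →+* Ch :=
      IsFractionRing.lift (FaithfulSMul.algebraMap_injective R Ch)
    have hφ : φ.comp (algebraMap R (FractionRing R)) = algebraMap R Ch := by
      ext x
      simp [φ]
    have h1 : eval₂ φ β (h.map (algebraMap R (FractionRing R))) = 0 := by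
      rw [eval₂_map, hφ]; exact hβ
    have h2 : eval₂ φ β (a.map (algebraMap R (FractionRing R))) = 0 := by
      rw [eval₂_map, hφ]; exact ha
    have := congrArg (eval₂ φ β) huv
    rw [eval₂_add, eval₂_mul, eval₂_mul, h1, h2] at this
    simp at this

/-- **AK3c.** a maximal ideal of `R[X]` containing `π` is `(π, g)` with `π ∤ g`. -/
theorem exists_maximal_eq_span_pair {R : Type*} [CommRing R] [IsDomain R]
    [IsDiscreteValuationRing R] {π : R} (hπ : Irreducible π) (𝔪 : Ideal R[X]) (h𝔪 : 𝔪.IsMaximal)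
    (hπ𝔪 : C π ∈ 𝔪) : ∃ g : R[X], 𝔪 = Ideal.span {C π, g} ∧ ¬ C π ∣ g := by
  haveI hmax : (Ideal.span {π}).IsMaximal := by
    rw [← (IsDiscreteValuationRing.irreducible_iff_uniformizer π).1 hπ]
    infer_instance
  letI := Ideal.Quotient.field (Ideal.span {π})
  let φ : R[X] →+* (R ⧸ Ideal.span {π})[X] := mapRingHom (Ideal.Quotient.mk (Ideal.span {π}))
  have hφs : Function.Surjective φ := map_surjective _ Ideal.Quotient.mk_surjective
  have hker : ∀ x : R[X], φ x = 0 → C π ∣ x := by
    intro x hx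
    rw [C_dvd_iff_dvd_coeff]
    intro i
    have := congrArg (fun p => p.coeff i) hx
    simp only [φ, coe_mapRingHom, coeff_map, coeff_zero] at this
    rwa [Ideal.Quotient.eq_zero_iff_mem, Ideal.mem_span_singleton] at this
  obtain ⟨g', hg'⟩ := (IsPrincipalIdealRing.principal (𝔪.map φ)).principal
  obtain ⟨g, rfl⟩ := hφs g'
  have hg𝔪 : g ∈ 𝔪 := by
    have h1 : φ g ∈ 𝔪.map φ := by
      rw [hg']; exact Submodule.mem_span_singleton_self _
    obtain ⟨x, hx, hxg⟩ := (Ideal.mem_map_iff_of_surjective φ hφs).1 h1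
    obtain ⟨y, hy⟩ := hker (g - x) (by rw [map_sub, hxg, sub_self])
    have : g = x + C π * y := by rw [← hy]; ring
    rw [this]
    exact 𝔪.add_mem hx (𝔪.mul_mem_right _ hπ𝔪)
  have heq : 𝔪 = Ideal.span {C π, g} := by
    apply le_antisymm
    · intro x hx
      have h1 : φ x ∈ 𝔪.map φ := Ideal.mem_map_of_mem _ hx
      rw [hg'] at h1
      obtain ⟨y', hy'⟩ := (Submodule.mem_span_singleton).1 h1
      obtain ⟨y, rfl⟩ := hφs y'
      obtain ⟨z, hz⟩ := hker (x - y * g) (by rw [map_sub, map_mul, ← hy', smul_eq_mul, sub_self])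
      rw [Ideal.mem_span_pair]
      exact ⟨z, y, by rw [mul_comm z, ← hz]; ring⟩
    · rw [Ideal.span_le]
      intro x hx
      rcases hx with rfl | hx
      · exact hπ𝔪
      · rw [Set.mem_singleton_iff.1 hx]; exact hg𝔪
  refine ⟨g, heq, fun hdvd => ?_⟩
  have h𝔪' : ∀ x ∈ 𝔪, C π ∣ x := by
    intro x hx
    rw [heq, Ideal.mem_span_pair] at hx
    obtain ⟨a, b, rfl⟩ := hx
    exact dvd_add (Dvd.intro_left _ rfl) (hdvd.mul_left _)
  have hX : (X : R[X]) ∉ 𝔪 := by
    intro hX
    have := (C_dvd_iff_dvd_coeff _ _).1 (h𝔪' _ hX) 1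
    rw [coeff_X_one] at this
    exact hπ.not_isUnit (isUnit_of_dvd_one this)
  obtain ⟨y, i, hi, hyi⟩ := h𝔪.exists_inv hX
  obtain ⟨b, rfl⟩ := h𝔪' i hi
  have := congrArg (fun p => p.coeff 0) hyi
  simp only [coeff_add, mul_coeff_zero, coeff_X_zero, mul_zero, zero_add, coeff_C_zero,
    coeff_one_zero] at this
  exact hπ.not_isUnit (IsUnit.of_mul_eq_one _ this)

end Fermat.Agent.ESlib
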