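import Mathlib
import Fermat.Agent.ES.C.AKDefs

/-!
# ES, AK8: globalisation (the conductor-like ideal `{a | LocAt π T ε r a}`)
-/

set_option autoImplicit false

namespace Fermat.Agent.ESlib

open Polynomial

variable {R L : Type*} [CommRing R] [Field L] [Algebra R L]

theorem isIntegral_aeval_adjoin (T : L) (c : R[X]) :
    IsIntegral (Algebra.adjoin R {T}) (aeval T c) := by
  have h : aeval T c ∈ Algebra.adjoin R {T} := by
    rw [Algebra.adjoin_singleton_eq_range_aeval]; exact ⟨c, rfl⟩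
  exact isIntegral_algebraMap (R := Algebra.adjoin R {T}) (x := ⟨_, h⟩)

/-- The ideal `{a ∈ R[X] | ∃ e ∈ Bfin(T), r(T) (e - a(T) ε) ∈ π Bfin(T)}`. -/
def locIdeal (π : R) (T ε : L) (r : R[X]) : Ideal R[X] where
  carrier := {a | LocAt π T ε r a}
  add_mem' := by
    rintro a a' ⟨e, z, he, hz, h⟩ ⟨e', z', he', hz', h'⟩
    refine ⟨e + e', z + z', he.add he', hz.add hz', ?_⟩
    rw [map_add, mul_add, ← h, ← h']; ring
  zero_mem' := ⟨0, 0, isIntegral_zero, isIntegral_zero, by simp⟩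
  smul_mem' := by
    rintro c a ⟨e, z, he, hz, h⟩
    refine ⟨aeval T c * e, aeval T c * z, (isIntegral_aeval_adjoin T c).mul he,
      (isIntegral_aeval_adjoin T c).mul hz, ?_⟩
    rw [smul_eq_mul, map_mul, mul_left_comm (algebraMap R L π), ← h]; ring

theorem mem_locIdeal {π : R} {T ε : L} {r a : R[X]} : a ∈ locIdeal π T ε r ↔ LocAt π T ε r a :=
  Iff.rfl

/-- `π ∈ locIdeal` as soon as `r(T) ε` is integral. -/
theorem C_mem_locIdeal (π : R) (T ε : L) (r : R[X])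
    (hrε : IsIntegral (Algebra.adjoin R {T}) (aeval T r * ε)) : C π ∈ locIdeal π T ε r := by
  refine ⟨0, -(aeval T r * ε), isIntegral_zero, hrε.neg, ?_⟩
  rw [aeval_C]; ring

/-- **AK8.** -/
theorem locAt_one_of_forall_maximal (π : R) (T ε : L) (r : R[X])
    (hrε : IsIntegral (Algebra.adjoin R {T}) (aeval T r * ε))
    (h : ∀ 𝔪 : Ideal R[X], 𝔪.IsMaximal → C π ∈ 𝔪 → ∃ a, a ∉ 𝔪 ∧ LocAt π T ε r a) :
    LocAt π T ε r 1 := by
  by_contra hne
  have h1 : locIdeal π T ε r ≠ ⊤ := fun h' => hne ((Ideal.eq_top_iff_one _).mp h')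
  obtain ⟨𝔪, h𝔪, hle⟩ := Ideal.exists_le_maximal _ h1
  obtain ⟨a, ha, hloc⟩ := h 𝔪 h𝔪 (hle (C_mem_locIdeal π T ε r hrε))
  exact ha (hle hloc)

end Fermat.Agent.ESlib
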