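import Mathlib

/-!
# ES, AK-LE2: integrality lemmas
-/

set_option autoImplicit false

namespace Fermat.Agent.ESlib

open Polynomial

/-- a root of a monic polynomial with integral coefficients is integral -/
theorem isIntegral_of_monic_of_coeff_isIntegral {O k : Type*} [CommRing O] [CommRing k]
    [Algebra O k] (P : k[X]) (hP : P.Monic) (hc : ∀ i, IsIntegral O (P.coeff i)) {x : k}
    (hx : P.eval x = 0) : IsIntegral O x := by
  have hl : P ∈ Polynomial.lifts (algebraMap (integralClosure O k) k) := by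
    rw [Polynomial.lifts_iff_coeff_lifts]
    intro n
    exact ⟨⟨P.coeff n, hc n⟩, rfl⟩
  obtain ⟨q, hq, -, hqm⟩ := Polynomial.lifts_and_natDegree_eq_and_monic hl hP
  have h1 : IsIntegral (integralClosure O k) x := by
    refine ⟨q, hqm, ?_⟩
    rw [← Polynomial.eval_map, hq, hx]
  exact isIntegral_trans x h1

/-- integrality over `R[T] ⊆ L` versus integrality along `aeval T : R[X] → L` -/
theorem isIntegral_adjoin_singleton_iff {R L : Type*} [CommRing R] [CommRing L] [Algebra R L]
    (T x : L) : IsIntegral (Algebra.adjoin R {T}) x ↔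
      ((aeval T : R[X] →ₐ[R] L) : R[X] →+* L).IsIntegralElem x := by
  have hmem : ∀ p : R[X], aeval T p ∈ Algebra.adjoin R {T} := fun p => by
    rw [Algebra.adjoin_singleton_eq_range_aeval]; exact ⟨p, rfl⟩
  let g : R[X] →+* Algebra.adjoin R {T} :=
    ((aeval T : R[X] →ₐ[R] L) : R[X] →+* L).codRestrict (Algebra.adjoin R {T}) hmem
  have hg : (algebraMap (Algebra.adjoin R {T}) L).comp g = ((aeval T : R[X] →ₐ[R] L) : R[X] →+* L) :=
    RingHom.ext fun p => rfl
  have hsurj : Function.Surjective g := by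
    rintro ⟨y, hy⟩
    rw [Algebra.adjoin_singleton_eq_range_aeval] at hy
    obtain ⟨p, hp⟩ := hy
    exact ⟨p, Subtype.ext hp⟩
  constructor
  · rintro ⟨p, hpm, hp⟩
    have hl : p ∈ Polynomial.lifts g := by
      rw [Polynomial.lifts_iff_coeff_lifts]
      intro n
      exact hsurj _
    obtain ⟨q, hq, -, hqm⟩ := Polynomial.lifts_and_natDegree_eq_and_monic hl hpm
    refine ⟨q, hqm, ?_⟩
    rw [← hg, ← Polynomial.eval₂_map, hq, hp]
  · rintro ⟨q, hqm, hq⟩
    refine ⟨q.map g, hqm.map g, ?_⟩
    rw [Polynomial.eval₂_map, hg, hq]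

/-- an element of `Ω` which is integral over a ring mapping to `V` lies in `V` -/
theorem mem_valuationSubring_of_isIntegralElem {O Ω : Type*} [CommRing O] [Field Ω]
    (V : ValuationSubring Ω) (f : O →+* Ω) (hf : ∀ a, V.valuation (f a) ≤ 1) {y : Ω}
    (hy : f.IsIntegralElem y) : y ∈ V := by
  have hfV : ∀ a, f a ∈ V := fun a => (V.valuation_le_one_iff _).1 (hf a)
  let fV : O →+* V := f.codRestrict V.toSubring hfV
  have hcomp : (algebraMap V Ω).comp fV = f := RingHom.ext fun a => rfl
  obtain ⟨q, hqm, hq⟩ := hy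
  have h1 : IsIntegral V y := ⟨q.map fV, hqm.map _, by rw [eval₂_map, hcomp]; exact hq⟩
  obtain ⟨z, rfl⟩ := IsIntegrallyClosed.isIntegral_iff.1 h1
  exact z.2

/-- If `x` is a root modulo `𝔪_V` of a monic polynomial whose coefficients are integral over `O`
(`O → V`), then `x` is a root modulo `𝔪_V` of a monic polynomial with coefficients in `O`. -/
theorem exists_monic_valuation_lt_one {O Ω : Type*} [CommRing O] [Field Ω]
    (V : ValuationSubring Ω) (f : O →+* Ω) (hf : ∀ a, V.valuation (f a) ≤ 1) (P : Polynomial Ω)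
    (hP : P.Monic) (hc : ∀ i, f.IsIntegralElem (P.coeff i)) (x : Ω)
    (hx : V.valuation (P.eval x) < 1) :
    ∃ q : O[X], q.Monic ∧ V.valuation (q.eval₂ f x) < 1 := by
  have hfV : ∀ a, f a ∈ V := fun a => (V.valuation_le_one_iff _).1 (hf a)
  let fV : O →+* V := f.codRestrict V.toSubring hfV
  have hcomp : (algebraMap V Ω).comp fV = f := RingHom.ext fun a => rfl
  have hcV : ∀ i, P.coeff i ∈ V := fun i => mem_valuationSubring_of_isIntegralElem V f hf (hc i)
  have hεV : P.eval x ∈ V := (V.valuation_le_one_iff _).1 hx.le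
  -- `x ∈ V`
  have hxV : x ∈ V := by
    have hdeg : P.natDegree ≠ 0 := by
      intro h0
      rw [hP.natDegree_eq_zero] at h0
      rw [h0, eval_one, map_one] at hx
      exact lt_irrefl _ hx
    have hm : (P - C (P.eval x)).Monic := by
      refine hP.sub_of_left (lt_of_le_of_lt degree_C_le ?_)
      rw [← natDegree_pos_iff_degree_pos]
      exact Nat.pos_of_ne_zero hdeg
    have h1 : IsIntegral V x := by
      refine isIntegral_of_monic_of_coeff_isIntegral (P - C (P.eval x)) hm (fun i => ?_) (by simp)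
      have : (P - C (P.eval x)).coeff i ∈ V := by
        rw [coeff_sub, coeff_C]
        split_ifs
        · exact V.sub_mem (hcV i) hεV
        · simpa using hcV i
      exact isIntegral_algebraMap (R := V) (x := ⟨_, this⟩)
    obtain ⟨z, rfl⟩ := IsIntegrallyClosed.isIntegral_iff.1 h1
    exact z.2
  -- lift `P` to `V[X]`
  have hl : P ∈ Polynomial.lifts (algebraMap V Ω) := by
    rw [Polynomial.lifts_iff_coeff_lifts]
    intro n
    exact ⟨⟨P.coeff n, hcV n⟩, rfl⟩
  obtain ⟨PV, hPV, -, hPVm⟩ := Polynomial.lifts_and_natDegree_eq_and_monic hl hP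
  let res : V →+* IsLocalRing.ResidueField V := IsLocalRing.residue V
  letI : Algebra O (IsLocalRing.ResidueField V) := (res.comp fV).toAlgebra
  have hres0 : ∀ a : V, V.valuation (a : Ω) < 1 → res a = 0 := fun a ha =>
    (IsLocalRing.residue_eq_zero_iff a).2 ((V.valuation_lt_one_iff a).2 ha)
  have hinj : Function.Injective (algebraMap V Ω) := Subtype.val_injective
  have h2 : IsIntegral O (res ⟨x, hxV⟩) := by
    refine isIntegral_of_monic_of_coeff_isIntegral (PV.map res) (hPVm.map res) (fun i => ?_) ?_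
    · obtain ⟨q, hqm, hq⟩ := hc i
      refine ⟨q, hqm, ?_⟩
      have h3 : q.eval₂ fV (PV.coeff i) = 0 := by
        apply hinj
        rw [map_zero, hom_eval₂, hcomp, ← coeff_map, hPV, hq]
      show q.eval₂ (res.comp fV) ((PV.map res).coeff i) = 0
      rw [coeff_map, ← hom_eval₂, h3, map_zero]
    · rw [eval_map_apply]
      apply hres0
      have : ((PV.eval ⟨x, hxV⟩ : V) : Ω) = P.eval x := by
        rw [← hPV]
        exact (eval_map_apply (algebraMap V Ω) (⟨x, hxV⟩ : V)).symm
      rw [this]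
      exact hx
  obtain ⟨q, hqm, hq⟩ := h2
  refine ⟨q, hqm, ?_⟩
  have h4 : res (q.eval₂ fV ⟨x, hxV⟩) = 0 := by
    rw [hom_eval₂]
    exact hq
  have h5 := (V.valuation_lt_one_iff _).1 ((IsLocalRing.residue_eq_zero_iff _).1 h4)
  have h6 : ((q.eval₂ fV ⟨x, hxV⟩ : V) : Ω) = q.eval₂ f x := by
    have := hom_eval₂ q fV (algebraMap V Ω) (⟨x, hxV⟩ : V)
    rw [hcomp] at this
    exact this
  rwa [h6] at h5

end Fermat.Agent.ESlib
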