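import Mathlib
import Fermat.Agent.S28.FIntegral
import Fermat.Agent.ES.C.AKDefs
import Fermat.Agent.ES.C.AK8Glob
import Fermat.Agent.ES.C.AKInt

/-!
# ES, AK0/AK1: API for `PiInt`, `GaussDom`, saturation
-/

set_option autoImplicit false
set_option linter.unusedSectionVars false
set_option linter.style.haveILetI false

namespace Fermat.Agent.ESlib

open Polynomial

section Basic

variable {R L : Type*} [CommRing R] [IsDomain R] [Field L] [Algebra R L] {π : R} {T : L}

/-- `C π` is prime in `R[X]`. -/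
theorem prime_C_of_prime (hπ : Prime π) : Prime (C π : R[X]) := Polynomial.prime_C_iff.2 hπ

theorem PiInt.of_isIntegral (hπ : Prime π) {x : L} (h : IsIntegral (Algebra.adjoin R {T}) x) :
    PiInt π T x :=
  ⟨1, (prime_C_of_prime hπ).not_dvd_one, by simpa using h⟩

theorem PiInt.add (hπ : Prime π) {x y : L} (hx : PiInt π T x) (hy : PiInt π T y) :
    PiInt π T (x + y) := by
  obtain ⟨r, hr, hrx⟩ := hx
  obtain ⟨s, hs, hsy⟩ := hy
  refine ⟨r * s, fun h => ((prime_C_of_prime hπ).dvd_or_dvd h).elim hr hs, ?_⟩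
  have : aeval T (r * s) * (x + y) = aeval T s * (aeval T r * x) + aeval T r * (aeval T s * y) := by
    rw [map_mul]; ring
  rw [this]
  exact ((isIntegral_aeval_adjoin T s).mul hrx).add ((isIntegral_aeval_adjoin T r).mul hsy)

theorem PiInt.neg {x : L} (hx : PiInt π T x) : PiInt π T (-x) := by
  obtain ⟨r, hr, hrx⟩ := hx
  exact ⟨r, hr, by rw [mul_neg]; exact hrx.neg⟩

theorem PiInt.sub (hπ : Prime π) {x y : L} (hx : PiInt π T x) (hy : PiInt π T y) :
    PiInt π T (x - y) := by
  rw [sub_eq_add_neg]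
  exact hx.add hπ hy.neg

theorem PiInt.mul (hπ : Prime π) {x y : L} (hx : PiInt π T x) (hy : PiInt π T y) :
    PiInt π T (x * y) := by
  obtain ⟨r, hr, hrx⟩ := hx
  obtain ⟨s, hs, hsy⟩ := hy
  refine ⟨r * s, fun h => ((prime_C_of_prime hπ).dvd_or_dvd h).elim hr hs, ?_⟩
  have : aeval T (r * s) * (x * y) = (aeval T r * x) * (aeval T s * y) := by
    rw [map_mul]; ring
  rw [this]
  exact hrx.mul hsy

theorem PiInt.pow (hπ : Prime π) {x : L} (hx : PiInt π T x) (n : ℕ) : PiInt π T (x ^ n) := by
  induction n with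
  | zero => simpa using PiInt.of_isIntegral hπ (T := T) isIntegral_one
  | succ n ih =>
    rw [pow_succ]
    exact ih.mul hπ hx

/-- `(r x) ^ n = r ^ (n - 1) * (r x ^ n)`. -/
theorem PiInt.of_pow {x : L} {n : ℕ} (hn : 0 < n) (hx : PiInt π T (x ^ n)) : PiInt π T x := by
  obtain ⟨r, hr, hrx⟩ := hx
  refine ⟨r, hr, IsIntegral.of_pow hn ?_⟩
  obtain ⟨m, rfl⟩ : ∃ m, n = m + 1 := ⟨n - 1, by omega⟩
  have : (aeval T r * x) ^ (m + 1) = aeval T r ^ m * (aeval T r * x ^ (m + 1)) := by ring
  rw [this]
  exact ((isIntegral_aeval_adjoin T r).pow m).mul hrx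

theorem PiInt.inv_aeval {r : R[X]} (hr : ¬ C π ∣ r) : PiInt π T (aeval T r)⁻¹ := by
  refine ⟨r, hr, ?_⟩
  by_cases h0 : aeval T r = 0
  · rw [h0, zero_mul]
    exact isIntegral_zero
  · rw [mul_inv_cancel₀ h0]
    exact isIntegral_one

/-- common denominator -/
theorem PiInt.exists_common (hπ : Prime π) {ι : Type*} (s : Finset ι) (c : ι → L)
    (hc : ∀ i ∈ s, PiInt π T (c i)) :
    ∃ r : R[X], ¬ C π ∣ r ∧ ∀ i ∈ s, IsIntegral (Algebra.adjoin R {T}) (aeval T r * c i) := by
  classical
  induction s using Finset.induction_on with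
  | empty => exact ⟨1, (prime_C_of_prime hπ).not_dvd_one, by simp⟩
  | insert a s ha ih =>
    obtain ⟨r, hr, hrs⟩ := ih fun i hi => hc i (Finset.mem_insert_of_mem hi)
    obtain ⟨r', hr', hra⟩ := hc a (Finset.mem_insert_self a s)
    refine ⟨r * r', fun h => ((prime_C_of_prime hπ).dvd_or_dvd h).elim hr hr', fun i hi => ?_⟩
    rcases Finset.mem_insert.1 hi with rfl | hi
    · rw [map_mul, mul_assoc]
      exact (isIntegral_aeval_adjoin T r).mul hra
    · rw [map_mul, mul_comm (aeval T r), mul_assoc]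
      exact (isIntegral_aeval_adjoin T r').mul (hrs i hi)

/-- the `π`-integral elements are integrally closed -/
theorem PiInt.of_monic (hπ : Prime π) {x : L} (p : L[X]) (hp : p.Monic)
    (hc : ∀ i, PiInt π T (p.coeff i)) (hx : p.eval x = 0) : PiInt π T x := by
  obtain ⟨r, hr, hrc⟩ := PiInt.exists_common hπ (Finset.range p.natDegree) p.coeff
    fun i _ => hc i
  refine ⟨r, hr, ?_⟩
  refine isIntegral_of_monic_of_coeff_isIntegral (p.scaleRoots (aeval T r))
    ((monic_scaleRoots_iff _).2 hp) (fun i => ?_) ?_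
  · rw [coeff_scaleRoots]
    rcases lt_trichotomy i p.natDegree with hi | hi | hi
    · obtain ⟨m, hm⟩ : ∃ m, p.natDegree - i = m + 1 := ⟨p.natDegree - i - 1, by omega⟩
      rw [hm, pow_succ, mul_comm (p.coeff i), mul_assoc]
      exact ((isIntegral_aeval_adjoin T r).pow m).mul (hrc i (Finset.mem_range.2 hi))
    · rw [hi, Nat.sub_self, pow_zero, mul_one, hp.coeff_natDegree]
      exact isIntegral_one
    · rw [coeff_eq_zero_of_natDegree_lt hi, zero_mul]
      exact isIntegral_zero
  · rw [scaleRoots_eval_mul, hx, mul_zero]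

end Basic

section Sat

variable {R K L : Type*} [CommRing R] [IsDomain R] [IsIntegrallyClosed R] [Field K] [Algebra R K]
  [IsFractionRing R K] [Field L] [Algebra K L] [Algebra R L] [IsScalarTower R K L] {π : R} {T : L}

omit [IsIntegrallyClosed R] in
theorem aeval_injective_of_transcendental (hT : Transcendental K T) :
    Function.Injective (aeval T : R[X] →ₐ[R] L) :=
  transcendental_iff_injective.1 (hT.restrictScalars (IsFractionRing.injective R K))

theorem isIntegral_of_piInt (hπ : Prime π) (hT : Transcendental K T) {x : L} (hx : PiInt π T x)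
    (h : IsIntegral (Algebra.adjoin R {T}) (algebraMap R L π * x)) :
    IsIntegral (Algebra.adjoin R {T}) x := by
  obtain ⟨r, hr, hrx⟩ := hx
  rw [isIntegral_adjoin_singleton_iff] at h hrx ⊢
  letI : Algebra R[X] L := ((aeval T : R[X] →ₐ[R] L) : R[X] →+* L).toAlgebra
  have hinj : Function.Injective (algebraMap R[X] L) := aeval_injective_of_transcendental hT
  haveI : Module.IsTorsionFree R[X] L := Module.isTorsionFree_iff_algebraMap_injective.2 hinj
  refine S28lib.isIntegral_of_isIntegral_smul (B := R[X]) (l := C π) (σ := r)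
    (prime_C_of_prime hπ) hr ?_ ?_
  · have : (C π : R[X]) • x = algebraMap R L π * x := by
      rw [Algebra.smul_def]
      show aeval T (C π) * x = _
      rw [aeval_C]
    rw [this]
    exact h
  · exact hrx

theorem inv_pow_mul_aeval (hT0 : T ≠ 0) (a : R[X]) {m : ℕ} (hm : a.natDegree ≤ m) :
    T⁻¹ ^ m * aeval T a = aeval T⁻¹ (a.reflect m) := by
  letI := invertibleOfNonzero hT0
  have h := eval₂_reflect_mul_pow (algebraMap R L) T m a hm
  rw [invOf_eq_inv] at h
  rw [aeval_def, aeval_def, ← h, mul_comm, mul_assoc, ← mul_pow, mul_inv_cancel₀ hT0, one_pow,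
    mul_one]

/-- multiply by a large power of `T⁻¹` -/
theorem exists_isIntegral_inv_pow_mul {x : L} (hT0 : T ≠ 0)
    (hx : IsIntegral (Algebra.adjoin R {T}) x) :
    ∃ s : ℕ, ∀ n, s ≤ n → IsIntegral (Algebra.adjoin R {T⁻¹}) (T⁻¹ ^ n * x) := by
  rw [isIntegral_adjoin_singleton_iff] at hx
  obtain ⟨q, hqm, hq⟩ := hx
  refine ⟨(Finset.range q.natDegree).sup fun i => (q.coeff i).natDegree, fun n hn => ?_⟩
  set f : R[X] →+* L := ((aeval T : R[X] →ₐ[R] L) : R[X] →+* L) with hf
  refine isIntegral_of_monic_of_coeff_isIntegral ((q.map f).scaleRoots (T⁻¹ ^ n))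
    ((monic_scaleRoots_iff _).2 (hqm.map f)) (fun i => ?_) ?_
  · rw [coeff_scaleRoots, hqm.natDegree_map, coeff_map]
    rcases lt_trichotomy i q.natDegree with hi | hi | hi
    · have h1 : (q.coeff i).natDegree ≤ n * (q.natDegree - i) := by
        have h2 : (q.coeff i).natDegree ≤ n :=
          le_trans (Finset.le_sup (f := fun i => (q.coeff i).natDegree) (Finset.mem_range.2 hi)) hn
        exact le_trans h2 (Nat.le_mul_of_pos_right n (by omega))
      rw [← pow_mul, mul_comm]
      show IsIntegral _ (T⁻¹ ^ (n * (q.natDegree - i)) * aeval T (q.coeff i))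
      rw [inv_pow_mul_aeval hT0 _ h1]
      exact isIntegral_aeval_adjoin _ _
    · rw [hi, Nat.sub_self, pow_zero, mul_one, hqm.coeff_natDegree, map_one]
      exact isIntegral_one
    · rw [coeff_eq_zero_of_natDegree_lt hi, map_zero, zero_mul]
      exact isIntegral_zero
  · rw [scaleRoots_eval_mul, eval_map, hq, mul_zero]

theorem PiInt.inv (hT0 : T ≠ 0) {x : L} (hx : PiInt π T x) : PiInt π T⁻¹ x := by
  obtain ⟨r, hr, hrx⟩ := hx
  obtain ⟨s, hs⟩ := exists_isIntegral_inv_pow_mul hT0 hrx
  refine ⟨r.reflect (max s r.natDegree), ?_, ?_⟩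
  · rintro ⟨q, hq⟩
    apply hr
    refine ⟨q.reflect (max s r.natDegree), ?_⟩
    rw [← reflect_C_mul, ← hq]
    ext i
    rw [coeff_reflect, coeff_reflect, revAt_invol]
  · rw [← inv_pow_mul_aeval hT0 r (le_max_right _ _), mul_assoc]
    exact hs _ (le_max_left _ _)

/-- the Gauss ring of the chart `T⁻¹` is the Gauss ring of the chart `T` -/
theorem piInt_inv_iff (hπ : Prime π) (hT : Transcendental K T) {x : L} :
    PiInt π T⁻¹ x ↔ PiInt π T x := by
  have hT0 : T ≠ 0 := by
    rintro rfl
    exact hT isAlgebraic_zero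
  refine ⟨fun h => ?_, fun h => PiInt.inv hT0 h⟩
  have := PiInt.inv (inv_ne_zero hT0) h
  rwa [inv_inv] at this

end Sat

section Val

variable {R K L Ω : Type*} [CommRing R] [IsDomain R] [Field K] [Algebra R K]
  [IsFractionRing R K] [Field L] [Algebra K L] [Algebra R L] [IsScalarTower R K L] [Field Ω]
  {π : R} {T : L}

theorem GaussDom.valuation_le_one_of_isIntegral {V : ValuationSubring Ω} {σ : L →+* Ω}
    (h : GaussDom π T V σ) {x : L} (hx : IsIntegral (Algebra.adjoin R {T}) x) :
    V.valuation (σ x) ≤ 1 := by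
  rw [isIntegral_adjoin_singleton_iff] at hx
  rw [V.valuation_le_one_iff]
  refine mem_valuationSubring_of_isIntegralElem V
    (σ.comp ((aeval T : R[X] →ₐ[R] L) : R[X] →+* L)) (fun a => (h a).1) ?_
  obtain ⟨q, hqm, hq⟩ := hx
  refine ⟨q, hqm, ?_⟩
  rw [← hom_eval₂, hq, map_zero]

theorem GaussDom.valuation_le_one {V : ValuationSubring Ω} {σ : L →+* Ω}
    (h : GaussDom π T V σ) {x : L} (hx : PiInt π T x) : V.valuation (σ x) ≤ 1 := by
  obtain ⟨r, hr, hrx⟩ := hx
  have h1 := h.valuation_le_one_of_isIntegral hrx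
  have h2 : V.valuation (σ (aeval T r)) = 1 :=
    le_antisymm (h r).1 (not_lt.1 fun hlt => hr ((h r).2.1 hlt))
  rwa [map_mul, map_mul, h2, one_mul] at h1

theorem GaussDom.valuation_pi_lt_one {V : ValuationSubring Ω} {σ : L →+* Ω}
    (h : GaussDom π T V σ) : V.valuation (σ (algebraMap R L π)) < 1 := by
  have := (h (C π)).2.2 dvd_rfl
  rwa [aeval_C] at this

theorem exists_gaussDom (hπ : Prime π) (hT : Transcendental K T) (σ : L →+* Ω) :
    ∃ V : ValuationSubring Ω, GaussDom π T V σ := by
  have hP : (Ideal.span {(C π : R[X])}).IsPrime :=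
    (Ideal.span_singleton_prime (prime_C_of_prime hπ).ne_zero).2 (prime_C_of_prime hπ)
  set P : Ideal R[X] := Ideal.span {(C π : R[X])} with hPdef
  let φ : R[X] →+* Ω := σ.comp ((aeval T : R[X] →ₐ[R] L) : R[X] →+* L)
  have hφ : Function.Injective φ :=
    σ.injective.comp (aeval_injective_of_transcendental (K := K) hT)
  have hunit : ∀ y : P.primeCompl, IsUnit (φ y) := by
    intro y
    refine IsUnit.mk0 _ fun h0 => y.2 ?_
    have : (y : R[X]) = 0 := hφ (by rw [h0, map_zero])
    rw [this]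
    exact P.zero_mem
  let f : Localization.AtPrime P →+* Ω := IsLocalization.lift hunit
  have hf : ∀ p : R[X], f (algebraMap R[X] (Localization.AtPrime P) p) = φ p :=
    fun p => IsLocalization.lift_eq hunit p
  obtain ⟨V, hV, hloc⟩ := IsLocalRing.exists_factor_valuationRing f
  refine ⟨V, fun p => ?_⟩
  have hmem : φ p ∈ V := by rw [← hf]; exact hV _
  have hle : V.valuation (φ p) ≤ 1 := (V.valuation_le_one_iff _).2 hmem
  refine ⟨hle, ?_, ?_⟩
  · intro hlt
    by_contra hnd
    have hu : IsUnit (algebraMap R[X] (Localization.AtPrime P) p) :=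
      IsLocalization.map_units (Localization.AtPrime P)
        (⟨p, fun hp => hnd (Ideal.mem_span_singleton.1 hp)⟩ : P.primeCompl)
    have hu' := hu.map (f.codRestrict V.toSubring hV)
    have h1 := (V.valuation_eq_one_iff _).1 hu'
    have h2 : ((f.codRestrict V.toSubring hV (algebraMap R[X] (Localization.AtPrime P) p) : V) : Ω)
        = φ p := hf p
    rw [h2] at h1
    exact absurd (show V.valuation (φ p) < 1 from hlt) (by rw [h1]; exact lt_irrefl _)
  · intro hd
    refine lt_of_le_of_ne hle fun h1 => ?_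
    have h2 : ((f.codRestrict V.toSubring hV (algebraMap R[X] (Localization.AtPrime P) p) : V) : Ω)
        = φ p := hf p
    have hu' : IsUnit (f.codRestrict V.toSubring hV (algebraMap R[X] (Localization.AtPrime P) p)) := by
      apply (V.valuation_eq_one_iff _).2
      rw [h2]
      exact h1
    have hu := hloc.map_nonunit _ hu'
    have := (IsLocalization.AtPrime.isUnit_to_map_iff (Localization.AtPrime P) P p).1 hu
    exact this (Ideal.mem_span_singleton.2 hd)

end Val

section Root

variable {R K E L1 : Type*} [CommRing R] [IsDomain R] [Field K] [Algebra R K]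
  [IsFractionRing R K] [Field E] [Algebra K E] [Algebra R E] [IsScalarTower R K E]
  [Field L1] [Algebra E L1] [Algebra K L1] [Algebra R L1] [IsScalarTower K E L1]
  [IsScalarTower R E L1] [IsScalarTower R K L1]
  {π : R} {T : E} {u : L1} {b0 : R} {M : ℕ}

theorem aeval_comp_root (hu : u ^ M = algebraMap E L1 (T - algebraMap R E b0)) (p : R[X]) :
    aeval u (p.comp (X ^ M + C b0)) = algebraMap E L1 (aeval T p) := by
  rw [aeval_comp, map_add, map_pow, aeval_X, aeval_C, hu, map_sub,
    ← IsScalarTower.algebraMap_apply R E L1, sub_add_cancel, aeval_algebraMap_apply]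

theorem C_dvd_comp_root_iff (hπ : Prime π) (hM : 0 < M) (p : R[X]) :
    C π ∣ p.comp (X ^ M + C b0) ↔ C π ∣ p := by
  constructor
  · intro h
    have hI : (Ideal.span {π}).IsPrime := (Ideal.span_singleton_prime hπ.ne_zero).2 hπ
    have key : ∀ q : R[X], C π ∣ q ↔ q.map (Ideal.Quotient.mk (Ideal.span {π})) = 0 := by
      intro q
      rw [C_dvd_iff_dvd_coeff, Polynomial.ext_iff]
      refine forall_congr' fun i => ?_
      rw [coeff_map, coeff_zero, Ideal.Quotient.eq_zero_iff_mem, Ideal.mem_span_singleton]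
    rw [key] at h ⊢
    rw [map_comp, comp_eq_zero_iff] at h
    rcases h with h | ⟨-, h⟩
    · exact h
    · exfalso
      have h1 := congrArg natDegree h
      rw [natDegree_C, Polynomial.map_add, Polynomial.map_pow, map_X, map_C,
        natDegree_X_pow_add_C] at h1
      omega
  · rintro ⟨q, rfl⟩
    exact ⟨q.comp (X ^ M + C b0), by rw [mul_comp, C_comp]⟩

theorem transcendental_root (hM : 0 < M) (hT : Transcendental K T)
    (hu : u ^ M = algebraMap E L1 (T - algebraMap R E b0)) : Transcendental K u := by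
  intro hal
  apply hT
  have h1 : IsAlgebraic K (algebraMap E L1 (T - algebraMap R E b0)) := hu ▸ hal.pow M
  have h2 : IsAlgebraic K (T - algebraMap R E b0) :=
    (isAlgebraic_algebraMap_iff (algebraMap E L1).injective).1 h1
  have h3 : IsAlgebraic K (algebraMap R E b0) := by
    rw [IsScalarTower.algebraMap_apply R K E]
    exact isAlgebraic_algebraMap _
  simpa using h2.add h3

theorem isIntegral_root_of_isIntegral
    (hu : u ^ M = algebraMap E L1 (T - algebraMap R E b0)) {x : E}
    (hx : IsIntegral (Algebra.adjoin R {T}) x) :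
    IsIntegral (Algebra.adjoin R {u}) (algebraMap E L1 x) := by
  rw [isIntegral_adjoin_singleton_iff] at hx ⊢
  obtain ⟨q, hqm, hq⟩ := hx
  refine ⟨q.map (compRingHom (X ^ M + C b0)), hqm.map _, ?_⟩
  have hcomp : (((aeval u : R[X] →ₐ[R] L1) : R[X] →+* L1)).comp (compRingHom (X ^ M + C b0)) =
      (algebraMap E L1).comp ((aeval T : R[X] →ₐ[R] E) : R[X] →+* E) :=
    RingHom.ext fun p => aeval_comp_root hu p
  rw [eval₂_map, hcomp, ← hom_eval₂, hq, map_zero]

/-- `R[u]` is integral over `R[T]`. -/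
theorem isIntegral_of_isIntegral_root (hM : 0 < M)
    (hu : u ^ M = algebraMap E L1 (T - algebraMap R E b0)) {z : L1}
    (hz : IsIntegral (Algebra.adjoin R {u}) z) : IsIntegral (Algebra.adjoin R {T}) z := by
  have hmem : T - algebraMap R E b0 ∈ Algebra.adjoin R {T} :=
    Subalgebra.sub_mem _ (Algebra.self_mem_adjoin_singleton R T) (Subalgebra.algebraMap_mem _ _)
  have hua : IsIntegral (Algebra.adjoin R {T}) u := by
    refine IsIntegral.of_pow hM ?_
    rw [hu]
    exact isIntegral_algebraMap (R := Algebra.adjoin R {T}) (x := ⟨_, hmem⟩)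
  have hc : ∀ c : R, IsIntegral (Algebra.adjoin R {T}) (algebraMap R L1 c) := by
    intro c
    rw [IsScalarTower.algebraMap_apply R E L1]
    exact isIntegral_algebraMap (R := Algebra.adjoin R {T})
      (x := ⟨algebraMap R E c, Subalgebra.algebraMap_mem _ _⟩)
  have hp : ∀ p : R[X], IsIntegral (Algebra.adjoin R {T}) (aeval u p) := by
    intro p
    rw [aeval_eq_sum_range]
    refine IsIntegral.sum _ fun i _ => ?_
    rw [Algebra.smul_def]
    exact (hc _).mul (hua.pow i)
  rw [isIntegral_adjoin_singleton_iff] at hz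
  obtain ⟨q, hqm, hq⟩ := hz
  refine isIntegral_of_monic_of_coeff_isIntegral
    (q.map ((aeval u : R[X] →ₐ[R] L1) : R[X] →+* L1)) (hqm.map _) (fun i => ?_) ?_
  · rw [coeff_map]
    exact hp _
  · rw [eval_map, hq]

theorem PiInt.map_root (hπ : Prime π) (hM : 0 < M)
    (hu : u ^ M = algebraMap E L1 (T - algebraMap R E b0)) {x : E} (hx : PiInt π T x) :
    PiInt π u (algebraMap E L1 x) := by
  obtain ⟨r, hr, hrx⟩ := hx
  refine ⟨r.comp (X ^ M + C b0), fun h => hr ((C_dvd_comp_root_iff hπ hM r).1 h), ?_⟩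
  rw [aeval_comp_root hu, ← map_mul]
  exact isIntegral_root_of_isIntegral hu hrx

theorem IntModPi.map_root (hπ : Prime π) (hM : 0 < M)
    (hu : u ^ M = algebraMap E L1 (T - algebraMap R E b0)) {x : E} (hx : IntModPi π T x) :
    IntModPi π u (algebraMap E L1 x) := by
  obtain ⟨p, hpm, hpc, hpx⟩ := hx
  refine ⟨p.map (algebraMap E L1), hpm.map _, fun i => ?_, ?_⟩
  · rw [coeff_map]
    exact isIntegral_root_of_isIntegral hu (hpc i)
  · rw [eval_map_apply, IsScalarTower.algebraMap_apply R E L1, ← map_div₀]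
    exact PiInt.map_root hπ hM hu hpx

theorem GaussDom.comp_root {Ω : Type*} [Field Ω] (hπ : Prime π) (hM : 0 < M)
    (hu : u ^ M = algebraMap E L1 (T - algebraMap R E b0)) {V : ValuationSubring Ω}
    {σ : L1 →+* Ω} (h : GaussDom π u V σ) : GaussDom π T V (σ.comp (algebraMap E L1)) := by
  intro p
  have h1 := h (p.comp (X ^ M + C b0))
  rw [aeval_comp_root hu, C_dvd_comp_root_iff hπ hM] at h1
  exact h1

end Root

end Fermat.Agent.ESlib
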