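import Mathlib
import Fermat.Agent.S28.FIntegral
import Fermat.Agent.S57Lib.Free
import Fermat.Agent.ES.C.AKDefs

/-!
# ES, AK2: freeness of the integral closure over a two-dimensional regular local ring
-/

set_option autoImplicit false

namespace Fermat.Agent.ESlib

open IsLocalRing

universe u

/-- **AK2.** `O` local noetherian normal domain with maximal ideal `(π, s)`, `π` prime, `π ∤ s`.
The integral closure of `O` in a finite extension `L` of `Kt = Frac O` (char. 0) is free.

Proof: `B := integralClosure O L` is a finite `O`-module (`IsIntegralClosure.finite`);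
`[π, s]` is a weakly regular sequence on `B`: `π` is regular (`B` is a domain) and if
`s x ∈ π B` then `y := x / π` has `π y, s y` integral, so `y` is integral by
`S28lib.isIntegral_of_isIntegral_smul`.  `S57Lib.free_of_isWeaklyRegular 2` gives freeness.
A basis of `B` over `O` is a basis of `L` over `Kt` (`B` is a lattice:
`IsIntegralClosure.isLocalization` / `Basis.localizationLocalization`). -/
theorem exists_isIntBasis {O L : Type u} {Kt : Type*} [CommRing O] [IsDomain O] [IsLocalRing O]
    [IsNoetherianRing O] [IsIntegrallyClosed O] [Field Kt] [Field L] [Algebra O Kt]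
    [IsFractionRing O Kt] [Algebra Kt L] [Algebra O L] [IsScalarTower O Kt L]
    [FiniteDimensional Kt L] [CharZero Kt]
    (π s : O) (hmax : maximalIdeal O = Ideal.span {π, s}) (hπ : Prime π) (hs : ¬ π ∣ s) :
    ∃ b : Module.Basis (Fin (Module.finrank Kt L)) Kt L, IsIntBasis O b := by
  classical
  have hTF : Module.IsTorsionFree O L := .trans_faithfulSMul O Kt L
  have hfin : Module.Finite O (integralClosure O L) :=
    IsIntegralClosure.finite O Kt L (integralClosure O L)
  have hloc : IsLocalization (Algebra.algebraMapSubmonoid (integralClosure O L)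
      (nonZeroDivisors O)) L := IsIntegralClosure.isLocalization O Kt L (integralClosure O L)
  have hπ0 : π ≠ 0 := hπ.ne_zero
  have hπL : algebraMap O L π ≠ 0 := by
    rw [Ne, FaithfulSMul.algebraMap_eq_zero_iff]
    exact hπ0
  -- the regular sequence
  have hreg : RingTheory.Sequence.IsWeaklyRegular (integralClosure O L) [π, s] := by
    rw [RingTheory.Sequence.isWeaklyRegular_cons_iff,
      RingTheory.Sequence.isWeaklyRegular_singleton_iff]
    constructor
    · intro x y hxy
      have h1 : π • (x : L) = π • (y : L) := congrArg Subtype.val hxy
      exact Subtype.ext (smul_right_injective L hπ0 h1)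
    · rw [isSMulRegular_iff_right_eq_zero_of_smul]
      intro x hx
      obtain ⟨x, rfl⟩ := Submodule.Quotient.mk_surjective _ x
      rw [← Submodule.Quotient.mk_smul, Submodule.Quotient.mk_eq_zero] at hx
      rw [Submodule.Quotient.mk_eq_zero]
      obtain ⟨z, -, hz⟩ := (Submodule.mem_smul_pointwise_iff_exists _ _ _).1 hx
      have hz' : π • (z : L) = s • (x : L) := congrArg Subtype.val hz
      -- y = x / π
      have hy : IsIntegral O ((x : L) / algebraMap O L π) := by
        refine S28lib.isIntegral_of_isIntegral_smul hπ hs ?_ ?_
        · rw [Algebra.smul_def, mul_div_cancel₀ _ hπL]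
          exact x.2
        · have : s • ((x : L) / algebraMap O L π) = z := by
            rw [eq_comm, Algebra.smul_def, ← mul_div_assoc, eq_div_iff hπL, ← Algebra.smul_def,
              ← hz', Algebra.smul_def, mul_comm]
          rw [this]
          exact z.2
      refine (Submodule.mem_smul_pointwise_iff_exists _ _ _).2
        ⟨⟨_, hy⟩, Submodule.mem_top, Subtype.ext ?_⟩
      change π • ((x : L) / algebraMap O L π) = x
      rw [Algebra.smul_def, mul_div_cancel₀ _ hπL]
  have hfree : Module.Free O (integralClosure O L) := by
    refine S57Lib.free_of_isWeaklyRegular 2 O (integralClosure O L) {π, s} Finset.card_le_two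
      ?_ [π, s] rfl ?_ hreg
    · rw [hmax]
      simp
    · intro r hr
      rw [hmax]
      simp only [List.mem_cons, List.not_mem_nil, or_false] at hr
      rcases hr with rfl | rfl
      · exact Ideal.subset_span (by simp)
      · exact Ideal.subset_span (by simp)
  let b0 := Module.Free.chooseBasis O (integralClosure O L)
  let b1 : Module.Basis _ Kt L := b0.localizationLocalization Kt (nonZeroDivisors O) L
  have hcard : Fintype.card (Module.Free.ChooseBasisIndex O (integralClosure O L)) =
      Module.finrank Kt L := (Module.finrank_eq_card_basis b1).symm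
  let e := Fintype.equivFinOfCardEq hcard
  refine ⟨b1.reindex e, fun x => ⟨fun hx k => ?_, fun hx => ?_⟩⟩
  · have h1 := b0.localizationLocalization_repr_algebraMap Kt (nonZeroDivisors O) L ⟨x, hx⟩
      (e.symm k)
    rw [Module.Basis.repr_reindex_apply]
    exact ⟨_, h1.symm⟩
  · rw [← (b1.reindex e).sum_repr x]
    refine IsIntegral.sum _ fun k _ => ?_
    obtain ⟨c, hc⟩ := hx k
    rw [← hc, algebraMap_smul]
    refine IsIntegral.smul _ ?_
    rw [Module.Basis.reindex_apply, Module.Basis.localizationLocalization_apply]
    exact (b0 (e.symm k)).2

end Fermat.Agent.ESlib
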