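import Mathlib
import Fermat.Agent.ES.C.AKDefs

/-!
# ES, AK4: the discriminant criterion at `π`
-/

set_option autoImplicit false

namespace Fermat.Agent.ESlib

section Common

variable {O Kt L Ω : Type*} [CommRing O] [Field Kt] [Field L] [Algebra O Kt] [Algebra Kt L]
  [Algebra O L] [IsScalarTower O Kt L] [Field Ω] [Algebra Kt Ω] (V : ValuationSubring Ω)

/-- The ring hom `O → V` when the image of `O` in `Ω` lies in `V`. -/
def toValSub (hV : ∀ a : O, V.valuation (algebraMap Kt Ω (algebraMap O Kt a)) ≤ 1) : O →+* V :=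
  ((algebraMap Kt Ω).comp (algebraMap O Kt)).codRestrict V.toSubring
    (fun a => (V.valuation_le_one_iff _).1 (hV a))

@[simp] theorem coe_toValSub (hV : ∀ a : O, V.valuation (algebraMap Kt Ω (algebraMap O Kt a)) ≤ 1)
    (a : O) : ((toValSub V hV a : V) : Ω) = algebraMap Kt Ω (algebraMap O Kt a) := rfl

/-- Embeddings map integral elements into `V`. -/
theorem emb_mem_of_isIntegral
    (hV : ∀ a : O, V.valuation (algebraMap Kt Ω (algebraMap O Kt a)) ≤ 1)
    (σ : L →ₐ[Kt] Ω) {x : L} (hx : IsIntegral O x) : σ x ∈ V := by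
  letI : Algebra O Ω := ((algebraMap Kt Ω).comp (algebraMap O Kt)).toAlgebra
  haveI : IsScalarTower O Kt Ω := IsScalarTower.of_algebraMap_eq (fun _ => rfl)
  letI : Algebra O V := (toValSub V hV).toAlgebra
  haveI : IsScalarTower O V Ω := IsScalarTower.of_algebraMap_eq (fun _ => rfl)
  have h1 : IsIntegral O (σ x) := hx.map σ
  have h2 : IsIntegral V (σ x) := h1.tower_top
  obtain ⟨y, hy⟩ := IsIntegrallyClosed.isIntegral_iff.1 h2
  rw [← hy]
  exact y.2

/-- The character `B → V / 𝔪_V` attached to an embedding. -/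
noncomputable def resChar
    (hV : ∀ a : O, V.valuation (algebraMap Kt Ω (algebraMap O Kt a)) ≤ 1)
    (σ : L →ₐ[Kt] Ω) : integralClosure O L →+* IsLocalRing.ResidueField V :=
  (IsLocalRing.residue V).comp
    (((σ : L →+* Ω).comp (integralClosure O L).val.toRingHom).codRestrict V.toSubring
      (fun x => emb_mem_of_isIntegral V hV σ x.2))

theorem resChar_apply
    (hV : ∀ a : O, V.valuation (algebraMap Kt Ω (algebraMap O Kt a)) ≤ 1)
    (σ : L →ₐ[Kt] Ω) (x : integralClosure O L) :
    resChar V hV σ x = IsLocalRing.residue V ⟨σ x, emb_mem_of_isIntegral V hV σ x.2⟩ := rfl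

theorem resChar_algebraMap
    (hV : ∀ a : O, V.valuation (algebraMap Kt Ω (algebraMap O Kt a)) ≤ 1)
    (σ : L →ₐ[Kt] Ω) (a : O) :
    resChar V hV σ (algebraMap O (integralClosure O L) a) =
      IsLocalRing.residue V (toValSub V hV a) := by
  rw [resChar_apply]
  congr 1
  apply Subtype.ext
  change σ (algebraMap O L a) = _
  rw [IsScalarTower.algebraMap_apply O Kt L, AlgHom.commutes]
  rfl

/-- `residue x = 0 ↔ v x < 1`. -/
theorem residue_eq_zero_iff_val (x : V) :
    IsLocalRing.residue V x = 0 ↔ V.valuation (x : Ω) < 1 := by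
  rw [IsLocalRing.residue_eq_zero_iff, ValuationSubring.valuation_lt_one_iff]

end Common

/-- **AK4.** `b` an integral basis of `L / Kt` over `O`, `V` a valuation subring of the
algebraically closed field `Ω ⊇ Kt` with `O ⊆ V`, `𝔪_V ∩ O = (π)`.  If any two distinct
`Kt`-embeddings `σ ≠ σ'` of `L` in `Ω` are separated modulo `𝔪_V` by a `π`-integral element, then
`π ∤ disc(b)`.

Proof: `disc(b) = det(σ_i b_k)^2` (`Algebra.discr_eq_det_embeddingsMatrixReindex_pow_two`).
The `σ_i` map integral elements in `V`.  If `π ∣ d` the matrix `(σ_i b_k mod 𝔪_V)` over the residue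
field `k` of `V` is singular: there is `λ ≠ 0` with `∑ λ_i (σ_i b_k mod 𝔪) = 0` for all `k`, hence
`∑ λ_i χ_i = 0` where `χ_i : B → k` (`B = integralClosure O L`) is the ring hom `x ↦ σ_i x mod 𝔪`
(every `x ∈ B` is an `O`-combination of the `b_k`).  The `χ_i` are pairwise distinct:
`χ_i (r c) - χ_j (r c) = r (σ_i c - σ_j c) ≠ 0`.  Contradiction with
`linearIndependent_monoidHom`. -/
theorem not_dvd_discr_of_unitDiff {O Kt L Ω ι : Type*} [CommRing O] [IsDomain O]
    [Field Kt] [Field L] [Algebra O Kt] [IsFractionRing O Kt] [Algebra Kt L] [Algebra O L]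
    [IsScalarTower O Kt L] [FiniteDimensional Kt L] [CharZero Kt] [Fintype ι] [DecidableEq ι]
    (π : O) (b : Module.Basis ι Kt L) (hb : IsIntBasis O b)
    [Field Ω] [IsAlgClosed Ω] [Algebra Kt Ω] (V : ValuationSubring Ω)
    (hV : ∀ a : O, V.valuation (algebraMap Kt Ω (algebraMap O Kt a)) ≤ 1)
    (hVπ : ∀ a : O, V.valuation (algebraMap Kt Ω (algebraMap O Kt a)) < 1 ↔ π ∣ a)
    (hsep : ∀ σ σ' : L →ₐ[Kt] Ω, σ ≠ σ' →
      ∃ c : L, (∃ r : O, ¬ π ∣ r ∧ IsIntegral O (r • c)) ∧ V.valuation (σ c - σ' c) = 1)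
    (d : O) (hd : algebraMap O Kt d = Algebra.discr Kt b) : ¬ π ∣ d := by
  classical
  intro hπd
  -- the basis elements are integral
  have hbint : ∀ i, IsIntegral O (b i) := by
    intro i
    rw [hb]
    intro k
    rw [Module.Basis.repr_self]
    by_cases hik : i = k
    · subst hik
      exact ⟨1, by simp⟩
    · exact ⟨0, by simp [Finsupp.single_apply, hik]⟩
  -- an enumeration of the embeddings
  have hcard : Fintype.card ι = Fintype.card (L →ₐ[Kt] Ω) := by
    rw [AlgHom.card, Module.finrank_eq_card_basis b]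
  let e : ι ≃ (L →ₐ[Kt] Ω) := Fintype.equivOfCardEq hcard
  have hdisc := Algebra.discr_eq_det_embeddingsMatrixReindex_pow_two Kt Ω b e
  -- the matrix over `V`
  let A' : Matrix ι ι V := fun i j => ⟨e j (b i), emb_mem_of_isIntegral V hV (e j) (hbint i)⟩
  have hA' : Algebra.embeddingsMatrixReindex Kt Ω b e = V.subtype.mapMatrix A' := by
    ext i j
    rfl
  have hdet : (Algebra.embeddingsMatrixReindex Kt Ω b e).det = ((A'.det : V) : Ω) := by
    rw [hA', ← RingHom.map_det]
    rfl
  have hval : V.valuation ((A'.det : V) : Ω) < 1 := by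
    have h1 : V.valuation (algebraMap Kt Ω (algebraMap O Kt d)) < 1 := (hVπ d).2 hπd
    rw [hd, hdisc, hdet, map_pow] at h1
    exact (pow_lt_one_iff_of_nonneg zero_le two_ne_zero).1 h1
  have hdet0 : ((IsLocalRing.residue V).mapMatrix A').det = 0 := by
    rw [← RingHom.map_det, residue_eq_zero_iff_val]
    exact hval
  obtain ⟨v, hv0, hv⟩ := Matrix.exists_mulVec_eq_zero_iff.2 hdet0
  -- the characters
  let χ : ι → (integralClosure O L →* IsLocalRing.ResidueField V) :=
    fun j => (resChar V hV (e j) : integralClosure O L →* IsLocalRing.ResidueField V)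
  have hχinj : Function.Injective χ := by
    intro i j hij
    by_contra hne
    have hne' : e i ≠ e j := fun h => hne (e.injective h)
    obtain ⟨c, ⟨r, hr, hrc⟩, hc⟩ := hsep _ _ hne'
    have h1 : χ i ⟨r • c, hrc⟩ = χ j ⟨r • c, hrc⟩ := by rw [hij]
    have h2 : resChar V hV (e i) ⟨r • c, hrc⟩ = resChar V hV (e j) ⟨r • c, hrc⟩ := h1
    rw [resChar_apply, resChar_apply, ← sub_eq_zero, ← map_sub, residue_eq_zero_iff_val] at h2
    have h3 : V.valuation (algebraMap Kt Ω (algebraMap O Kt r) * (e i c - e j c)) < 1 := by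
      convert h2 using 2
      change _ = e i (r • c) - e j (r • c)
      rw [Algebra.smul_def, IsScalarTower.algebraMap_apply O Kt L, map_mul, map_mul,
        AlgHom.commutes, AlgHom.commutes]
      ring
    rw [map_mul, hc, mul_one] at h3
    exact hr ((hVπ r).1 h3)
  have hli : LinearIndependent (IsLocalRing.ResidueField V)
      (fun j => (χ j : integralClosure O L → IsLocalRing.ResidueField V)) :=
    (linearIndependent_monoidHom (integralClosure O L) (IsLocalRing.ResidueField V)).comp χ hχinj
  rw [Fintype.linearIndependent_iff] at hli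
  apply hv0
  funext j
  refine hli v ?_ j
  funext x
  -- write `x` in the basis
  have hx := (hb x.1).1 x.2
  choose a ha using hx
  have hxsum : x = ∑ i, algebraMap O (integralClosure O L) (a i) * ⟨b i, hbint i⟩ := by
    apply Subtype.ext
    rw [AddSubmonoidClass.coe_finsetSum]
    conv_lhs => rw [← b.sum_repr x.1]
    refine Finset.sum_congr rfl fun i _ => ?_
    rw [← ha i]
    change _ = algebraMap O L (a i) * b i
    rw [Algebra.smul_def, IsScalarTower.algebraMap_apply O Kt L]
  have hvi : ∀ i, ∑ j, v j * resChar V hV (e j) ⟨b i, hbint i⟩ = 0 := by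
    intro i
    have := congrFun hv i
    simp only [Matrix.mulVec, dotProduct, Pi.zero_apply] at this
    rw [← this]
    refine Finset.sum_congr rfl fun j _ => ?_
    rw [mul_comm]
    rfl
  simp only [Finset.sum_apply, Pi.smul_apply, smul_eq_mul, Pi.zero_apply]
  have hχx : ∀ j, (χ j) x = ∑ i, IsLocalRing.residue V (toValSub V hV (a i)) *
      resChar V hV (e j) ⟨b i, hbint i⟩ := by
    intro j
    change resChar V hV (e j) x = _
    conv_lhs => rw [hxsum]
    rw [map_sum]
    refine Finset.sum_congr rfl fun i _ => ?_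
    rw [map_mul, resChar_algebraMap]
  simp_rw [hχx, Finset.mul_sum]
  rw [Finset.sum_comm]
  refine Finset.sum_eq_zero fun i _ => ?_
  have := hvi i
  calc ∑ j, v j * (IsLocalRing.residue V (toValSub V hV (a i)) *
        resChar V hV (e j) ⟨b i, hbint i⟩)
      = IsLocalRing.residue V (toValSub V hV (a i)) *
        ∑ j, v j * resChar V hV (e j) ⟨b i, hbint i⟩ := by
        rw [Finset.mul_sum]
        refine Finset.sum_congr rfl fun j _ => ?_
        ring
    _ = 0 := by rw [this, mul_zero]

end Fermat.Agent.ESlib
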