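import Mathlib

/-!
# ES, AK5: the discriminant criterion at a horizontal prime (residue characteristic zero)
-/

set_option autoImplicit false

namespace Fermat.Agent.ESlib

open Polynomial

section Newton

/-- In characteristic zero, if all power sums vanish then all the elements vanish. -/
theorem eq_zero_of_forall_psum_eq_zero {k ι : Type*} [Field k] [CharZero k] [Fintype ι] (a : ι → k)
    (h : ∀ n : ℕ, 0 < n → ∑ i, a i ^ n = 0) (i : ι) : a i = 0 := by
  classical
  have hps : ∀ n : ℕ, 0 < n → MvPolynomial.aeval a (MvPolynomial.psum ι k n) = 0 := by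
    intro n hn
    rw [MvPolynomial.psum, map_sum]
    simpa using h n hn
  have hes : ∀ n : ℕ, 0 < n → MvPolynomial.aeval a (MvPolynomial.esymm ι k n) = 0 := by
    intro n hn
    have h1 := congrArg (MvPolynomial.aeval a) (MvPolynomial.mul_esymm_eq_sum ι k n)
    rw [map_mul, map_mul, map_sum, map_natCast] at h1
    have h2 : ∑ x ∈ Finset.HasAntidiagonal.antidiagonal n with x.1 < n, (MvPolynomial.aeval a)
        ((-1) ^ x.1 * MvPolynomial.esymm ι k x.1 * MvPolynomial.psum ι k x.2) = 0 := by
      apply Finset.sum_eq_zero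
      intro x hx
      rw [Finset.mem_filter, Finset.HasAntidiagonal.mem_antidiagonal] at hx
      rw [map_mul, hps x.2 (by omega), mul_zero]
    rw [h2, mul_zero] at h1
    exact (mul_eq_zero.mp h1).resolve_left (by exact_mod_cast hn.ne')
  have hprod : ((Finset.univ.val.map a).map fun t => X - C t).prod
      = X ^ Fintype.card ι := by
    rw [Multiset.prod_X_sub_X_eq_sum_esymm, Finset.sum_range_succ', Finset.sum_eq_zero]
    · simp [Multiset.esymm]
    · intro j _
      rw [← MvPolynomial.aeval_esymm_eq_multiset_esymm ι k, hes _ (Nat.succ_pos j)]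
      simp
  have hroot : (((Finset.univ.val.map a).map fun t => X - C t).prod).eval (a i) = 0 := by
    rw [eval_multiset_prod]
    apply Multiset.prod_eq_zero
    rw [Multiset.mem_map]
    refine ⟨X - C (a i), ?_, by simp⟩
    rw [Multiset.mem_map]
    exact ⟨a i, Multiset.mem_map.mpr ⟨i, Finset.mem_univ_val i, rfl⟩, rfl⟩
  rw [hprod, eval_pow, eval_X] at hroot
  exact pow_eq_zero_iff (Fintype.card_pos_iff.mpr ⟨i⟩).ne' |>.mp hroot

end Newton

section aux

/-- coefficients of a product of `X - c * s` -/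
theorem pow_dvd_coeff_prod_X_sub_C_mul {V : Type*} [CommRing V] (c : V) (R : Multiset V) (i : ℕ) :
    c ^ (Multiset.card R - i) ∣ ((R.map fun s => X - C (c * s)).prod).coeff i := by
  induction R using Multiset.induction generalizing i with
  | empty => simp
  | cons s R ih =>
    rw [Multiset.map_cons, Multiset.prod_cons, Multiset.card_cons]
    cases i with
    | zero =>
      rw [mul_coeff_zero, Nat.sub_zero, pow_succ']
      have h1 := ih 0
      rw [Nat.sub_zero] at h1
      have h2 : (X - C (c * s)).coeff 0 = c * (-s) := by simp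
      rw [h2, mul_assoc]
      exact mul_dvd_mul_left c (Dvd.dvd.mul_left h1 _)
    | succ i =>
      rw [coeff_X_sub_C_mul, Nat.add_sub_add_right]
      apply dvd_sub (ih i)
      by_cases hi : i + 1 ≤ Multiset.card R
      · have h3 : Multiset.card R - i = (Multiset.card R - (i + 1)) + 1 := by omega
        rw [h3, pow_succ, mul_comm (c * s)]
        exact mul_dvd_mul (ih (i + 1)) (Dvd.intro _ rfl)
      · have h3 : Multiset.card R - i = 0 := by omega
        rw [h3, pow_zero]
        exact one_dvd _

/-- lifting a multiset along a map -/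
theorem exists_multiset_map_eq {α β : Type*} (f : α → β) (R : Multiset β)
    (h : ∀ x ∈ R, ∃ y, f y = x) : ∃ R' : Multiset α, R'.map f = R := by
  induction R using Multiset.induction with
  | empty => exact ⟨0, rfl⟩
  | cons x R ih =>
    obtain ⟨y, hy⟩ := h x (Multiset.mem_cons_self x R)
    obtain ⟨R', hR'⟩ := ih fun z hz => h z (Multiset.mem_cons_of_mem hz)
    exact ⟨y ::ₘ R', by rw [Multiset.map_cons, hy, hR']⟩

/-- an element `x` of a field whose minimal polynomial over `O` has `i`-th coefficient divisible by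
`h ^ (d - i)` is `h` times an integral element -/
theorem isIntegral_div_of_pow_dvd_coeff {O K₀ L : Type*} [CommRing O] [IsDomain O] [Field K₀]
    [Algebra O K₀] [IsFractionRing O K₀] [Field L] [Algebra K₀ L] [Algebra O L]
    [IsScalarTower O K₀ L] {p : O[X]} (hp : p.Monic) {x : L} (hx : aeval x p = 0) {h : O}
    (hh : h ≠ 0) (hdvd : ∀ i, h ^ (p.natDegree - i) ∣ p.coeff i) :
    IsIntegral O (x / algebraMap O L h) := by
  have hh' : algebraMap O K₀ h ≠ 0 := by
    rw [Ne, IsFractionRing.to_map_eq_zero_iff]; exact hh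
  set P : K₀[X] := p.map (algebraMap O K₀) with hP
  have hPm : P.Monic := hp.map _
  have hPd : P.natDegree = p.natDegree := hp.natDegree_map _
  have hPx : aeval x P = 0 := by rw [hP, aeval_map_algebraMap, hx]
  set Q : K₀[X] := scaleRoots P (algebraMap O K₀ h)⁻¹ with hQ
  have hQm : Q.Monic := (monic_scaleRoots_iff _).mpr hPm
  have hQx : aeval (algebraMap K₀ L (algebraMap O K₀ h)⁻¹ * x) Q = 0 :=
    scaleRoots_aeval_eq_zero hPx
  have hlift : Q ∈ lifts (algebraMap O K₀) := by
    rw [lifts_iff_coeff_lifts]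
    intro i
    obtain ⟨c, hc⟩ := hdvd i
    refine ⟨c, ?_⟩
    rw [hQ, coeff_scaleRoots, hPd, hP, coeff_map, hc, map_mul, map_pow, inv_pow, mul_comm,
      ← mul_assoc, inv_mul_cancel₀ (pow_ne_zero _ hh'), one_mul]
  obtain ⟨q, hq, -, hqm⟩ := lifts_and_natDegree_eq_and_monic hlift hQm
  refine ⟨q, hqm, ?_⟩
  rw [← aeval_def, ← aeval_map_algebraMap K₀, hq]
  have : x / algebraMap O L h = algebraMap K₀ L (algebraMap O K₀ h)⁻¹ * x := by
    rw [map_inv₀, ← IsScalarTower.algebraMap_apply, div_eq_inv_mul]
  rw [this, hQx]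

end aux

/-- **AK5.** `O` an integrally closed domain with fraction field `K₀`, `L/K₀` finite separable, `B` the
integral closure of `O` in `L`, free with basis `b`.  `h` a prime of `O`.  `V` an integrally closed
domain with fraction field `Kv` (we use `V = ℂ⟦τ⟧`), `res : V → k` a ring hom to a field of
characteristic zero whose kernel is generated by `φ h`, where `φ : O → V` is injective and
`φ⁻¹(ker res) = (h)`.  If all the embeddings of `L` over `φ` into an algebraically closed field `Ω`
containing `Kv` land in `Kv`, then `h` does not divide the discriminant of `b`. -/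
theorem not_dvd_discr_of_forall_embedding
    {O K₀ L B : Type*} [CommRing O] [IsDomain O] [IsIntegrallyClosed O] [Field K₀] [Algebra O K₀]
    [IsFractionRing O K₀] [Field L] [Algebra K₀ L] [Algebra O L] [IsScalarTower O K₀ L]
    [FiniteDimensional K₀ L] [Algebra.IsSeparable K₀ L]
    [CommRing B] [Algebra O B] [Algebra B L] [IsScalarTower O B L] [IsIntegralClosure B O L]
    {ι : Type*} [Fintype ι] [DecidableEq ι] (b : Module.Basis ι O B)
    {V Kv Ω k : Type*} [CommRing V] [IsDomain V] [IsIntegrallyClosed V] [Field Kv] [Algebra V Kv]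
    [IsFractionRing V Kv] [Field Ω] [Algebra Kv Ω] [IsAlgClosed Ω] [Field k] [CharZero k]
    (res : V →+* k) (φ : O →+* V) (hφ : Function.Injective φ) {h : O} (hh : Prime h)
    (hres : ∀ s : V, res s = 0 ↔ φ h ∣ s)
    (hker : ∀ a : O, res (φ a) = 0 → h ∣ a)
    (hall : ∀ σ : L →+* Ω,
      (∀ a : O, σ (algebraMap O L a) = algebraMap Kv Ω (algebraMap V Kv (φ a))) →
        ∀ y : L, σ y ∈ (algebraMap Kv Ω).range) :
    ¬ h ∣ Algebra.discr O b := by
  classical
  intro hdvd
  have hfree : Module.Free O B := Module.Free.of_basis b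
  have hfin : Module.Finite O B := Module.Finite.of_basis b
  -- Step 1: the element `x`
  have hprime : (Ideal.span {h}).IsPrime := (Ideal.span_singleton_prime hh.ne_zero).mpr hh
  set q := Ideal.Quotient.mk (Ideal.span {h}) with hq
  have hq0 : ∀ a : O, q a = 0 ↔ h ∣ a := fun a => by
    rw [hq, Ideal.Quotient.eq_zero_iff_mem, Ideal.mem_span_singleton]
  have hdet : (q.mapMatrix (Algebra.traceMatrix O b)).det = 0 := by
    rw [← RingHom.map_det, ← Algebra.discr_def, hq0]; exact hdvd
  obtain ⟨v, hv0, hv⟩ := Matrix.exists_mulVec_eq_zero_iff.mpr hdet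
  have hsurj : ∀ i, ∃ c : O, q c = v i := fun i => Ideal.Quotient.mk_surjective (v i)
  choose c hc using hsurj
  obtain ⟨k0, hk0⟩ : ∃ k0, ¬ h ∣ c k0 := by
    by_contra hcon
    push Not at hcon
    apply hv0
    funext i
    rw [← hc, (hq0 _).mpr (hcon i)]; rfl
  set x : B := ∑ k, c k • b k with hx
  have htr1 : ∀ i, h ∣ Algebra.trace O B (b i * x) := by
    intro i
    have h1 := congrFun hv i
    rw [Matrix.mulVec, dotProduct] at h1
    simp only [RingHom.mapMatrix_apply, Matrix.map_apply, Pi.zero_apply, ← hc, ← map_mul,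
      ← map_sum] at h1
    rw [hq0] at h1
    have h2 : Algebra.trace O B (b i * x) = ∑ k, Algebra.traceMatrix O b i k * c k := by
      rw [hx, Finset.mul_sum, map_sum]
      refine Finset.sum_congr rfl fun k _ => ?_
      rw [mul_smul_comm, map_smul, smul_eq_mul, mul_comm, Algebra.traceMatrix_apply,
        Algebra.traceForm_apply]
    rw [h2]; exact h1
  have htr : ∀ y : B, h ∣ Algebra.trace O B (y * x) := by
    intro y
    rw [← b.sum_repr y, Finset.sum_mul, map_sum]
    refine Finset.dvd_sum fun i _ => ?_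
    rw [smul_mul_assoc, map_smul, smul_eq_mul]
    exact Dvd.dvd.mul_left (htr1 i) _
  -- Step 2: the embeddings
  set j : V →+* Ω := (algebraMap Kv Ω).comp (algebraMap V Kv) with hj
  have hjinj : Function.Injective j :=
    (algebraMap Kv Ω).injective.comp (IsFractionRing.injective V Kv)
  set ψ₀ : O →+* Ω := j.comp φ with hψ₀
  have hψ₀inj : Function.Injective ψ₀ := hjinj.comp hφ
  let _ : Algebra K₀ Ω := (IsFractionRing.lift hψ₀inj).toAlgebra
  have halg : ∀ a : O, algebraMap K₀ Ω (algebraMap O K₀ a) = ψ₀ a := fun a =>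
    IsFractionRing.lift_algebraMap hψ₀inj a
  have hσO : ∀ (σ : L →ₐ[K₀] Ω) (a : O), σ (algebraMap O L a) = ψ₀ a := by
    intro σ a
    rw [IsScalarTower.algebraMap_apply O K₀ L, σ.commutes, halg]
  have hσrange : ∀ (σ : L →ₐ[K₀] Ω) (y : L), σ y ∈ (algebraMap Kv Ω).range := fun σ y =>
    hall σ.toRingHom (fun a => hσO σ a) y
  have key : ∀ (σ : L →ₐ[K₀] Ω) (y : B), ∃ s : V, j s = σ (algebraMap B L y) := by
    intro σ y
    obtain ⟨w, hw⟩ := hσrange σ (algebraMap B L y)
    obtain ⟨p, hp, hpy⟩ := IsIntegralClosure.isIntegral O L y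
    have hwint : IsIntegral V w := by
      refine ⟨p.map φ, hp.map φ, ?_⟩
      apply (algebraMap Kv Ω).injective
      rw [map_zero, hom_eval₂, eval₂_map, hw]
      have h1 := congrArg (fun t => σ (algebraMap B L t)) hpy
      simp only [map_zero] at h1
      rw [← h1]
      have h2 : σ (algebraMap B L (eval₂ (algebraMap O B) y p))
          = (σ.toRingHom.comp (algebraMap B L)) (eval₂ (algebraMap O B) y p) := rfl
      rw [h2, hom_eval₂]
      congr 1
      ext a
      simp only [RingHom.comp_apply]
      rw [← IsScalarTower.algebraMap_apply O B L]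
      exact (hσO σ a).symm
    obtain ⟨s, hs⟩ := IsIntegrallyClosed.isIntegral_iff.mp hwint
    exact ⟨s, by rw [hj, RingHom.comp_apply, hs, hw]⟩
  choose S hS using key
  have hSpow : ∀ (σ : L →ₐ[K₀] Ω) (y : B) (n : ℕ), S σ (y ^ n) = S σ y ^ n := by
    intro σ y n
    apply hjinj
    rw [hS, map_pow, map_pow, map_pow, hS]
  have hloc : IsLocalization (Algebra.algebraMapSubmonoid B (nonZeroDivisors O)) L :=
    IsIntegralClosure.isLocalization O K₀ L B
  have htrace : ∀ y : B, φ (Algebra.trace O B y) = ∑ σ : L →ₐ[K₀] Ω, S σ y := by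
    intro y
    apply hjinj
    rw [map_sum]
    simp only [hS]
    rw [← trace_eq_sum_embeddings Ω (K := K₀) (L := L),
      Algebra.trace_localization (R := O) (Rₘ := K₀) (S := B) (Sₘ := L) (nonZeroDivisors O) y, halg]
    rfl
  -- Step 3: Newton
  have hps : ∀ n : ℕ, 0 < n → ∑ σ : L →ₐ[K₀] Ω, (res (S σ x)) ^ n = 0 := by
    intro n hn
    have h1 : h ∣ Algebra.trace O B (x ^ n) := by
      obtain ⟨n', rfl⟩ := Nat.exists_eq_succ_of_ne_zero hn.ne'
      rw [pow_succ]
      exact htr _
    have h2 : res (φ (Algebra.trace O B (x ^ n))) = 0 := (hres _).mpr (map_dvd φ h1)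
    rw [htrace, map_sum] at h2
    simpa only [hSpow, map_pow] using h2
  have hSx : ∀ σ : L →ₐ[K₀] Ω, φ h ∣ S σ x := fun σ =>
    (hres _).mp (eq_zero_of_forall_psum_eq_zero (fun σ : L →ₐ[K₀] Ω => res (S σ x)) hps σ)
  -- Step 4: the minimal polynomial of `x`
  set x' : L := algebraMap B L x with hx'
  have hx'int : IsIntegral O x' := IsIntegralClosure.isIntegral_iff (A := B) |>.mpr ⟨x, rfl⟩
  set p : O[X] := minpoly O x' with hp
  have hpm : p.Monic := minpoly.monic hx'int
  have hpK : minpoly K₀ x' = p.map (algebraMap O K₀) :=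
    minpoly.isIntegrallyClosed_eq_field_fractions' K₀ hx'int
  have hpΩ : (p.map φ).map j = (minpoly K₀ x').map (algebraMap K₀ Ω) := by
    rw [hpK, map_map, map_map]
    congr 1
    ext a
    exact (halg a).symm
  have hsplit : ((minpoly K₀ x').map (algebraMap K₀ Ω)).Splits := IsAlgClosed.splits _
  have hmonic : ((minpoly K₀ x').map (algebraMap K₀ Ω)).Monic := by
    rw [← hpΩ]; exact (hpm.map φ).map j
  have hroots : ∀ ρ ∈ ((minpoly K₀ x').map (algebraMap K₀ Ω)).roots,
      ∃ s : V, j (φ h * s) = ρ := by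
    intro ρ hρ
    have h1 : ρ ∈ (minpoly K₀ x').rootSet Ω := by
      rw [rootSet, aroots]
      simpa using hρ
    rw [← Algebra.IsAlgebraic.range_eval_eq_rootSet_minpoly (F := K₀) (K := L) Ω x'] at h1
    obtain ⟨σ, rfl⟩ := h1
    obtain ⟨s, hs⟩ := hSx σ
    exact ⟨s, by rw [← hs, hS]⟩
  obtain ⟨R, hR⟩ := exists_multiset_map_eq (fun s : V => j (φ h * s)) _ hroots
  have hpφ : p.map φ = (R.map fun s => X - C (φ h * s)).prod := by
    apply map_injective j hjinj
    rw [hpΩ, hsplit.eq_prod_roots_of_monic hmonic, ← hR, Polynomial.map_multiset_prod,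
      Multiset.map_map, Multiset.map_map]
    congr 1
    apply Multiset.map_congr rfl
    intro s _
    simp
  have hcard : Multiset.card R = p.natDegree := by
    have h1 := congrArg natDegree hpφ
    rw [hpm.natDegree_map, natDegree_multiset_prod_of_monic _ (by
      intro g hg
      obtain ⟨s, -, rfl⟩ := Multiset.mem_map.mp hg
      exact monic_X_sub_C _), Multiset.map_map] at h1
    have h2 : (R.map (natDegree ∘ fun s => X - C (φ h * s))) = R.map (fun _ => 1) :=
      Multiset.map_congr rfl fun s _ => natDegree_X_sub_C _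
    rw [h2, Multiset.map_const', Multiset.sum_replicate, smul_eq_mul, mul_one] at h1
    exact h1.symm
  have hφh0 : φ h ≠ 0 := fun h0 => hh.ne_zero (hφ (by rw [h0, map_zero]))
  have hpow : ∀ (n : ℕ) (a : O), φ h ^ n ∣ φ a → h ^ n ∣ a := by
    intro n
    induction n with
    | zero => intro a _; simp
    | succ n ih =>
      intro a ha
      obtain ⟨w, hw⟩ := ha
      obtain ⟨a', rfl⟩ := hker a ((hres _).mpr ⟨φ h ^ n * w, by rw [hw, pow_succ']; ring⟩)
      rw [pow_succ']
      apply mul_dvd_mul_left
      apply ih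
      refine ⟨w, mul_left_cancel₀ hφh0 ?_⟩
      rw [← map_mul, hw, pow_succ']; ring
  have hcoeff : ∀ i, h ^ (p.natDegree - i) ∣ p.coeff i := by
    intro i
    apply hpow
    rw [← coeff_map, hpφ, ← hcard]
    exact pow_dvd_coeff_prod_X_sub_C_mul _ _ _
  have hzint : IsIntegral O (x' / algebraMap O L h) :=
    isIntegral_div_of_pow_dvd_coeff (K₀ := K₀) hpm (minpoly.aeval O x') hh.ne_zero hcoeff
  obtain ⟨w, hw⟩ := IsIntegralClosure.isIntegral_iff (A := B) |>.mp hzint
  have hhL : algebraMap O L h ≠ 0 := by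
    rw [IsScalarTower.algebraMap_apply O K₀ L]
    simpa using hh.ne_zero
  have hxw : x = h • w := by
    apply IsIntegralClosure.algebraMap_injective B O L
    rw [Algebra.smul_def, map_mul, hw, ← IsScalarTower.algebraMap_apply O B L,
      mul_div_cancel₀ _ hhL]
  apply hk0
  have h1 : b.repr x k0 = c k0 := by
    rw [hx, b.repr_sum_self]
  rw [← h1, hxw, map_smul, Finsupp.smul_apply, smul_eq_mul]
  exact Dvd.intro _ rfl

end Fermat.Agent.ESlib
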