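import Mathlib
import Fermat.Agent.ES.C.AKDefs
import Fermat.Agent.ES.C.DiscH

/-!
# ES, AK5: the discriminant criterion at a prime `h` of residue characteristic zero

AK5a (Newton) `eq_zero_of_forall_psum_eq_zero` and the general form of AK5
(`not_dvd_discr_of_forall_embedding`) are proved in `DiscH.lean`.
-/

set_option autoImplicit false

namespace Fermat.Agent.ESlib

section basis

set_option linter.unusedSectionVars false

variable {O Kt L ι : Type*} [CommRing O] [IsDomain O] [Field Kt] [Field L] [Algebra O Kt]
  [IsFractionRing O Kt] [Algebra Kt L] [Algebra O L] [IsScalarTower O Kt L]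

/-- the members of an integral basis are integral -/
theorem IsIntBasis.isIntegral {b : Module.Basis ι Kt L} (hb : IsIntBasis O b) (i : ι) :
    IsIntegral O (b i) := by
  classical
  rw [hb]
  intro k
  rw [b.repr_self, Finsupp.single_apply]
  split_ifs
  · exact ⟨1, map_one _⟩
  · exact ⟨0, map_zero _⟩

/-- an integral basis gives an `O`-basis of the integral closure -/
theorem IsIntBasis.exists_basis [Finite ι] {b : Module.Basis ι Kt L} (hb : IsIntBasis O b) :
    ∃ b' : Module.Basis ι O (integralClosure O L), ∀ i, ((b' i : integralClosure O L) : L) = b i := by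
  classical
  cases nonempty_fintype ι
  set β : ι → integralClosure O L := fun i => ⟨b i, hb.isIntegral i⟩ with hβ
  have hli : LinearIndependent O β := by
    have h1 : LinearIndependent O (b : ι → L) := by
      refine b.linearIndependent.restrict_scalars ?_
      intro r s hrs
      simp only [Algebra.smul_def, mul_one] at hrs
      exact IsFractionRing.injective O Kt hrs
    exact LinearIndependent.of_comp (integralClosure O L).val.toLinearMap h1
  have hsp : ⊤ ≤ Submodule.span O (Set.range β) := by
    rintro ⟨x, hx⟩ -
    have h1 := (hb x).mp hx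
    choose c hc using h1
    have h2 : (⟨x, hx⟩ : integralClosure O L) = ∑ k, c k • β k := by
      apply Subtype.ext
      rw [AddSubmonoidClass.coe_finsetSum]
      change x = _
      conv_lhs => rw [← b.sum_repr x]
      refine Finset.sum_congr rfl fun k _ => ?_
      rw [← hc k, algebraMap_smul]
      rfl
    rw [h2]
    exact Submodule.sum_mem _ fun k _ => Submodule.smul_mem _ _ (Submodule.subset_span ⟨k, rfl⟩)
  refine ⟨Module.Basis.mk hli hsp, fun i => ?_⟩
  rw [Module.Basis.mk_apply]

end basis

/-- **AK5.** `O` a normal domain, `b` an integral basis of `L / Kt`, `h ∈ O` with `PhiData`.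
Then `h ∤ disc(b)`. -/
theorem not_dvd_discr_of_phiData {O Kt L Ch ι : Type*} [CommRing O] [IsDomain O]
    [IsIntegrallyClosed O]
    [Field Kt] [Field L] [Algebra O Kt] [IsFractionRing O Kt] [Algebra Kt L] [Algebra O L]
    [IsScalarTower O Kt L] [FiniteDimensional Kt L] [CharZero Kt] [Fintype ι] [DecidableEq ι]
    [Field Ch] [CharZero Ch]
    (b : Module.Basis ι Kt L) (hb : IsIntBasis O b) (h : O) (hφ : PhiData Kt L Ch h)
    (d : O) (hd : algebraMap O Kt d = Algebra.discr Kt b) : ¬ h ∣ d := by
  obtain ⟨φ, φ', hφφ', hord, hker, hall⟩ := hφ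
  obtain ⟨b', hb'⟩ := hb.exists_basis
  have hfree : Module.Free O (integralClosure O L) := Module.Free.of_basis b'
  have hfin : Module.Finite O (integralClosure O L) := Module.Finite.of_basis b'
  have hloc : IsLocalization (Algebra.algebraMapSubmonoid (integralClosure O L)
      (nonZeroDivisors O)) L := IsIntegralClosure.isLocalization O Kt L (integralClosure O L)
  -- the discriminants agree
  have hdisc : d = Algebra.discr O b' := by
    apply IsFractionRing.injective O Kt
    rw [hd, Algebra.discr_def, Algebra.discr_def, RingHom.map_det]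
    congr 1
    ext i j
    rw [RingHom.mapMatrix_apply, Matrix.map_apply, Algebra.traceMatrix_apply,
      Algebra.traceMatrix_apply, Algebra.traceForm_apply, Algebra.traceForm_apply,
      ← Algebra.trace_localization (R := O) (Rₘ := Kt) (S := integralClosure O L) (Sₘ := L)
        (nonZeroDivisors O), map_mul (algebraMap (integralClosure O L) L)]
    congr 2
    · exact (hb' i).symm
    · exact (hb' j).symm
  rw [hdisc]
  -- facts on `φ`
  have hcoe : Function.Injective
      (fun f : PowerSeries Ch => ((f : PowerSeries Ch) : LaurentSeries Ch)) :=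
    HahnSeries.ofPowerSeries_injective
  have hφinj : Function.Injective φ := by
    intro a a' haa
    apply IsFractionRing.injective O Kt
    apply φ'.injective
    rw [hφφ', hφφ', haa]
  have hcc : PowerSeries.constantCoeff (φ h) = 0 := by
    rw [← PowerSeries.coeff_zero_eq_constantCoeff_apply]
    apply PowerSeries.coeff_of_lt_order
    rw [hord]; exact zero_lt_one
  obtain ⟨g, hg⟩ : PowerSeries.X ∣ φ h := PowerSeries.X_dvd_iff.mpr hcc
  have hgu : IsUnit g := by
    rw [PowerSeries.isUnit_iff_constantCoeff, isUnit_iff_ne_zero]
    intro h0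
    have h1 : PowerSeries.coeff 1 (φ h) = 0 := by
      rw [hg, show (1 : ℕ) = 0 + 1 from rfl, PowerSeries.coeff_succ_X_mul,
        PowerSeries.coeff_zero_eq_constantCoeff_apply, h0]
    exact (PowerSeries.order_eq_nat.mp (by exact_mod_cast hord)).1 h1
  have hres : ∀ s : PowerSeries Ch, PowerSeries.constantCoeff s = 0 ↔ φ h ∣ s := by
    intro s
    rw [← PowerSeries.X_dvd_iff, hg]
    exact (hgu.mul_right_dvd).symm
  have hh : Prime h := by
    refine ⟨?_, ?_, ?_⟩
    · rintro rfl
      rw [map_zero, PowerSeries.order_zero] at hord
      exact absurd hord (by simp)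
    · intro hu
      have := (hu.map φ)
      rw [PowerSeries.isUnit_iff_constantCoeff, hcc] at this
      exact not_isUnit_zero this
    · intro a a' haa
      have h1 : PowerSeries.constantCoeff (φ (a * a')) = 0 := (hres _).mpr (map_dvd φ haa)
      rw [map_mul, map_mul] at h1
      rcases mul_eq_zero.mp h1 with h2 | h2
      · exact Or.inl (hker a h2)
      · exact Or.inr (hker a' h2)
  refine not_dvd_discr_of_forall_embedding (K₀ := Kt) (L := L) b'
    (V := PowerSeries Ch) (Kv := LaurentSeries Ch) (Ω := AlgebraicClosure (LaurentSeries Ch))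
    PowerSeries.constantCoeff φ hφinj hh hres hker ?_
  intro σ hσ
  apply hall σ
  intro x
  have h1 : (σ.comp (algebraMap Kt L)) = (algebraMap (LaurentSeries Ch)
      (AlgebraicClosure (LaurentSeries Ch))).comp φ' := by
    apply IsLocalization.ringHom_ext (nonZeroDivisors O)
    ext a
    simp only [RingHom.comp_apply]
    rw [← IsScalarTower.algebraMap_apply O Kt L, hσ, hφφ']
    rfl
  exact congrArg (fun f => f x) h1

end Fermat.Agent.ESlib
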