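import Mathlib
import Fermat.Agent.ES.C.AKDefs
import Fermat.Agent.ES.C.AK4Pi

/-!
# ES, AK6: (Loc) from a unit discriminant
-/

set_option autoImplicit false

namespace Fermat.Agent.ESlib

/-- `A` integrally closed, `f : A → k` injective, `θ ∈ k` integral over `A` with `r θ = t`,
`r ≠ 0`: then `θ` comes from `A`. -/
theorem exists_eq_of_isIntegralElem_of_mul_eq {A k : Type*} [CommRing A] [IsDomain A]
    [IsIntegrallyClosed A] [Field k] (f : A →+* k) (hf : Function.Injective f) (θ : k)
    (hθ : f.IsIntegralElem θ) (r t : A) (hr : r ≠ 0) (h : f r * θ = f t) : ∃ c, f c = θ := by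
  letI : Algebra A k := f.toAlgebra
  let j : FractionRing A →ₐ[A] k :=
    IsFractionRing.liftAlgHom (K := FractionRing A) (g := Algebra.ofId A k) hf
  have hj : Function.Injective j := j.toRingHom.injective
  have hfr : f r ≠ 0 := fun h0 => hr (hf (by rw [h0, map_zero]))
  have h1 : j (algebraMap A _ t / algebraMap A _ r) = θ := by
    rw [map_div₀, AlgHom.commutes, AlgHom.commutes]
    change f t / f r = θ
    rw [← h]
    field_simp
  have h2 : IsIntegral A (algebraMap A (FractionRing A) t / algebraMap A _ r) :=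
    (isIntegral_algHom_iff j hj).1 (h1 ▸ hθ)
  obtain ⟨c, hc⟩ := IsIntegrallyClosed.isIntegral_iff.1 h2
  refine ⟨c, ?_⟩
  rw [← h1, ← hc, AlgHom.commutes]
  rfl

/-- The elements of an integral basis are integral. -/
theorem IsIntBasis.isIntegral_apply6 {O Kt L ι : Type*} [CommRing O] [Field Kt] [Field L] [Algebra O Kt]
    [Algebra Kt L] [Algebra O L] {b : Module.Basis ι Kt L} (hb : IsIntBasis O b) (i : ι) :
    IsIntegral O (b i) := by
  classical
  rw [hb]
  intro k
  rw [Module.Basis.repr_self]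
  by_cases hik : i = k
  · subst hik
    exact ⟨1, by simp⟩
  · exact ⟨0, by simp [hik]⟩

/-- The trace of an integral element lies in `O` (no normality of `O` needed). -/
theorem IsIntBasis.exists_trace_eq {O Kt L ι : Type*} [CommRing O] [Field Kt] [Field L]
    [Algebra O Kt] [Algebra Kt L] [Algebra O L] [Fintype ι]
    {b : Module.Basis ι Kt L} (hb : IsIntBasis O b) {x : L} (hx : IsIntegral O x) :
    ∃ t : O, algebraMap O Kt t = Algebra.trace Kt L x := by
  classical
  rw [Algebra.trace_eq_matrix_trace b x, Matrix.trace]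
  have h : ∀ i, ∃ t : O, algebraMap O Kt t = b.repr (x * b i) i :=
    fun i => (hb _).1 (hx.mul (hb.isIntegral_apply6 i)) i
  choose t ht using h
  refine ⟨∑ i, t i, ?_⟩
  rw [map_sum]
  refine Finset.sum_congr rfl fun i _ => ?_
  rw [ht, Matrix.diag_apply, Algebra.leftMulMatrix_eq_repr_mul]

/-- **AK6.** `b` an integral basis with unit discriminant, `O ⧸ (π)` integrally closed, `V` a
valuation subring of `Ω` with `O ⊆ V`, `𝔪_V ∩ O = (π)`; `ε ∈ L`, `r ∈ O ∖ (π)` with `r ε` integral,
and `σ ε mod 𝔪_V` is integral over `O ⧸ π` for all embeddings `σ` (v2.1: generalised from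
`σ ε ≡ 0` or `1`).  Then there is an integral `e` with `r (e - ε) ∈ π B`.

Proof.  `r ε = ∑ a_k b_k`, `a_k ∈ O`.  `t_i := Tr (r ε b_i) = ∑_k a_k Tr (b_k b_i) ∈ O`.
(`hε` implies `σ ε ∈ V`.)  In the residue field `k` of `V`: `t_i = r * θ_i` with
`θ_i = ∑_σ σ(ε) σ(b_i) mod 𝔪`, integral over (the image of) `O ⧸ π`, and
`θ_i = t_i / r ∈ Frac (O ⧸ π)`, hence `θ_i` is the image of some `c_i ∈ O`, i.e. `π ∣ t_i - r c_i`.
The trace matrix `G` is invertible over `O`; with `e_k := (G⁻¹ c)_k` we get
`a_k ≡ r e_k mod π`, so `r ε - r ∑ e_k b_k ∈ π B`. -/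
theorem exists_loc_of_isUnit_discr {O Kt L Ω ι : Type*} [CommRing O] [IsDomain O]
    [Field Kt] [Field L] [Algebra O Kt] [IsFractionRing O Kt] [Algebra Kt L] [Algebra O L]
    [IsScalarTower O Kt L] [FiniteDimensional Kt L] [CharZero Kt] [Fintype ι] [DecidableEq ι]
    (π : O) (hπ : Prime π) [IsIntegrallyClosed (O ⧸ Ideal.span {π})]
    (b : Module.Basis ι Kt L) (hb : IsIntBasis O b)
    (d : O) (hd : algebraMap O Kt d = Algebra.discr Kt b) (hdu : IsUnit d)
    [Field Ω] [IsAlgClosed Ω] [Algebra Kt Ω] (V : ValuationSubring Ω)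
    (hV : ∀ a : O, V.valuation (algebraMap Kt Ω (algebraMap O Kt a)) ≤ 1)
    (hVπ : ∀ a : O, V.valuation (algebraMap Kt Ω (algebraMap O Kt a)) < 1 ↔ π ∣ a)
    (ε : L) (r : O) (hr : ¬ π ∣ r) (hrε : IsIntegral O (r • ε))
    (hε : ∀ σ : L →ₐ[Kt] Ω, ∃ q : Polynomial O, q.Monic ∧
      V.valuation (q.eval₂ ((algebraMap Kt Ω).comp (algebraMap O Kt)) (σ ε)) < 1) :
    ∃ e z : L, IsIntegral O e ∧ IsIntegral O z ∧ r • (e - ε) = π • z := by
  classical
  have hinj : Function.Injective (algebraMap O Kt) := IsFractionRing.injective O Kt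
  have hbint := hb.isIntegral_apply6
  -- the residue map
  let k := IsLocalRing.ResidueField V
  let ρ : O →+* k := (IsLocalRing.residue V).comp (toValSub V hV)
  have hρ : ∀ a : O, ρ a = 0 ↔ π ∣ a := by
    intro a
    change IsLocalRing.residue V (toValSub V hV a) = 0 ↔ _
    rw [residue_eq_zero_iff_val, coe_toValSub, hVπ]
  haveI : (Ideal.span {π}).IsPrime := (Ideal.span_singleton_prime hπ.ne_zero).2 hπ
  have hρI : ∀ a ∈ Ideal.span {π}, ρ a = 0 := fun a ha =>
    (hρ a).2 (Ideal.mem_span_singleton.1 ha)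
  let ρb : O ⧸ Ideal.span {π} →+* k := Ideal.Quotient.lift _ ρ hρI
  have hρb : Function.Injective ρb := by
    apply RingHom.lift_injective_of_ker_le_ideal
    intro a ha
    exact Ideal.mem_span_singleton.2 ((hρ a).1 ha)
  -- the trace matrix over `O`
  have hG : ∀ i j, ∃ t : O, algebraMap O Kt t = Algebra.trace Kt L (b i * b j) :=
    fun i j => hb.exists_trace_eq ((hbint i).mul (hbint j))
  choose G hGij using hG
  let G' : Matrix ι ι O := Matrix.of G
  have hG' : (algebraMap O Kt).mapMatrix G' = Algebra.traceMatrix Kt b := by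
    ext i j
    simp only [RingHom.mapMatrix_apply, Matrix.map_apply, Algebra.traceMatrix_apply,
      Algebra.traceForm_apply]
    exact hGij i j
  have hdet : G'.det = d := by
    apply hinj
    rw [RingHom.map_det, hG', hd, Algebra.discr_def]
  have hGu : IsUnit G'.det := hdet ▸ hdu
  -- coordinates of `r ε`
  have ha := (hb _).1 hrε
  choose a ha using ha
  have hrεsum : r • ε = ∑ i, a i • b i := by
    conv_lhs => rw [← b.sum_repr (r • ε)]
    refine Finset.sum_congr rfl fun i _ => ?_
    rw [← ha i, algebraMap_smul]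
  let t : ι → O := G'.mulVec a
  have ht : ∀ i, algebraMap O Kt (t i) = Algebra.trace Kt L (b i * r • ε) := by
    intro i
    rw [hrεsum, Finset.mul_sum, map_sum]
    simp only [t, Matrix.mulVec, dotProduct, map_sum, map_mul]
    refine Finset.sum_congr rfl fun j _ => ?_
    change algebraMap O Kt (G i j) * _ = _
    rw [hGij, mul_smul_comm, ← algebraMap_smul Kt (a j) (b i * b j), map_smul, smul_eq_mul,
      mul_comm]
  -- `σ ε ∈ V`
  have hεV : ∀ σ : L →ₐ[Kt] Ω, σ ε ∈ V := by
    intro σ
    obtain ⟨q, hq, hqv⟩ := hε σ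
    have hdeg : 0 < q.natDegree := by
      rcases Nat.eq_zero_or_pos q.natDegree with h0 | h0
      · rw [Polynomial.Monic.natDegree_eq_zero hq] at h0
        subst h0
        simp at hqv
      · exact h0
    let y : V := ⟨_, (V.valuation_le_one_iff _).1 hqv.le⟩
    have hmon : (q.map (toValSub V hV) - Polynomial.C y).Monic := by
      apply (hq.map _).sub_of_left
      refine lt_of_le_of_lt Polynomial.degree_C_le ?_
      rw [(hq.map (toValSub V hV)).degree_pos]
      intro h1
      have := congrArg Polynomial.natDegree h1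
      rw [hq.natDegree_map, Polynomial.natDegree_one] at this
      omega
    have hint : IsIntegral V (σ ε) := by
      refine ⟨_, hmon, ?_⟩
      rw [Polynomial.eval₂_sub, Polynomial.eval₂_C, Polynomial.eval₂_map]
      exact sub_self _
    obtain ⟨z, hz⟩ := IsIntegrallyClosed.isIntegral_iff.1 hint
    rw [← hz]
    exact z.2
  have hεint : ∀ σ : L →ₐ[Kt] Ω,
      ρ.IsIntegralElem (IsLocalRing.residue V ⟨σ ε, hεV σ⟩) := by
    intro σ
    obtain ⟨q, hq, hqv⟩ := hε σ
    refine ⟨q, hq, ?_⟩
    change Polynomial.eval₂ ((IsLocalRing.residue V).comp (toValSub V hV)) _ q = 0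
    rw [← Polynomial.hom_eval₂, residue_eq_zero_iff_val]
    convert hqv using 2
    have := Polynomial.hom_eval₂ q (toValSub V hV) V.subtype ⟨σ ε, hεV σ⟩
    exact this
  let θ : ι → k := fun i => ∑ σ : L →ₐ[Kt] Ω,
    resChar V hV σ ⟨b i, hbint i⟩ * IsLocalRing.residue V ⟨σ ε, hεV σ⟩
  have hθ : ∀ i, ρ (t i) = ρ r * θ i := by
    intro i
    have h1 : toValSub V hV (t i) = ∑ σ : L →ₐ[Kt] Ω,
        (⟨σ (b i), emb_mem_of_isIntegral V hV σ (hbint i)⟩ : V) * toValSub V hV r *
          ⟨σ ε, hεV σ⟩ := by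
      apply Subtype.ext
      rw [coe_toValSub, ht, trace_eq_sum_embeddings Ω, AddSubmonoidClass.coe_finsetSum]
      refine Finset.sum_congr rfl fun σ _ => ?_
      change _ = σ (b i) * algebraMap Kt Ω (algebraMap O Kt r) * σ ε
      rw [map_mul, Algebra.smul_def, map_mul, IsScalarTower.algebraMap_apply O Kt L,
        AlgHom.commutes]
      ring
    change IsLocalRing.residue V (toValSub V hV (t i)) = _
    rw [h1, map_sum]
    simp only [map_mul]
    simp only [θ]
    rw [Finset.mul_sum]
    refine Finset.sum_congr rfl fun σ _ => ?_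
    rw [resChar_apply]
    change _ = IsLocalRing.residue V (toValSub V hV r) * _
    ring
  -- integrality of `θ i`
  have hθint : ∀ i, ρb.IsIntegralElem (θ i) := by
    intro i
    letI : Algebra O k := ρ.toAlgebra
    letI : Algebra (O ⧸ Ideal.span {π}) k := ρb.toAlgebra
    haveI : IsScalarTower O (O ⧸ Ideal.span {π}) k :=
      IsScalarTower.of_algebraMap_eq (fun _ => rfl)
    have h1 : IsIntegral O (θ i) := by
      refine IsIntegral.sum _ fun σ _ => ?_
      let χ : integralClosure O L →ₐ[O] k :=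
        { resChar V hV σ with commutes' := fun c => resChar_algebraMap V hV σ c }
      have h2 : IsIntegral O (⟨b i, hbint i⟩ : integralClosure O L) :=
        (isIntegral_algHom_iff (integralClosure O L).val Subtype.val_injective).1 (hbint i)
      exact (h2.map χ).mul (hεint σ)
    exact h1.tower_top
  -- `θ i` comes from `O`
  have hc : ∀ i, ∃ c : O, ρ c = θ i := by
    intro i
    have hr0 : Ideal.Quotient.mk (Ideal.span {π}) r ≠ 0 := by
      intro h0
      exact hr (Ideal.mem_span_singleton.1 (Ideal.Quotient.eq_zero_iff_mem.1 h0))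
    obtain ⟨c, hc⟩ := exists_eq_of_isIntegralElem_of_mul_eq ρb hρb (θ i) (hθint i)
      (Ideal.Quotient.mk _ r) (Ideal.Quotient.mk _ (t i)) hr0 (by
        change ρ r * θ i = ρ (t i)
        rw [hθ])
    obtain ⟨c', rfl⟩ := Ideal.Quotient.mk_surjective c
    exact ⟨c', hc⟩
  choose c hc using hc
  have hw : ∀ i, ∃ w : O, t i - r * c i = π * w := by
    intro i
    have : ρ (t i - r * c i) = 0 := by rw [map_sub, map_mul, hθ, hc, sub_self]
    exact (hρ _).1 this
  choose w hw using hw
  -- solve
  let ev : ι → O := G'⁻¹.mulVec c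
  let zv : ι → O := -(G'⁻¹.mulVec w)
  have hkey : r • ev - a = π • zv := by
    have h1 : G'.mulVec (a - r • ev) = π • w := by
      rw [Matrix.mulVec_sub, Matrix.mulVec_smul, Matrix.mulVec_mulVec,
        Matrix.mul_nonsing_inv _ hGu, Matrix.one_mulVec]
      funext i
      simpa using hw i
    have h2 : a - r • ev = π • G'⁻¹.mulVec w := by
      have := congrArg G'⁻¹.mulVec h1
      rwa [Matrix.mulVec_mulVec, Matrix.nonsing_inv_mul _ hGu, Matrix.one_mulVec,
        Matrix.mulVec_smul] at this
    rw [← neg_sub, h2]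
    simp [zv]
  refine ⟨∑ i, ev i • b i, ∑ i, zv i • b i, ?_, ?_, ?_⟩
  · exact IsIntegral.sum _ fun i _ => (hbint i).smul _
  · exact IsIntegral.sum _ fun i _ => (hbint i).smul _
  · rw [smul_sub, hrεsum, Finset.smul_sum, Finset.smul_sum, ← Finset.sum_sub_distrib]
    refine Finset.sum_congr rfl fun i _ => ?_
    rw [smul_smul, smul_smul, ← sub_smul]
    congr 1
    exact congrFun hkey i

end Fermat.Agent.ESlib
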