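import Mathlib
import Fermat.Agent.ES.C.AKDefs
import Fermat.Agent.ES.C.AK2Free
import Fermat.Agent.ES.C.AK4Pi
import Fermat.Agent.ES.C.AK5H
import Fermat.Agent.ES.C.AK6Loc

/-!
# ES, AK-LOC: the abstract local theorem (assembly of AK2, AK4, AK5, AK6)
-/

set_option autoImplicit false

namespace Fermat.Agent.ESlib

open IsLocalRing

universe u

/-- `O ⧸ (π)` is a DVR, in particular integrally closed. -/
theorem isIntegrallyClosed_quotient_of_regular_two {O : Type*} [CommRing O] [IsDomain O]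
    [IsLocalRing O] [IsNoetherianRing O] (π s : O) (hmax : maximalIdeal O = Ideal.span {π, s})
    (hπ : Prime π) (hs : ¬ π ∣ s) : IsIntegrallyClosed (O ⧸ Ideal.span {π}) := by
  have hprime : (Ideal.span {π}).IsPrime := (Ideal.span_singleton_prime hπ.ne_zero).2 hπ
  have hdom : IsDomain (O ⧸ Ideal.span {π}) := Ideal.Quotient.isDomain _
  have hloc : IsLocalRing (O ⧸ Ideal.span {π}) :=
    IsLocalRing.of_surjective' (Ideal.Quotient.mk _) Ideal.Quotient.mk_surjective
  have hmap : maximalIdeal (O ⧸ Ideal.span {π}) =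
      Ideal.span {Ideal.Quotient.mk (Ideal.span {π}) s} := by
    rw [← IsLocalRing.map_maximalIdeal_of_surjective (Ideal.Quotient.mk (Ideal.span {π}))
      Ideal.Quotient.mk_surjective, hmax, Ideal.map_span, Set.image_pair]
    have h0 : Ideal.Quotient.mk (Ideal.span {π}) π = 0 :=
      Ideal.Quotient.eq_zero_iff_mem.2 (Ideal.mem_span_singleton_self π)
    rw [h0]
    refine le_antisymm (Ideal.span_le.2 ?_) (Ideal.span_mono (by simp))
    rintro x (rfl | rfl)
    · exact Ideal.zero_mem _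
    · exact Ideal.mem_span_singleton_self _
  have hprin : (maximalIdeal (O ⧸ Ideal.span {π})).IsPrincipal := ⟨⟨_, hmap⟩⟩
  have h43 : (maximalIdeal (O ⧸ Ideal.span {π})).IsPrincipal →
      (IsIntegrallyClosed (O ⧸ Ideal.span {π}) ∧ ∀ P : Ideal (O ⧸ Ideal.span {π}), P ≠ ⊥ →
        P.IsPrime → P = maximalIdeal (O ⧸ Ideal.span {π})) :=
    ((tfae_of_isNoetherianRing_of_isLocalRing_of_isDomain
      (R := O ⧸ Ideal.span {π})).out 4 3).1
  exact (h43 hprin).1

/-- **AK-LOC.**  Assembly: AK2 gives an integral basis `b`; `d := disc b ∈ O`, `d ≠ 0`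
(separable); `π ∤ d` by AK4; if `d` is not a unit `hh` gives `h ∣ d` with `PhiData`, contradicting
AK5; so `d` is a unit and AK6 applies. -/
theorem local_etale {O L : Type u} {Kt Ω Ch : Type*} [CommRing O] [IsDomain O] [IsLocalRing O]
    [IsNoetherianRing O] [IsIntegrallyClosed O] [Field Kt] [Field L] [Algebra O Kt]
    [IsFractionRing O Kt] [Algebra Kt L] [Algebra O L] [IsScalarTower O Kt L]
    [FiniteDimensional Kt L] [CharZero Kt] [Field Ch] [CharZero Ch]
    (π s : O) (hmax : maximalIdeal O = Ideal.span {π, s}) (hπ : Prime π) (hs : ¬ π ∣ s)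
    [Field Ω] [IsAlgClosed Ω] [Algebra Kt Ω] (V : ValuationSubring Ω)
    (hV : ∀ a : O, V.valuation (algebraMap Kt Ω (algebraMap O Kt a)) ≤ 1)
    (hVπ : ∀ a : O, V.valuation (algebraMap Kt Ω (algebraMap O Kt a)) < 1 ↔ π ∣ a)
    (hsep : ∀ σ σ' : L →ₐ[Kt] Ω, σ ≠ σ' →
      ∃ c : L, (∃ r : O, ¬ π ∣ r ∧ IsIntegral O (r • c)) ∧ V.valuation (σ c - σ' c) = 1)
    (hh : ∀ d : O, d ≠ 0 → ¬ IsUnit d → ¬ π ∣ d → ∃ h : O, h ∣ d ∧ PhiData Kt L Ch h)
    (ε : L) (r : O) (hr : ¬ π ∣ r) (hrε : IsIntegral O (r • ε))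
    (hε : ∀ σ : L →ₐ[Kt] Ω, ∃ q : Polynomial O, q.Monic ∧
      V.valuation (q.eval₂ ((algebraMap Kt Ω).comp (algebraMap O Kt)) (σ ε)) < 1) :
    ∃ e z : L, IsIntegral O e ∧ IsIntegral O z ∧ r • (e - ε) = π • z := by
  classical
  obtain ⟨b, hb⟩ := exists_isIntBasis (Kt := Kt) (L := L) π s hmax hπ hs
  -- the basis elements are integral
  have hbint : ∀ i, IsIntegral O (b i) := by
    intro i
    rw [hb]
    intro k
    rw [b.repr_self, Finsupp.single_apply]
    split_ifs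
    · exact ⟨1, map_one _⟩
    · exact ⟨0, map_zero _⟩
  obtain ⟨d, hd⟩ : ∃ d : O, algebraMap O Kt d = Algebra.discr Kt b :=
    IsIntegrallyClosed.isIntegral_iff.1 (Algebra.discr_isIntegral Kt hbint)
  have hd0 : d ≠ 0 := by
    rintro rfl
    rw [map_zero] at hd
    exact Algebra.discr_not_zero_of_basis Kt b hd.symm
  have hπd : ¬ π ∣ d := not_dvd_discr_of_unitDiff π b hb V hV hVπ hsep d hd
  have hdu : IsUnit d := by
    by_contra hdu
    obtain ⟨h, hhd, hφ⟩ := hh d hd0 hdu hπd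
    exact not_dvd_discr_of_phiData b hb h hφ d hd hhd
  have hic : IsIntegrallyClosed (O ⧸ Ideal.span {π}) :=
    isIntegrallyClosed_quotient_of_regular_two π s hmax hπ hs
  exact exists_loc_of_isUnit_discr π hπ b hb d hd hdu V hV hVπ ε r hr hrε hε

end Fermat.Agent.ESlib
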