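import Mathlib

/-!
# ES, AK-LE1: localisation of a domain at a prime ideal
-/

set_option autoImplicit false

namespace Fermat.Agent.ESlib

section W1

variable {A O : Type*} [CommRing A] [IsDomain A] [CommRing O] [Algebra A O] (𝔪 : Ideal A)
  [𝔪.IsPrime] [IsLocalization.AtPrime O 𝔪]

theorem atPrime_maximalIdeal_eq_span_pair [IsLocalRing O] {p g : A} (h : 𝔪 = Ideal.span {p, g}) :
    IsLocalRing.maximalIdeal O = Ideal.span {algebraMap A O p, algebraMap A O g} := by
  rw [← IsLocalization.AtPrime.map_eq_maximalIdeal 𝔪 O]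
  conv_lhs => rw [h]
  rw [Ideal.map_span, Set.image_pair]

include 𝔪 in
theorem atPrime_algebraMap_injective : Function.Injective (algebraMap A O) :=
  IsLocalization.injective O (Ideal.primeCompl_le_nonZeroDivisors 𝔪)

theorem atPrime_dvd_iff {p : A} (hp : Prime p) (hpm : p ∈ 𝔪) (a : A) :
    algebraMap A O p ∣ algebraMap A O a ↔ p ∣ a := by
  refine ⟨fun ⟨y, hy⟩ => ?_, fun h => map_dvd _ h⟩
  obtain ⟨x, s, rfl⟩ := IsLocalization.exists_mk'_eq 𝔪.primeCompl y
  have h1 : algebraMap A O (a * s) = algebraMap A O (p * x) := by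
    rw [map_mul, map_mul, hy, mul_assoc, IsLocalization.mk'_spec]
  have h2 : a * s = p * x := atPrime_algebraMap_injective (O := O) 𝔪 h1
  rcases hp.dvd_or_dvd (Dvd.intro _ h2.symm) with h | h
  · exact h
  · exact absurd (𝔪.mem_of_dvd h hpm) s.2

theorem atPrime_prime {p : A} (hp : Prime p) (hpm : p ∈ 𝔪) : Prime (algebraMap A O p) := by
  refine ⟨?_, ?_, ?_⟩
  · rw [Ne, map_eq_zero_iff _ (atPrime_algebraMap_injective (O := O) 𝔪)]
    exact hp.ne_zero
  · rw [IsLocalization.AtPrime.isUnit_to_map_iff O 𝔪]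
    exact fun h => h hpm
  · intro x y hxy
    obtain ⟨a, s, rfl⟩ := IsLocalization.exists_mk'_eq 𝔪.primeCompl x
    obtain ⟨b, t, rfl⟩ := IsLocalization.exists_mk'_eq 𝔪.primeCompl y
    have h1 : algebraMap A O p ∣ algebraMap A O (a * b) := by
      have : algebraMap A O (a * b) = (IsLocalization.mk' O a s * IsLocalization.mk' O b t) *
          (algebraMap A O s * algebraMap A O t) := by
        have e1 := IsLocalization.mk'_spec O a s
        have e2 := IsLocalization.mk'_spec O b t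
        rw [map_mul, ← e1, ← e2]
        ring
      rw [this]
      exact hxy.mul_right _
    rw [atPrime_dvd_iff 𝔪 hp hpm] at h1
    rcases hp.dvd_or_dvd h1 with h | h
    · left
      obtain ⟨c, rfl⟩ := h
      refine ⟨IsLocalization.mk' O c s, ?_⟩
      rw [← IsLocalization.mul_mk'_eq_mk'_of_mul]
    · right
      obtain ⟨c, rfl⟩ := h
      refine ⟨IsLocalization.mk' O c t, ?_⟩
      rw [← IsLocalization.mul_mk'_eq_mk'_of_mul]

/-- a nonzero nonunit of `A_𝔪` is divisible by an irreducible element of `A` lying in `𝔪` -/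
theorem atPrime_exists_irreducible_dvd [UniqueFactorizationMonoid A] (d : O) (hd0 : d ≠ 0)
    (hd : ¬ IsUnit d) : ∃ h : A, Irreducible h ∧ h ∈ 𝔪 ∧ algebraMap A O h ∣ d := by
  obtain ⟨a, s, rfl⟩ := IsLocalization.exists_mk'_eq 𝔪.primeCompl d
  have ha0 : a ≠ 0 := by
    rintro rfl
    exact hd0 (IsLocalization.mk'_zero _)
  have ham : a ∈ 𝔪 := by
    by_contra ham
    apply hd
    have h1 : IsUnit (algebraMap A O a) := (IsLocalization.AtPrime.isUnit_to_map_iff O 𝔪 a).2 ham
    rw [← IsLocalization.mk'_spec O a s] at h1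
    exact isUnit_of_mul_isUnit_left h1
  have ha₁ : (UniqueFactorizationMonoid.factors a).prod ∈ 𝔪 := by
    obtain ⟨u, hu⟩ := UniqueFactorizationMonoid.factors_prod ha0
    rwa [← hu, Ideal.mul_unit_mem_iff_mem _ u.isUnit] at ham
  obtain ⟨h, hh₁, hh₂⟩ :=
    ((inferInstance : 𝔪.IsPrime).multiset_prod_mem_iff_exists_mem _).1 ha₁
  refine ⟨h, UniqueFactorizationMonoid.irreducible_of_factor h hh₁, hh₂, ?_⟩
  obtain ⟨c, rfl⟩ := UniqueFactorizationMonoid.dvd_of_mem_factors hh₁
  refine ⟨IsLocalization.mk' O c s, ?_⟩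
  rw [← IsLocalization.mul_mk'_eq_mk'_of_mul]

end W1

end Fermat.Agent.ESlib
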