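import Mathlib
import Fermat.Agent.ES.C.AKDefs
import Fermat.Agent.ES.C.AKW1
import Fermat.Agent.ES.C.AKInt

/-!
# ES, AK-LE: auxiliary lemmas for the wrapper `local_etale_poly`
-/

set_option autoImplicit false

namespace Fermat.Agent.ESlib

open Polynomial IntermediateField

universe u

section Frac

variable {R K L : Type*} [CommRing R] [IsDomain R] [Field K] [Algebra R K] [IsFractionRing R K]
  [Field L] [Algebra K L] [Algebra R L] [IsScalarTower R K L]

/-- The `R[X]`-algebra structure `X ↦ T` on `K(T)`. -/
noncomputable abbrev polyAlgebra (K : Type*) {R L : Type*} [CommRing R] [Field K] [Algebra R K]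
    [Field L] [Algebra K L] [Algebra R L] [IsScalarTower R K L] (T : L) : Algebra R[X] K⟮T⟯ :=
  ((aeval (AdjoinSimple.gen K T) : R[X] →ₐ[R] K⟮T⟯) : R[X] →+* K⟮T⟯).toAlgebra

theorem polyAlgebra_algebraMap_coe (T : L) (p : R[X]) :
    (((polyAlgebra K T).algebraMap p : K⟮T⟯) : L) = aeval T p := by
  change (K⟮T⟯.val.restrictScalars R) (aeval (AdjoinSimple.gen K T) p) = aeval T p
  rw [← aeval_algHom_apply]
  rfl

/-- `K(T)` is the fraction field of `R[X]` (`IntermediateField.mem_adjoin_simple_iff`, clear the
denominators of the coefficients: `IsLocalization.integerNormalization`). -/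
theorem isFractionRing_polyAlgebra {T : L} (hT : Transcendental K T) :
    @IsFractionRing R[X] _ K⟮T⟯ _ (polyAlgebra K T) := by
  let _ := polyAlgebra (R := R) K T
  have hcoe : ∀ p : R[X], ((algebraMap R[X] K⟮T⟯ p : K⟮T⟯) : L) = aeval T p :=
    polyAlgebra_algebraMap_coe T
  have hmap : ∀ p : R[X], aeval T p = aeval T (p.map (algebraMap R K)) := fun p =>
    (aeval_map_algebraMap K T p).symm
  have hinj : Function.Injective (algebraMap R[X] K⟮T⟯) := by
    intro p q hpq
    have h1 : aeval T (p.map (algebraMap R K)) = aeval T (q.map (algebraMap R K)) := by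
      rw [← hmap, ← hmap, ← hcoe, ← hcoe, hpq]
    exact Polynomial.map_injective _ (IsFractionRing.injective R K)
      (transcendental_iff_injective.1 hT h1)
  have : FaithfulSMul R[X] K⟮T⟯ := (faithfulSMul_iff_algebraMap_injective _ _).2 hinj
  refine IsFractionRing.of_field R[X] K⟮T⟯ fun z => ?_
  obtain ⟨r, s, hz⟩ := (mem_adjoin_simple_iff K (z : L)).1 z.2
  obtain ⟨b, hb, hb'⟩ := IsLocalization.integerNormalization_spec (nonZeroDivisors R) r
  obtain ⟨c, hc, hc'⟩ := IsLocalization.integerNormalization_spec (nonZeroDivisors R) s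
  have hb0 : algebraMap R L b ≠ 0 := by
    rw [IsScalarTower.algebraMap_apply R K L]
    simpa using nonZeroDivisors.ne_zero hb
  have hc0 : algebraMap R L c ≠ 0 := by
    rw [IsScalarTower.algebraMap_apply R K L]
    simpa using nonZeroDivisors.ne_zero hc
  refine ⟨C c * IsLocalization.integerNormalization (nonZeroDivisors R) r,
    C b * IsLocalization.integerNormalization (nonZeroDivisors R) s, Subtype.ext ?_⟩
  rw [← algebraMap_smul K b r, smul_eq_C_mul] at hb'
  rw [← algebraMap_smul K c s, smul_eq_C_mul] at hc'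
  rw [IntermediateField.coe_div, hcoe, hcoe, map_mul, map_mul,
    hmap (IsLocalization.integerNormalization _ r),
    hmap (IsLocalization.integerNormalization _ s), hb', hc', hz, aeval_C, aeval_C, map_mul,
    map_mul, aeval_C, aeval_C, ← IsScalarTower.algebraMap_apply, ← IsScalarTower.algebraMap_apply]
  by_cases hs : aeval T s = 0
  · simp [hs]
  · field_simp

end Frac

end Fermat.Agent.ESlib
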