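import Mathlib
import Fermat.Agent.ES.C.AKDefs
import Fermat.Agent.ES.C.AKGauss
import Fermat.Agent.ES.C.AKLoc
import Fermat.Agent.ES.C.AK3Poly
import Fermat.Agent.ES.C.AKWrapAux

/-!
# ES, AK3 + AK-LE: the local theorem for `O = R[X]_𝔪 → L`, `X ↦ T`
-/

set_option autoImplicit false

namespace Fermat.Agent.ESlib

open Polynomial IntermediateField

universe u

theorem constantCoeff_aeval_ps {R Ch : Type*} [CommRing R] [Field Ch] [Algebra R Ch]
    (w : PowerSeries Ch) (a : R[X]) :
    PowerSeries.constantCoeff (aeval w a) = aeval (PowerSeries.constantCoeff w) a := by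
  rw [aeval_def, aeval_def, hom_eval₂]
  congr 1

theorem faithfulSMul_of_tower_wrap (R K Ch : Type*) [CommRing R] [Field K] [Algebra R K]
    [IsFractionRing R K] [Field Ch] [Algebra K Ch] [Algebra R Ch] [IsScalarTower R K Ch] :
    FaithfulSMul R Ch := by
  rw [faithfulSMul_iff_algebraMap_injective, IsScalarTower.algebraMap_eq R K Ch]
  exact (algebraMap K Ch).injective.comp (IsFractionRing.injective R K)

/-- `w` is transcendental: `a(w) = 0 → a = 0`. -/
theorem eq_zero_of_aeval_ps_eq_zero {R Ch : Type*} [CommRing R] [IsDomain R]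
    [IsDiscreteValuationRing R] [Field Ch] [Algebra R Ch] [FaithfulSMul R Ch]
    {h : R[X]} (hh : Irreducible h) (hdeg : 0 < h.natDegree) (w : PowerSeries Ch)
    (hw : (aeval w h).order = 1) : ∀ a : R[X], aeval w a = 0 → a = 0 := by
  have hβ : aeval (PowerSeries.constantCoeff w) h = 0 := by
    rw [← constantCoeff_aeval_ps, ← PowerSeries.coeff_zero_eq_constantCoeff_apply]
    apply PowerSeries.coeff_of_lt_order
    rw [hw]; norm_num
  have hne : aeval w h ≠ 0 := by
    intro h0
    rw [h0, PowerSeries.order_zero] at hw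
    exact absurd hw (by simp)
  intro a
  induction' hn : a.natDegree using Nat.strong_induction_on with n ih generalizing a
  intro ha
  by_contra ha0
  have h1 : aeval (PowerSeries.constantCoeff w) a = 0 := by
    rw [← constantCoeff_aeval_ps, ha, map_zero]
  obtain ⟨a1, rfl⟩ := dvd_of_aeval_eq_zero_of_irreducible hh hdeg hβ h1
  have ha1 : a1 ≠ 0 := right_ne_zero_of_mul ha0
  rw [map_mul] at ha
  have h2 : aeval w a1 = 0 := (mul_eq_zero.mp ha).resolve_left hne
  have h3 : a1.natDegree < n := by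
    rw [← hn, natDegree_mul hh.ne_zero ha1]; omega
  exact ha1 (ih _ h3 a1 rfl h2)


section Aux
variable {R K L Ch Kt O : Type u} [CommRing R] [IsDomain R] [IsDiscreteValuationRing R]
  [Field K] [Algebra R K] [IsFractionRing R K] [Field L] [Algebra K L] [Algebra R L]
  [IsScalarTower R K L] [Field Ch] [Algebra K Ch] [Algebra R Ch] [IsScalarTower R K Ch]
  [Field Kt] [Algebra K Kt] [Algebra Kt L] [IsScalarTower K Kt L]
  [Algebra R[X] Kt] [IsFractionRing R[X] Kt] [Algebra R[X] L] [IsScalarTower R[X] Kt L]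
  [CommRing O] [Algebra R[X] O] [Algebra O Kt] [IsScalarTower R[X] O Kt]
  (𝔪 : Ideal R[X]) [𝔪.IsPrime] [IsLocalization.AtPrime O 𝔪]

theorem phiData_of_series (T : L) (hTalg : ∀ p : R[X], algebraMap R[X] L p = aeval T p)
    {h : R[X]} (hh : Irreducible h) (hdeg : 0 < h.natDegree) (hm : h ∈ 𝔪) (w : PowerSeries Ch)
    (hw : (aeval w h).order = 1) (hs : SplitAt K Ch T (w : LaurentSeries Ch)) :
    PhiData Kt L Ch (algebraMap R[X] O h) := by
  classical
  have : FaithfulSMul R Ch := faithfulSMul_of_tower_wrap R K Ch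
  set β : Ch := PowerSeries.constantCoeff w with hβdef
  have hβ : aeval β h = 0 := by
    rw [hβdef, ← constantCoeff_aeval_ps, ← PowerSeries.coeff_zero_eq_constantCoeff_apply]
    apply PowerSeries.coeff_of_lt_order
    rw [hw]; norm_num
  let φ0 : R[X] →+* PowerSeries Ch := ((aeval w : R[X] →ₐ[R] PowerSeries Ch) : R[X] →+* _)
  have hφ0 : ∀ a, φ0 a = aeval w a := fun a => rfl
  have hinj0 : Function.Injective φ0 := by
    rw [injective_iff_map_eq_zero]
    exact eq_zero_of_aeval_ps_eq_zero hh hdeg w hw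
  have hdvd : ∀ a : R[X], PowerSeries.constantCoeff (φ0 a) = 0 → h ∣ a := by
    intro a ha
    rw [hφ0, constantCoeff_aeval_ps] at ha
    exact dvd_of_aeval_eq_zero_of_irreducible hh hdeg hβ ha
  have hunit : ∀ y : 𝔪.primeCompl, IsUnit (φ0 y) := by
    intro y
    rw [PowerSeries.isUnit_iff_constantCoeff, isUnit_iff_ne_zero]
    intro h0
    exact y.2 (Ideal.mem_of_dvd _ (hdvd _ h0) hm)
  let φ : O →+* PowerSeries Ch := IsLocalization.lift (M := 𝔪.primeCompl) hunit
  have hφ : ∀ a : R[X], φ (algebraMap R[X] O a) = φ0 a := fun a => IsLocalization.lift_eq hunit a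
  let ψ0 : R[X] →+* LaurentSeries Ch := (HahnSeries.ofPowerSeries ℤ Ch).comp φ0
  have hψ0 : Function.Injective ψ0 := HahnSeries.ofPowerSeries_injective.comp hinj0
  let φ' : Kt →+* LaurentSeries Ch := IsFractionRing.lift hψ0
  have hφ' : ∀ a : R[X], φ' (algebraMap R[X] Kt a) = ψ0 a := fun a =>
    IsFractionRing.lift_algebraMap hψ0 a
  refine ⟨φ, φ', ?_, ?_, ?_, ?_⟩
  · -- compatibility
    intro x
    have : (φ'.comp (algebraMap O Kt)) = (HahnSeries.ofPowerSeries ℤ Ch).comp φ := by
      apply IsLocalization.ringHom_ext 𝔪.primeCompl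
      refine RingHom.ext fun a => ?_
      simp only [RingHom.comp_apply]
      rw [← IsScalarTower.algebraMap_apply R[X] O Kt, hφ', hφ]
      rfl
    exact congrArg (fun f => f x) this
  · rw [hφ, hφ0, hw]
  · intro x hx
    obtain ⟨a, s, rfl⟩ := IsLocalization.exists_mk'_eq 𝔪.primeCompl x
    have h1 : φ (IsLocalization.mk' O a s) * φ0 s = φ0 a := by
      rw [← hφ, ← hφ, ← map_mul, IsLocalization.mk'_spec]
    have h2 : PowerSeries.constantCoeff (φ0 a) = 0 := by
      rw [← h1, map_mul, hx, zero_mul]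
    obtain ⟨a1, rfl⟩ := hdvd a h2
    refine ⟨IsLocalization.mk' O a1 s, ?_⟩
    rw [IsLocalization.mk'_eq_iff_eq_mul, mul_assoc, IsLocalization.mk'_spec, map_mul]
  · intro σ hσ
    -- `σ` is a `K`-algebra hom
    have hK : ∀ c : K, φ' (algebraMap K Kt c) = algebraMap K (LaurentSeries Ch) c := by
      intro c
      have : φ'.comp (algebraMap K Kt) = algebraMap K (LaurentSeries Ch) := by
        apply IsLocalization.ringHom_ext (nonZeroDivisors R)
        refine RingHom.ext fun a => ?_
        simp only [RingHom.comp_apply]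
        have e1 : algebraMap K Kt (algebraMap R K a) = algebraMap R[X] Kt (C a) := by
          apply (algebraMap Kt L).injective
          rw [← IsScalarTower.algebraMap_apply K Kt L, ← IsScalarTower.algebraMap_apply R K L,
            ← IsScalarTower.algebraMap_apply R[X] Kt L, hTalg, aeval_C]
        rw [e1, hφ']
        show HahnSeries.ofPowerSeries ℤ Ch (aeval w (C a)) = _
        rw [aeval_C]
        show _ = (HahnSeries.ofPowerSeries ℤ Ch) (algebraMap K (PowerSeries Ch) (algebraMap R K a))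
        rw [PowerSeries.algebraMap_apply, PowerSeries.algebraMap_apply,
          ← IsScalarTower.algebraMap_apply R K Ch]
      exact congrArg (fun f => f c) this
    let σK : L →ₐ[K] AlgebraicClosure (LaurentSeries Ch) :=
      { σ with
        commutes' := fun c => by
          show σ (algebraMap K L c) = _
          rw [IsScalarTower.algebraMap_apply K Kt L, hσ, hK,
            ← IsScalarTower.algebraMap_apply K (LaurentSeries Ch)] }
    have hT : σK T = algebraMap (LaurentSeries Ch) (AlgebraicClosure (LaurentSeries Ch))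
        (w : LaurentSeries Ch) := by
      show σ T = _
      have e2 : T = algebraMap Kt L (algebraMap R[X] Kt X) := by
        rw [← IsScalarTower.algebraMap_apply R[X] Kt L, hTalg, aeval_X]
      rw [e2, hσ, hφ']
      show algebraMap _ _ (HahnSeries.ofPowerSeries ℤ Ch (aeval w X)) = _
      rw [aeval_X]
    exact hs σK hT



theorem local_etale_poly_aux [CharZero K] [CharZero Ch] [Algebra O L] [IsScalarTower O Kt L]
    [FiniteDimensional Kt L]
    {π : R} (hπ : Irreducible π) (T : L) (hTalg : ∀ p : R[X], algebraMap R[X] L p = aeval T p)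
    (hT : Transcendental K T)
    (hU : UnitDiff K π T) (h𝔪 : 𝔪.IsMaximal) (hπ𝔪 : C π ∈ 𝔪)
    (hh : ∀ h : R[X], Irreducible h → h ∈ 𝔪 → 0 < h.natDegree →
      ∃ w : PowerSeries Ch, (aeval w h).order = 1 ∧ SplitAt K Ch T (w : LaurentSeries Ch))
    (ε : L) (r : R[X]) (hr : ¬ C π ∣ r)
    (hrε : IsIntegral (Algebra.adjoin R {T}) (aeval T r * ε)) (hε : IntModPi π T ε) :
    ∃ a : R[X], a ∉ 𝔪 ∧ LocAt π T ε r a := by
  classical
  have hπp : Prime π := hπ.prime
  have hCπ : Prime (C π : R[X]) := prime_C_of_prime hπp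
  obtain ⟨g, hg, hπg⟩ := exists_maximal_eq_span_pair hπ 𝔪 h𝔪 hπ𝔪
  have i1 : IsLocalRing O := IsLocalization.AtPrime.isLocalRing O 𝔪
  have i2 : IsDomain O := IsLocalization.isDomain_of_atPrime O 𝔪
  have i3 : IsNoetherianRing O := IsLocalization.isNoetherianRing 𝔪.primeCompl O inferInstance
  have i4 : IsIntegrallyClosed R[X] := inferInstance
  have i5 : IsIntegrallyClosed O := isIntegrallyClosed_of_isLocalization O 𝔪.primeCompl
    (Ideal.primeCompl_le_nonZeroDivisors 𝔪)
  have i6 : IsFractionRing O Kt :=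
    IsFractionRing.isFractionRing_of_isDomain_of_isLocalization 𝔪.primeCompl O Kt
  have i7 : CharZero Kt := charZero_of_injective_algebraMap (algebraMap K Kt).injective
  have i8 : IsScalarTower R[X] O L := IsScalarTower.of_algebraMap_eq fun x => by
    rw [IsScalarTower.algebraMap_apply R[X] Kt L, IsScalarTower.algebraMap_apply R[X] O Kt,
      ← IsScalarTower.algebraMap_apply O Kt L]
  set πO : O := algebraMap R[X] O (C π) with hπOdef
  set gO : O := algebraMap R[X] O g with hgOdef
  have hmax : IsLocalRing.maximalIdeal O = Ideal.span {πO, gO} :=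
    atPrime_maximalIdeal_eq_span_pair 𝔪 hg
  have hπO : Prime πO := atPrime_prime 𝔪 hCπ hπ𝔪
  have hgO : ¬ πO ∣ gO := by rw [atPrime_dvd_iff 𝔪 hCπ hπ𝔪]; exact hπg
  obtain ⟨V, hV⟩ := exists_gaussDom (K := K) hπp hT (algebraMap L (AlgebraicClosure L))
  -- the structure map on polynomials
  have hpoly : ∀ p : R[X], algebraMap Kt (AlgebraicClosure L) (algebraMap O Kt (algebraMap R[X] O p))
      = algebraMap L (AlgebraicClosure L) (aeval T p) := by
    intro p
    rw [← IsScalarTower.algebraMap_apply R[X] O Kt, ← hTalg,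
      IsScalarTower.algebraMap_apply R[X] Kt L, ← IsScalarTower.algebraMap_apply Kt L]
  have hs1 : ∀ s : 𝔪.primeCompl,
      V.valuation (algebraMap L (AlgebraicClosure L) (aeval T (s : R[X]))) = 1 := by
    intro s
    refine le_antisymm (hV s).1 (not_lt.mp fun hlt => ?_)
    exact s.2 (Ideal.mem_of_dvd _ ((hV s).2.mp hlt) hπ𝔪)
  have hval : ∀ (a : R[X]) (s : 𝔪.primeCompl),
      V.valuation (algebraMap Kt (AlgebraicClosure L) (algebraMap O Kt (IsLocalization.mk' O a s)))
        = V.valuation (algebraMap L (AlgebraicClosure L) (aeval T a)) := by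
    intro a s
    have := IsLocalization.mk'_spec O a s
    have h2 := congrArg (fun x => V.valuation (algebraMap Kt (AlgebraicClosure L)
      (algebraMap O Kt x))) this
    simp only [map_mul, hpoly, hs1, mul_one] at h2
    exact h2
  have hV1 : ∀ a : O, V.valuation (algebraMap Kt (AlgebraicClosure L) (algebraMap O Kt a)) ≤ 1 := by
    intro x
    obtain ⟨a, s, rfl⟩ := IsLocalization.exists_mk'_eq 𝔪.primeCompl x
    rw [hval]; exact (hV a).1
  have hmk : ∀ (a : R[X]) (s : 𝔪.primeCompl), πO ∣ IsLocalization.mk' O a s ↔ C π ∣ a := by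
    intro a s
    rw [← atPrime_dvd_iff (O := O) 𝔪 hCπ hπ𝔪 a, ← IsLocalization.mk'_spec O a s]
    have hu : IsUnit (algebraMap R[X] O s) := IsLocalization.map_units O s
    exact (hu.dvd_mul_right).symm
  have hV2 : ∀ a : O,
      V.valuation (algebraMap Kt (AlgebraicClosure L) (algebraMap O Kt a)) < 1 ↔ πO ∣ a := by
    intro x
    obtain ⟨a, s, rfl⟩ := IsLocalization.exists_mk'_eq 𝔪.primeCompl x
    rw [hval, hmk]; exact (hV a).2
  have halg : algebraMap R[X] L = ((aeval T : R[X] →ₐ[R] L) : R[X] →+* L) := RingHom.ext hTalg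
  have hint1 : ∀ x : L, IsIntegral (Algebra.adjoin R {T}) x ↔ IsIntegral R[X] x := by
    intro x
    rw [isIntegral_adjoin_singleton_iff, IsIntegral, halg]
  have hint2 : ∀ x : L, IsIntegral (Algebra.adjoin R {T}) x → IsIntegral O x := fun x hx =>
    ((hint1 x).mp hx).tower_top
  have hsmul : ∀ (p : R[X]) (x : L), algebraMap R[X] O p • x = aeval T p * x := by
    intro p x
    rw [Algebra.smul_def, ← IsScalarTower.algebraMap_apply R[X] O L, hTalg]
  have hσp : ∀ (τ : L →ₐ[Kt] AlgebraicClosure L) (p : R[X]),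
      τ (aeval T p) = algebraMap L (AlgebraicClosure L) (aeval T p) := by
    intro τ p
    rw [← hTalg, IsScalarTower.algebraMap_apply R[X] Kt L, τ.commutes,
      ← IsScalarTower.algebraMap_apply Kt L]
  have hdom : ∀ τ : L →ₐ[Kt] AlgebraicClosure L, GaussDom π T V (τ : L →+* AlgebraicClosure L) := by
    intro τ p
    have : (τ : L →+* AlgebraicClosure L) (aeval T p) = algebraMap L (AlgebraicClosure L) (aeval T p) :=
      hσp τ p
    rw [this]; exact hV p
  have hsep : ∀ σ σ' : L →ₐ[Kt] AlgebraicClosure L, σ ≠ σ' →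
      ∃ c : L, (∃ r : O, ¬ πO ∣ r ∧ IsIntegral O (r • c)) ∧ V.valuation (σ c - σ' c) = 1 := by
    intro σ σ' hne
    obtain ⟨c, ⟨r', hr', hrc⟩, hcv⟩ := hU (AlgebraicClosure L) V (σ.restrictScalars K)
      (σ'.restrictScalars K) (by
        have h1 := hσp σ X
        have h2 := hσp σ' X
        rw [aeval_X] at h1 h2
        show σ T = σ' T
        rw [h1, h2]) (hdom σ) (fun h => hne (by
        ext x
        exact congrArg (fun f => f x) h))
    refine ⟨c, ⟨algebraMap R[X] O r', ?_, ?_⟩, hcv⟩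
    · rw [atPrime_dvd_iff 𝔪 hCπ hπ𝔪]; exact hr'
    · rw [hsmul]; exact hint2 _ hrc
  have hh' : ∀ d : O, d ≠ 0 → ¬ IsUnit d → ¬ πO ∣ d → ∃ h : O, h ∣ d ∧ PhiData Kt L Ch h := by
    intro d hd0 hdu hπd
    obtain ⟨h, hirr, hmem, hdvd⟩ := atPrime_exists_irreducible_dvd 𝔪 d hd0 hdu
    rcases associated_C_or_natDegree_pos hπ hirr with hass | hdeg
    · exfalso
      apply hπd
      refine dvd_trans ?_ hdvd
      exact (map_dvd (algebraMap R[X] O) hass.symm.dvd)
    · obtain ⟨w, hw, hs⟩ := hh h hirr hmem hdeg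
      exact ⟨_, hdvd, phiData_of_series 𝔪 T hTalg hirr hdeg hmem w hw hs⟩
  have hr' : ¬ πO ∣ algebraMap R[X] O r := by rw [atPrime_dvd_iff 𝔪 hCπ hπ𝔪]; exact hr
  have hrε' : IsIntegral O (algebraMap R[X] O r • ε) := by rw [hsmul]; exact hint2 _ hrε
  have hε' : ∀ σ : L →ₐ[Kt] AlgebraicClosure L, ∃ q : Polynomial O, q.Monic ∧
      V.valuation (q.eval₂ ((algebraMap Kt (AlgebraicClosure L)).comp (algebraMap O Kt)) (σ ε)) < 1 := by
    intro σ
    obtain ⟨p, hp, hpc, hpε⟩ := hε
    refine exists_monic_valuation_lt_one V _ (fun a => hV1 a) (p.map (σ : L →+* AlgebraicClosure L))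
      (hp.map _) ?_ (σ ε) ?_
    · intro i
      rw [coeff_map]
      obtain ⟨q, hq, hq0⟩ := hint2 _ (hpc i)
      refine ⟨q, hq, ?_⟩
      have hcomp : (algebraMap Kt (AlgebraicClosure L)).comp (algebraMap O Kt) =
          (σ : L →+* AlgebraicClosure L).comp (algebraMap O L) := by
        refine RingHom.ext fun a => ?_
        simp only [RingHom.comp_apply]
        rw [IsScalarTower.algebraMap_apply O Kt L]
        exact (σ.commutes _).symm
      rw [hcomp, ← hom_eval₂, hq0, map_zero]
    · rw [eval_map]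
      have h1 : eval₂ (σ : L →+* AlgebraicClosure L) (σ ε) p = σ (eval ε p) :=
        eval₂_at_apply (σ : L →+* AlgebraicClosure L) ε
      have hπ0 : algebraMap R L π ≠ 0 := by
        rw [IsScalarTower.algebraMap_apply R K L]
        simpa using hπ.ne_zero
      have h2 : eval ε p = algebraMap R L π * (eval ε p / algebraMap R L π) := by
        field_simp
      rw [h1, h2, map_mul, map_mul]
      have h3 : V.valuation (σ (algebraMap R L π)) < 1 :=
        GaussDom.valuation_pi_lt_one (hdom σ)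
      have h4 : V.valuation (σ (eval ε p / algebraMap R L π)) ≤ 1 :=
        GaussDom.valuation_le_one (hdom σ) hpε
      calc _ ≤ V.valuation (σ (algebraMap R L π)) * 1 := mul_le_mul_right h4 _
        _ < 1 := by rwa [mul_one]
  obtain ⟨e, z, he, hz, hez⟩ := local_etale (Ch := Ch) πO gO hmax hπO hgO V hV1 hV2 hsep hh' ε
    (algebraMap R[X] O r) hr' hrε' hε'
  obtain ⟨a1, ha1⟩ := IsIntegral.exists_multiple_integral_of_isLocalization 𝔪.primeCompl e he
  obtain ⟨a2, ha2⟩ := IsIntegral.exists_multiple_integral_of_isLocalization 𝔪.primeCompl z hz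
  have hsm : ∀ (p : R[X]) (x : L), p • x = aeval T p * x := by
    intro p x
    rw [Algebra.smul_def, hTalg]
  refine ⟨(a1 * a2 : 𝔪.primeCompl), (a1 * a2 : 𝔪.primeCompl).2,
    aeval T ((a1 * a2 : 𝔪.primeCompl) : R[X]) * e, aeval T ((a1 * a2 : 𝔪.primeCompl) : R[X]) * z,
    ?_, ?_, ?_⟩
  · rw [hint1, ← hsm, Submonoid.coe_mul, mul_comm, mul_smul]
    exact ha1.smul _
  · rw [hint1, ← hsm, Submonoid.coe_mul, mul_smul]
    exact ha2.smul _
  · rw [hsmul, hπOdef, hsmul, aeval_C] at hez
    rw [mul_left_comm (algebraMap R L π), ← hez]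
    ring

end Aux


/-- **AK-LE.**  The local theorem for the localisation of `R[X]` at a maximal ideal `𝔪 ∋ π`, mapped
to `L` by `X ↦ T`.

Proof (glue).  `Kt := K⟮T⟯` with `Algebra R[X] Kt` given by `X ↦ T` is a fraction field of `R[X]`.
`O := Localization.subalgebra.ofField Kt 𝔪.primeCompl _` (a subalgebra of `Kt`, so all the
`Algebra`/`IsScalarTower` instances are available; `IsLocalization.AtPrime O 𝔪`).  `O` is local,
noetherian, normal; its maximal ideal is `(π, g)` (AK3c), `π` is prime in `O`, `π ∤ g`.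
`Ω := AlgebraicClosure L`, `V` from `exists_gaussDom`.  Apply `local_etale`:
* `hV`, `hVπ` from `GaussDom`; * `hsep` from `hU`;
* `hh`: `d = d0 / w`, `d0 ∈ 𝔪` nonzero; some irreducible factor `h` of `d0` lies in `𝔪`;
  `h` is not associated to `C π` so it has positive degree (AK3a); take `w` from `hh`;
  `φ : R[X] → Ch[[τ]]`, `X ↦ w`; `β := w(0)` is a root of `h`; `a(β) = 0 → h ∣ a` (AK3b), so `φ`
  maps `𝔪.primeCompl` to units and extends to `O`, and to `Kt → Ch((τ))` (`w` is not a constant, so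
  it is transcendental over `K`); the last clause of `PhiData` is `SplitAt`;
* `hε`: from `IntModPi`, transitivity of integrality in the residue field of `V`.
Finally clear the denominators of `e`, `z` (`IsIntegral.exists_multiple_integral_of_isLocalization`).
-/
theorem local_etale_poly {R K L Ch : Type u} [CommRing R] [IsDomain R] [IsDiscreteValuationRing R]
    [Field K] [Algebra R K] [IsFractionRing R K] [CharZero K] [Field L] [Algebra K L] [Algebra R L]
    [IsScalarTower R K L] [Field Ch] [CharZero Ch] [Algebra K Ch] [Algebra R Ch]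
    [IsScalarTower R K Ch]
    {π : R} (hπ : Irreducible π) (T : L) (hT : Transcendental K T) [FiniteDimensional K⟮T⟯ L]
    (hU : UnitDiff K π T) (𝔪 : Ideal R[X]) (h𝔪 : 𝔪.IsMaximal) (hπ𝔪 : C π ∈ 𝔪)
    (hh : ∀ h : R[X], Irreducible h → h ∈ 𝔪 → 0 < h.natDegree →
      ∃ w : PowerSeries Ch, (aeval w h).order = 1 ∧ SplitAt K Ch T (w : LaurentSeries Ch))
    (ε : L) (r : R[X]) (hr : ¬ C π ∣ r)
    (hrε : IsIntegral (Algebra.adjoin R {T}) (aeval T r * ε)) (hε : IntModPi π T ε) :
    ∃ a : R[X], a ∉ 𝔪 ∧ LocAt π T ε r a := by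
  let algK : Algebra R[X] K⟮T⟯ := polyAlgebra K T
  have : IsFractionRing R[X] K⟮T⟯ := isFractionRing_polyAlgebra hT
  let algL : Algebra R[X] L := ((aeval T : R[X] →ₐ[R] L) : R[X] →+* L).toAlgebra
  have : IsScalarTower R[X] K⟮T⟯ L :=
    IsScalarTower.of_algebraMap_eq fun p => (polyAlgebra_algebraMap_coe T p).symm
  have := h𝔪.isPrime
  exact local_etale_poly_aux (Kt := K⟮T⟯)
    (O := Localization.subalgebra.ofField K⟮T⟯ 𝔪.primeCompl (Ideal.primeCompl_le_nonZeroDivisors 𝔪))
    𝔪 hπ T (fun p => rfl) hT hU h𝔪 hπ𝔪 hh ε r hr hrε hε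


end Fermat.Agent.ESlib
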