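import Mathlib
import Fermat.Agent.S53lib.PSComplete

/-!
# ES, AK10: roots of power series and Laurent series
-/

set_option autoImplicit false

namespace Fermat.Agent.ESlib

open PowerSeries

variable {k : Type*} [Field k]

theorem mem_extIdeal_bot_iff (g : k⟦X⟧) :
    g ∈ S53lib.extIdeal (⊥ : Ideal k) ↔ constantCoeff g = 0 := by
  rw [S53lib.extIdeal, Ideal.map_bot, bot_sup_eq, Ideal.mem_span_singleton, X_dvd_iff]

/-- **AK10 (a).** `M`-th roots of power series with prescribed constant term. -/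
theorem exists_pow_eq_of_constantCoeff {M : ℕ} (hM : (M : k) ≠ 0) (a : k⟦X⟧) {c : k} (hc : c ≠ 0)
    (h : c ^ M = constantCoeff a) : ∃ w : k⟦X⟧, w ^ M = a ∧ constantCoeff w = c := by
  have hM0 : M ≠ 0 := by rintro rfl; simp at hM
  have : IsAdicComplete (S53lib.extIdeal (⊥ : Ideal k)) k⟦X⟧ := S53lib.isAdicComplete_extIdeal ⊥
  have hH : HenselianRing k⟦X⟧ (S53lib.extIdeal (⊥ : Ideal k)) := inferInstance
  obtain ⟨w, hw, hwc⟩ := hH.is_henselian (Polynomial.X ^ M - Polynomial.C a)
    (Polynomial.monic_X_pow_sub_C a hM0) (C c)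
    (by
      rw [mem_extIdeal_bot_iff]
      simp [h])
    (by
      apply IsUnit.map
      simp only [Polynomial.derivative_sub, Polynomial.derivative_X_pow, Polynomial.derivative_C,
        sub_zero, Polynomial.eval_mul, Polynomial.eval_pow, Polynomial.eval_X, Polynomial.eval_C]
      rw [isUnit_iff_constantCoeff]
      simp only [map_mul, map_pow, constantCoeff_C, map_natCast]
      exact (mul_ne_zero hM (pow_ne_zero _ hc)).isUnit)
  refine ⟨w, ?_, ?_⟩
  · simpa [Polynomial.IsRoot, sub_eq_zero] using hw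
  · rw [mem_extIdeal_bot_iff] at hwc
    simpa [sub_eq_zero] using hwc

/-- **AK10 (c).** `w ^ M - c ^ M` is a unit times `w - c`. -/
theorem exists_unit_mul_pow_sub {M : ℕ} (hM : (M : k) ≠ 0) (w : k⟦X⟧) {c : k} (hc : c ≠ 0)
    (h : constantCoeff w = c) : ∃ u : k⟦X⟧ˣ, w ^ M - C (c ^ M) = (w - C c) * u := by
  have hu : IsUnit (∑ i ∈ Finset.range M, w ^ i * (C c) ^ (M - 1 - i)) := by
    rw [isUnit_iff_constantCoeff]
    simp only [map_sum, map_mul, map_pow, constantCoeff_C, h]
    have : ∀ i ∈ Finset.range M, c ^ i * c ^ (M - 1 - i) = c ^ (M - 1) := by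
      intro i hi
      rw [← pow_add]
      congr 1
      have := Finset.mem_range.mp hi
      omega
    rw [Finset.sum_congr rfl this, Finset.sum_const, Finset.card_range, nsmul_eq_mul]
    exact (mul_ne_zero hM (pow_ne_zero _ hc)).isUnit
  refine ⟨hu.unit, ?_⟩
  rw [IsUnit.unit_spec, map_pow, mul_comm, (Commute.all w (C c)).geom_sum₂_mul]

theorem order_pow_sub_eq {M : ℕ} (hM : (M : k) ≠ 0) (w : k⟦X⟧) {c : k} (hc : c ≠ 0)
    (h : constantCoeff w = c) : (w ^ M - C (c ^ M)).order = (w - C c).order := by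
  obtain ⟨u, hu⟩ := exists_unit_mul_pow_sub hM w hc h
  rw [hu, order_mul, order_zero_of_unit u.isUnit, add_zero]

/-- **AK10 (b).** `M`-th roots of Laurent series whose order is divisible by `M`. -/
theorem laurent_exists_pow_eq [IsAlgClosed k] {M : ℕ} (hM : (M : k) ≠ 0) (a : LaurentSeries k)
    (h : (M : ℤ) ∣ a.order) : ∃ w : LaurentSeries k, w ^ M = a := by
  have hM0 : M ≠ 0 := by rintro rfl; simp at hM
  by_cases ha : a = 0
  · exact ⟨0, by rw [ha, zero_pow hM0]⟩
  obtain ⟨n, hn⟩ := h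
  have hc0 : constantCoeff a.powerSeriesPart ≠ 0 := by
    rw [← coeff_zero_eq_constantCoeff_apply, LaurentSeries.powerSeriesPart_coeff]
    simpa using (HahnSeries.coeff_order_eq_zero (x := a)).not.mpr ha
  obtain ⟨c, hc⟩ := IsAlgClosed.exists_pow_nat_eq (constantCoeff a.powerSeriesPart)
    (Nat.pos_of_ne_zero hM0)
  have hcne : c ≠ 0 := by
    rintro rfl
    rw [zero_pow hM0] at hc
    exact hc0 hc.symm
  obtain ⟨w, hw, -⟩ := exists_pow_eq_of_constantCoeff hM a.powerSeriesPart hcne hc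
  refine ⟨HahnSeries.single n 1 * HahnSeries.ofPowerSeries ℤ k w, ?_⟩
  rw [mul_pow, ← map_pow (HahnSeries.ofPowerSeries ℤ k), hw, HahnSeries.single_pow, one_pow,
    nsmul_eq_mul, ← hn]
  exact LaurentSeries.single_order_mul_powerSeriesPart a

end Fermat.Agent.ESlib
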