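import Mathlib
import Fermat.Agent.ES.C.AKDefs
import Fermat.Agent.ES.C.PSRoot

/-!
# ES, AK11: extension of embeddings; field theory for `L1 = E(u)`; `UnitDiff` for `L1`
-/

set_option autoImplicit false

namespace Fermat.Agent.ESlib

open Polynomial IntermediateField

universe u

section Split

variable {K E L1 Ch : Type*} [Field K] [Field E] [Algebra K E] [Field L1] [Algebra E L1]
  [Algebra K L1] [IsScalarTower K E L1] [Field Ch] [Algebra K Ch]

/-- **AK11'.** `L1 = E(u)`, `u ^ M = T - b0`, `v ^ M = w - b0` in `Ch((τ))`: if all the embeddings of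
`E` over `T ↦ w` land in `Ch((τ))` then all the embeddings of `L1` over `u ↦ v` land in `Ch((τ))`.
(`σ` restricted to `E` sends `T = u ^ M + b0` to `w`; the set of `x` with `σ x ∈ Ch((τ))` is an
intermediate field containing `E` and `u`.) -/
theorem SplitAt.root {T : E} {w v : LaurentSeries Ch} {b0 : K} {M : ℕ} {u : L1}
    (h : SplitAt K Ch T w) (hu : u ^ M = algebraMap E L1 (T - algebraMap K E b0))
    (hv : v ^ M = w - algebraMap K (LaurentSeries Ch) b0)
    (hgen : IntermediateField.adjoin E {u} = ⊤) : SplitAt K Ch u v := by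
  intro σ hσ
  set Ω := AlgebraicClosure (LaurentSeries Ch) with hΩ
  set τ : E →ₐ[K] Ω := σ.comp (IsScalarTower.toAlgHom K E L1) with hτ
  have hτT : τ T = algebraMap (LaurentSeries Ch) Ω w := by
    have h1 : algebraMap E L1 T = u ^ M + algebraMap K L1 b0 := by
      rw [hu, map_sub, ← IsScalarTower.algebraMap_apply K E L1]; ring
    have h2 : τ T = σ (algebraMap E L1 T) := rfl
    rw [h2, h1, map_add, map_pow, hσ, σ.commutes, ← map_pow, hv, map_sub,
      ← IsScalarTower.algebraMap_apply K (LaurentSeries Ch) Ω]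
    ring
  have hE := h τ hτT
  -- the subfield of the elements mapped into `Ch((τ))`
  let S : IntermediateField E L1 :=
    { carrier := {x | σ x ∈ (algebraMap (LaurentSeries Ch) Ω).range}
      mul_mem' := fun {a b} ha hb => by
        simp only [Set.mem_ofPred_eq] at ha hb ⊢
        rw [map_mul]; exact mul_mem ha hb
      add_mem' := fun {a b} ha hb => by
        simp only [Set.mem_ofPred_eq] at ha hb ⊢
        rw [map_add]; exact add_mem ha hb
      algebraMap_mem' := fun e => hE e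
      inv_mem' := fun a ha => by
        simp only [Set.mem_ofPred_eq] at ha ⊢
        obtain ⟨z, hz⟩ := ha
        exact ⟨z⁻¹, by rw [map_inv₀, hz, map_inv₀]⟩ }
  have hS : S = ⊤ := by
    rw [eq_top_iff, ← hgen, IntermediateField.adjoin_le_iff]
    rintro _ rfl
    exact ⟨v, hσ.symm⟩
  intro x
  have : x ∈ S := by rw [hS]; exact IntermediateField.mem_top
  exact this

/-- change of chart `T ↦ T⁻¹` -/
theorem SplitAt.inv {T : E} {w : LaurentSeries Ch} (h : SplitAt K Ch T w) :
    SplitAt K Ch T⁻¹ w⁻¹ := by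
  intro σ hσ
  apply h σ
  rw [map_inv₀, map_inv₀] at hσ
  exact inv_injective hσ

/-- (Hh) at `T = b ≠ 0` gives (Hh) at `T⁻¹ = b⁻¹` with the same index.
(`w⁻¹ - b⁻¹ = -(w - b) / (b w)` and `w` has order `0`.) -/
theorem HhAt.inv {T : E} {b : Ch} (hb : b ≠ 0) {M : ℕ} (hM : 0 < M) (h : HhAt K Ch T b M) :
    HhAt K Ch T⁻¹ b⁻¹ M := by
  obtain ⟨w, hw, hs⟩ := h
  refine ⟨w⁻¹, ?_, hs.inv⟩
  have hd0 : w - HahnSeries.C b ≠ 0 := by
    intro h0
    rw [h0, HahnSeries.order_zero] at hw
    have : (M : ℤ) = 0 := hw.symm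
    omega
  have hcoeff : ∀ j : ℤ, j ≤ 0 → w.coeff j = (HahnSeries.C b : LaurentSeries Ch).coeff j := by
    intro j hj
    have h1 : (w - HahnSeries.C b).coeff j = 0 :=
      HahnSeries.coeff_eq_zero_of_lt_order (by rw [hw]; omega)
    rw [HahnSeries.coeff_sub, sub_eq_zero] at h1
    exact h1
  have hw0c : w.coeff 0 = b := by
    rw [hcoeff 0 le_rfl, HahnSeries.C_apply, HahnSeries.coeff_single_same]
  have hw0 : w ≠ 0 := by
    intro h0
    rw [h0, HahnSeries.coeff_zero] at hw0c
    exact hb hw0c.symm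
  have hword : w.order = 0 := by
    apply le_antisymm
    · exact HahnSeries.order_le_of_coeff_ne_zero (by rw [hw0c]; exact hb)
    · rw [HahnSeries.le_order_iff_forall hw0]
      intro j hj
      rw [hcoeff j hj.le, HahnSeries.C_apply, HahnSeries.coeff_single_of_ne hj.ne]
  have hCb : (HahnSeries.C b : LaurentSeries Ch) ≠ 0 := by
    rw [Ne, map_eq_zero_iff _ HahnSeries.C_injective]; exact hb
  have hkey : (w⁻¹ - HahnSeries.C b⁻¹) * (HahnSeries.C b * w) = -(w - HahnSeries.C b) := by
    rw [map_inv₀]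
    field_simp
    ring
  have hne : w⁻¹ - HahnSeries.C b⁻¹ ≠ 0 := by
    intro h0
    rw [h0, zero_mul] at hkey
    exact hd0 (neg_eq_zero.mp hkey.symm)
  have h2 := congrArg HahnSeries.order hkey
  rw [HahnSeries.order_mul hne (mul_ne_zero hCb hw0), HahnSeries.order_mul hCb hw0,
    HahnSeries.order_C, hword, HahnSeries.order_neg, hw] at h2
  simpa using h2

/-- the `y`-part of AK11 (only needed for the direct route through `E = F(y)`):
`E = F(y)`, `y ^ m = f`. -/
theorem HhAtF.kummer [IsAlgClosed Ch] [CharZero Ch] {T f : E} {m : ℕ} (hm : 0 < m) {b : Ch} {M : ℕ}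
    (h : HhAtF K Ch T f m b M) {y : L1} (hy : y ^ m = algebraMap E L1 f)
    (hgen : IntermediateField.adjoin E {y} = ⊤) : HhAt K Ch (algebraMap E L1 T) b M := by
  obtain ⟨w, hw, hs⟩ := h
  refine ⟨w, hw, ?_⟩
  intro σ hσ
  set Ω := AlgebraicClosure (LaurentSeries Ch) with hΩ
  set τ : E →ₐ[K] Ω := σ.comp (IsScalarTower.toAlgHom K E L1) with hτ
  obtain ⟨hE, g, hg, hgm⟩ := hs τ hσ
  have hmCh : (m : Ch) ≠ 0 := by exact_mod_cast hm.ne'
  obtain ⟨w0, hw0⟩ := laurent_exists_pow_eq hmCh g hgm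
  have hσy : σ y ^ m = algebraMap (LaurentSeries Ch) Ω w0 ^ m := by
    rw [← map_pow, hy, ← map_pow, hw0, ← hg]
    rfl
  have hyr : σ y ∈ (algebraMap (LaurentSeries Ch) Ω).range := by
    by_cases h0 : w0 = 0
    · rw [h0, map_zero, zero_pow hm.ne'] at hσy
      exact ⟨0, by rw [map_zero, pow_eq_zero_iff hm.ne' |>.mp hσy]⟩
    · have h0' : algebraMap (LaurentSeries Ch) Ω w0 ≠ 0 := by simpa using h0
      set ζ : Ω := σ y / algebraMap (LaurentSeries Ch) Ω w0 with hζ
      have hζm : ζ ^ m = 1 := by rw [hζ, div_pow, hσy, div_self (pow_ne_zero _ h0')]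
      have hint : IsIntegral Ch ζ :=
        ⟨X ^ m - C 1, monic_X_pow_sub_C 1 hm.ne', by simp [hζm]⟩
      obtain ⟨c, hc⟩ := minpoly.mem_range_of_degree_eq_one Ch ζ
        (IsAlgClosed.degree_eq_one_of_irreducible Ch (minpoly.irreducible hint))
      refine ⟨algebraMap Ch (LaurentSeries Ch) c * w0, ?_⟩
      rw [map_mul, ← IsScalarTower.algebraMap_apply Ch (LaurentSeries Ch) Ω, hc, hζ,
        div_mul_cancel₀ _ h0']
  let S : IntermediateField E L1 :=
    { carrier := {x | σ x ∈ (algebraMap (LaurentSeries Ch) Ω).range}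
      mul_mem' := fun {a b} ha hb => by
        simp only [Set.mem_ofPred_eq] at ha hb ⊢
        rw [map_mul]; exact mul_mem ha hb
      add_mem' := fun {a b} ha hb => by
        simp only [Set.mem_ofPred_eq] at ha hb ⊢
        rw [map_add]; exact add_mem ha hb
      algebraMap_mem' := fun e => hE e
      inv_mem' := fun a ha => by
        simp only [Set.mem_ofPred_eq] at ha ⊢
        obtain ⟨z, hz⟩ := ha
        exact ⟨z⁻¹, by rw [map_inv₀, hz, map_inv₀]⟩ }
  have hS : S = ⊤ := by
    rw [eq_top_iff, ← hgen, IntermediateField.adjoin_le_iff]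
    rintro _ rfl
    exact hyr
  intro x
  have : x ∈ S := by rw [hS]; exact IntermediateField.mem_top
  exact this

end Split

section Fin

variable {K E L1 : Type*} [Field K] [Field E] [Algebra K E] [Field L1] [Algebra E L1]
  [Algebra K L1] [IsScalarTower K E L1]

/-- **AK7c.** `L1 = E(u)` is finite over `K(u)` when `E` is finite over `K(T)` and
`T = u ^ M + b0 ∈ K(u)`. -/
theorem finiteDimensional_root {T : E} [FiniteDimensional K⟮T⟯ E] {b0 : K} {M : ℕ} (hM : 0 < M)
    {u : L1} (hu : u ^ M = algebraMap E L1 (T - algebraMap K E b0))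
    (hgen : IntermediateField.adjoin E {u} = ⊤) : FiniteDimensional K⟮u⟯ L1 := by
  have huint : IsIntegral E u :=
    ⟨X ^ M - C (T - algebraMap K E b0), monic_X_pow_sub_C _ hM.ne', by simp [hu]⟩
  have h1 : FiniteDimensional E L1 := by
    have h2 : FiniteDimensional E E⟮u⟯ := IntermediateField.adjoin.finiteDimensional huint
    rw [hgen] at h2
    exact Module.Finite.equiv (IntermediateField.topEquiv (F := E) (E := L1)).toLinearEquiv
  have h2 : FiniteDimensional K⟮T⟯ L1 := FiniteDimensional.trans K⟮T⟯ E L1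
  have hT : ∀ c : K⟮T⟯, algebraMap E L1 (c : E) ∈ K⟮u⟯ := by
    have h3 : (K⟮T⟯).map (IsScalarTower.toAlgHom K E L1) ≤ K⟮u⟯ := by
      rw [IntermediateField.adjoin_map, IntermediateField.adjoin_le_iff]
      rintro _ ⟨t, ht, rfl⟩
      rw [Set.mem_singleton_iff] at ht
      subst ht
      have h4 : algebraMap E L1 t = u ^ M + algebraMap K L1 b0 := by
        rw [hu, map_sub, ← IsScalarTower.algebraMap_apply K E L1]; ring
      change algebraMap E L1 t ∈ K⟮u⟯
      rw [h4]
      exact add_mem (pow_mem (IntermediateField.mem_adjoin_simple_self K u) M)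
        (K⟮u⟯.algebraMap_mem b0)
    intro c
    exact h3 ⟨c, c.2, rfl⟩
  let φ : K⟮T⟯ →+* K⟮u⟯ :=
    ((algebraMap E L1).comp (algebraMap K⟮T⟯ E)).codRestrict K⟮u⟯ hT
  let _ : Algebra K⟮T⟯ K⟮u⟯ := φ.toAlgebra
  have : IsScalarTower K⟮T⟯ K⟮u⟯ L1 := IsScalarTower.of_algebraMap_eq fun c => rfl
  exact Module.Finite.of_restrictScalars_finite K⟮T⟯ K⟮u⟯ L1

end Fin

end Fermat.Agent.ESlib
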