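import Mathlib
import Fermat.Agent.ES.C.AKDefs
import Fermat.Agent.ES.C.AKGauss

/-!
# ES, AK4b/c/d: how to obtain `UnitDiff` (= (Hπ))
-/

set_option autoImplicit false

namespace Fermat.Agent.ESlib

open Polynomial IntermediateField

universe u

/-- separability only depends on the kernel of the coefficient map -/
theorem separable_map_of_ker_eq {A0 k₁ k₂ : Type*} [CommRing A0] [Field k₁] [Field k₂]
    (ρ : A0 →+* k₁) (χ : A0 →+* k₂) (hker : ∀ a, ρ a = 0 ↔ χ a = 0) (P : A0[X])
    (h : (P.map ρ).Separable) : (P.map χ).Separable := by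
  set I := RingHom.ker ρ with hI
  have : I.IsPrime := RingHom.ker_isPrime ρ
  let D := A0 ⧸ I
  let Fr := FractionRing D
  have hinj₁ : Function.Injective (RingHom.kerLift ρ) := RingHom.kerLift_injective ρ
  let χ' : D →+* k₂ := Ideal.Quotient.lift I χ (fun a ha => (hker a).mp ha)
  have hinj₂ : Function.Injective χ' := by
    rw [injective_iff_map_eq_zero]
    intro x hx
    obtain ⟨a, rfl⟩ := Ideal.Quotient.mk_surjective x
    have : χ a = 0 := by
      have h2 : χ' (Ideal.Quotient.mk I a) = χ a := Ideal.Quotient.lift_mk I χ _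
      rw [← h2]; exact hx
    exact Ideal.Quotient.eq_zero_iff_mem.mpr ((hker a).mpr this)
  let l₁ : Fr →+* k₁ := IsFractionRing.lift hinj₁
  let l₂ : Fr →+* k₂ := IsFractionRing.lift hinj₂
  set PF : Fr[X] := (P.map (Ideal.Quotient.mk I)).map (algebraMap D Fr) with hPF
  have e₁ : P.map ρ = PF.map l₁ := by
    rw [hPF, Polynomial.map_map, Polynomial.map_map]
    congr 1
    ext a
    show ρ a = l₁ (algebraMap D Fr (Ideal.Quotient.mk I a))
    rw [IsFractionRing.lift_algebraMap]
    rfl
  have e₂ : P.map χ = PF.map l₂ := by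
    rw [hPF, Polynomial.map_map, Polynomial.map_map]
    congr 1
    ext a
    show χ a = l₂ (algebraMap D Fr (Ideal.Quotient.mk I a))
    rw [IsFractionRing.lift_algebraMap]
    rfl
  rw [e₁, Polynomial.separable_map] at h
  rw [e₂]
  exact h.map

/-- two distinct roots which are congruent modulo the maximal ideal give a double root of the
reduction -/
theorem not_separable_of_congruent_roots {V : Type*} [CommRing V] [IsDomain V] [IsLocalRing V]
    (Q : V[X]) {a a' : V} (ha : Q.eval a = 0) (ha' : Q.eval a' = 0) (hne : a ≠ a')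
    (hclose : a - a' ∈ IsLocalRing.maximalIdeal V) :
    ¬ (Q.map (IsLocalRing.residue V)).Separable := by
  intro hsep
  obtain ⟨Q₁, hQ₁⟩ : (X - C a) ∣ Q := Polynomial.dvd_iff_isRoot.mpr ha
  have h1 : Q₁.eval a' = 0 := by
    rw [hQ₁, eval_mul, eval_sub, eval_X, eval_C] at ha'
    exact (mul_eq_zero.mp ha').resolve_left (sub_ne_zero.mpr hne.symm)
  have h2 : (derivative Q).eval a = Q₁.eval a := by
    rw [hQ₁, derivative_mul]
    simp
  have h3 : Q₁.eval a ∈ IsLocalRing.maximalIdeal V := by
    have hd : a - a' ∣ Q₁.eval a - Q₁.eval a' := Polynomial.sub_dvd_eval_sub a a' Q₁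
    rw [h1, sub_zero] at hd
    exact Ideal.mem_of_dvd _ hd hclose
  obtain ⟨U, W, hUW⟩ := hsep
  have h4 := congrArg (Polynomial.eval (IsLocalRing.residue V a)) hUW
  rw [eval_add, eval_mul, eval_mul, eval_one, derivative_map, eval_map_apply, eval_map_apply, ha, h2,
    map_zero, (IsLocalRing.residue_eq_zero_iff _).mpr h3, mul_zero, mul_zero, add_zero] at h4
  exact zero_ne_one h4

/-- if the nonzero elements of `f(A0)` are units of `V`, a nonzero element of `V` which is algebraic
over `f(A0)` is a unit of `V` -/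
theorem one_le_valuation_of_eval₂_eq_zero {A0 Ω : Type*} [CommRing A0] [Field Ω]
    (V : ValuationSubring Ω) (f : A0 →+* Ω) (hf : ∀ y, f y = 0 ∨ V.valuation (f y) = 1)
    {d : Ω} (hd0 : d ≠ 0) (hd : V.valuation d ≤ 1) :
    ∀ (n : ℕ) (g : A0[X]), g.natDegree ≤ n → g.map f ≠ 0 → g.eval₂ f d = 0 →
      1 ≤ V.valuation d := by
  have hfV : ∀ y, f y ∈ V := by
    intro y
    rw [← V.valuation_le_one_iff]
    rcases hf y with h | h
    · rw [h, map_zero]; exact zero_le_one
    · exact h.le
  have hdV : d ∈ V := (V.valuation_le_one_iff d).mp hd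
  have hev : ∀ g : A0[X], g.eval₂ f d ∈ V := by
    intro g
    rw [Polynomial.eval₂_eq_sum_range]
    exact sum_mem fun i _ => mul_mem (hfV _) (pow_mem hdV _)
  intro n
  induction n with
  | zero =>
    intro g hg hmap hev0
    exfalso
    rw [Polynomial.eq_C_of_natDegree_le_zero hg] at hmap hev0
    rw [Polynomial.eval₂_C] at hev0
    rw [Polynomial.map_C, hev0, map_zero] at hmap
    exact hmap rfl
  | succ n ih =>
    intro g hg hmap hev0
    have hdec : g = g.divX * X + C (g.coeff 0) := (Polynomial.divX_mul_X_add g).symm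
    have h1 : g.divX.eval₂ f d * d + f (g.coeff 0) = 0 := by
      rw [hdec] at hev0
      simpa [Polynomial.eval₂_add, Polynomial.eval₂_mul] using hev0
    rcases hf (g.coeff 0) with h0 | h0
    · rw [h0, add_zero] at h1
      have h2 : g.divX.eval₂ f d = 0 := (mul_eq_zero.mp h1).resolve_right hd0
      refine ih g.divX ?_ ?_ h2
      · rw [Polynomial.natDegree_divX_eq_natDegree_tsub_one]; omega
      · intro h3
        apply hmap
        rw [hdec, Polynomial.map_add, Polynomial.map_mul, h3, zero_mul, zero_add, Polynomial.map_C,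
          h0, map_zero]
    · have h2 : f (g.coeff 0) = -(g.divX.eval₂ f d) * d := by linear_combination h1
      have h3 : V.valuation (f (g.coeff 0)) ≤ V.valuation d := by
        rw [h2, map_mul, Valuation.map_neg]
        exact mul_le_of_le_one_left' ((V.valuation_le_one_iff _).mpr (hev _))
      rwa [h0] at h3


/-- two `K`-embeddings which agree at `t` agree on `K(t)` -/
theorem algHom_eq_on_adjoin_simple {K F Ω : Type*} [Field K] [Field F] [Algebra K F] [Field Ω]
    [Algebra K Ω] (σ σ' : F →ₐ[K] Ω) {t : F} (h : σ t = σ' t) {x : F} (hx : x ∈ K⟮t⟯) :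
    σ x = σ' x := by
  induction hx using IntermediateField.adjoin_induction with
  | mem x hx =>
    rw [Set.mem_singleton_iff] at hx
    rw [hx, h]
  | algebraMap x => rw [AlgHom.commutes, AlgHom.commutes]
  | add x y _ _ hx hy => rw [map_add, map_add, hx, hy]
  | inv x _ hx => rw [map_inv₀, map_inv₀, hx]
  | mul x y _ _ hx hy => rw [map_mul, map_mul, hx, hy]

/-- two `K`-embeddings which agree on a generating set are equal -/
theorem algHom_eq_of_adjoin_eq_top {K F Ω : Type*} [Field K] [Field F] [Algebra K F] [Field Ω]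
    [Algebra K Ω] (σ σ' : F →ₐ[K] Ω) {S : Set F} (hS : IntermediateField.adjoin K S = ⊤)
    (h : ∀ s ∈ S, σ s = σ' s) : σ = σ' := by
  ext x
  have hx : x ∈ IntermediateField.adjoin K S := by rw [hS]; trivial
  induction hx using IntermediateField.adjoin_induction with
  | mem x hx => exact h x hx
  | algebraMap x => rw [AlgHom.commutes, AlgHom.commutes]
  | add x y _ _ hx hy => rw [map_add, map_add, hx, hy]
  | inv x _ hx => rw [map_inv₀, map_inv₀, hx]
  | mul x y _ _ hx hy => rw [map_mul, map_mul, hx, hy]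


/-- **AK4b** (input for the modular side).  `F = K(t, c_i : i ∈ I)`; each `c_i` is a root of a monic
polynomial `P_i` with coefficients in a ring `A0` (think `A0 = R[J]`, `ι J = j ∈ K(t)`), whose
reduction along `ρ : A0 → k'` (think `k' = κ((q))` or `κ(J)`) is separable.  The compatibility
between `ρ` and the Gauss valuation of `K(t)` is expressed by `h2, h3, h4`.

Proof: let `σ ≠ σ'` agree at `t` (hence on `K(t)`, hence on `ι A0`), `V` dominating.  They differ
at some `c_i`.  `χ : A0 → V → k_V` (residue field) has the same kernel as `ρ` (`h3`, `h4`), so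
`(P_i.map χ)` is separable (`Polynomial.separable_map` through `A0 ⧸ ker`'s fraction field, or:
Bezout relation `U P + W P' = 1` over `Frac (A0 / ker ρ)`; clear denominators).
`a := σ c_i`, `a' := σ' c_i ∈ V` are two distinct roots of `P_i.map (A0 → V)`, so
`P_i = (X - a)(X - a') Q` over `V`; if `a ≡ a' mod 𝔪_V` the reduction has a square factor:
contradiction with `Separable.squarefree`.  `c_i` is `π`-integral by `PiInt.of_monic`. -/
theorem unitDiff_of_separable {R K F : Type u} [CommRing R] [IsDomain R] [Field K] [Algebra R K]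
    [IsFractionRing R K] [Field F] [Algebra K F] [Algebra R F] [IsScalarTower R K F]
    {π : R} (hπ : Prime π) (t : F)
    {A0 k' I : Type*} [CommRing A0] [Field k'] (ι : A0 →+* F) (ρ : A0 →+* k')
    (h1 : ∀ a, ι a ∈ K⟮t⟯) (h2 : ∀ a, PiInt π t (ι a))
    (h3 : ∀ a, ρ a = 0 → PiInt π t (ι a / algebraMap R F π))
    (h4 : ∀ a, ρ a ≠ 0 → PiInt π t (ι a)⁻¹)
    (P : I → A0[X]) (hP : ∀ i, (P i).Monic) (hsep : ∀ i, ((P i).map ρ).Separable)
    (c : I → F) (hc : ∀ i, (P i).eval₂ ι (c i) = 0)
    (hgen : IntermediateField.adjoin K (insert t (Set.range c)) = ⊤) : UnitDiff K π t := by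
  intro Ω _ _ V σ σ' hσt hG hne
  -- the two embeddings agree on `K(t)`
  have hag : ∀ x ∈ K⟮t⟯, σ x = σ' x := fun x hx => algHom_eq_on_adjoin_simple σ σ' hσt hx
  have hagι : ∀ a, σ (ι a) = σ' (ι a) := fun a => hag _ (h1 a)
  have hG' : GaussDom π t V (σ' : F →+* Ω) := by
    intro p
    have : (σ' : F →+* Ω) (aeval t p) = (σ : F →+* Ω) (aeval t p) := by
      have hmem : aeval t p ∈ K⟮t⟯ := by
        have : aeval t p = aeval t (p.map (algebraMap R K)) := by
          rw [aeval_map_algebraMap]
        rw [this]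
        exact IntermediateField.algebra_adjoin_le_adjoin K {t}
          (Polynomial.aeval_mem_adjoin_singleton K t)
      exact (hag _ hmem).symm
    rw [this]
    exact hG p
  -- they differ at some `c i`
  obtain ⟨i, hi⟩ : ∃ i, σ (c i) ≠ σ' (c i) := by
    by_contra hcon
    push Not at hcon
    apply hne
    refine algHom_eq_of_adjoin_eq_top σ σ' hgen ?_
    intro s hs
    rcases hs with rfl | ⟨i, rfl⟩
    · exact hσt
    · exact hcon i
  have hci : PiInt π t (c i) := by
    refine PiInt.of_monic hπ ((P i).map ι) ((hP i).map ι) ?_ ?_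
    · intro j
      rw [coeff_map]
      exact h2 _
    · rw [eval_map]
      exact hc i
  refine ⟨c i, hci, ?_⟩
  set f : A0 →+* Ω := (σ : F →+* Ω).comp ι with hf
  have hf' : f = (σ' : F →+* Ω).comp ι := by
    ext y
    exact hagι y
  set a : Ω := σ (c i) with ha
  set a' : Ω := σ' (c i) with ha'
  have hfle : ∀ y, V.valuation (f y) ≤ 1 := fun y => hG.valuation_le_one (h2 y)
  have hale : V.valuation a ≤ 1 := hG.valuation_le_one hci
  have hale' : V.valuation a' ≤ 1 := hG'.valuation_le_one hci
  have hroot : (P i).eval₂ f a = 0 := by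
    have := Polynomial.hom_eval₂ (P i) ι (σ : F →+* Ω) (c i)
    rw [hc i, map_zero] at this
    exact this.symm
  have hroot' : (P i).eval₂ f a' = 0 := by
    have := Polynomial.hom_eval₂ (P i) ι (σ' : F →+* Ω) (c i)
    rw [hc i, map_zero, ← hf'] at this
    exact this.symm
  have hd0 : a - a' ≠ 0 := sub_ne_zero.mpr hi
  have hdle : V.valuation (a - a') ≤ 1 :=
    (V.valuation_le_one_iff _).mpr
      (sub_mem ((V.valuation_le_one_iff _).mp hale) ((V.valuation_le_one_iff _).mp hale'))
  have hπ0 : algebraMap R F π ≠ 0 := by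
    rw [IsScalarTower.algebraMap_apply R K F]
    intro h0
    have h5 := (map_eq_zero (algebraMap K F)).mp h0
    exact hπ.ne_zero ((IsFractionRing.injective R K) (by rw [h5, map_zero]))
  have k3 : ∀ y, ρ y = 0 → V.valuation (f y) < 1 := by
    intro y hy
    have e : f y = (σ : F →+* Ω) (ι y / algebraMap R F π) * (σ : F →+* Ω) (algebraMap R F π) := by
      rw [← map_mul, div_mul_cancel₀ _ hπ0]
      rfl
    rw [e, map_mul]
    exact Right.mul_lt_one_of_le_of_lt (hG.valuation_le_one (h3 y hy)) hG.valuation_pi_lt_one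
  have k4 : ∀ y, ρ y ≠ 0 → ι y = 0 ∨ V.valuation (f y) = 1 := by
    intro y hy
    by_cases h0 : ι y = 0
    · exact Or.inl h0
    · right
      have h5 : V.valuation ((σ : F →+* Ω) (ι y)⁻¹) ≤ 1 := hG.valuation_le_one (h4 y hy)
      rw [map_inv₀, map_inv₀] at h5
      refine le_antisymm (hfle y) ?_
      have h6 : V.valuation (f y) ≠ 0 := by
        rw [Valuation.ne_zero_iff]
        exact (map_ne_zero (σ : F →+* Ω)).mpr h0
      exact (inv_le_one₀ (zero_lt_iff.mpr h6)).mp h5
  refine le_antisymm hdle ?_
  by_cases hcase : ∀ y, ι y = 0 → ρ y = 0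
  · -- Case A
    by_contra hlt
    rw [not_le] at hlt
    let φV : A0 →+* V := f.codRestrict V (fun y => (V.valuation_le_one_iff _).mp (hfle y))
    have hφV : V.subtype.comp φV = f := by
      ext y
      rfl
    let χ : A0 →+* IsLocalRing.ResidueField V := (IsLocalRing.residue V).comp φV
    have hχ : ∀ y, χ y = 0 ↔ V.valuation (f y) < 1 := by
      intro y
      show IsLocalRing.residue V (φV y) = 0 ↔ _
      rw [IsLocalRing.residue_eq_zero_iff, ValuationSubring.valuation_lt_one_iff]
      rfl
    have hker : ∀ y, ρ y = 0 ↔ χ y = 0 := by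
      intro y
      rw [hχ]
      refine ⟨k3 y, fun hy => ?_⟩
      by_contra hρ
      rcases k4 y hρ with h | h
      · exact hρ (hcase y h)
      · rw [h] at hy
        exact lt_irrefl _ hy
    have hsepχ : (((P i).map φV).map (IsLocalRing.residue V)).Separable := by
      rw [Polynomial.map_map]
      exact separable_map_of_ker_eq ρ χ hker (P i) (hsep i)
    have hev : ∀ x : V, (P i).eval₂ f (x : Ω) = 0 → ((P i).map φV).eval x = 0 := by
      intro x hx
      rw [eval_map]
      apply Subtype.ext
      have := Polynomial.hom_eval₂ (P i) φV V.subtype x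
      rw [hφV] at this
      exact this.trans hx
    refine not_separable_of_congruent_roots ((P i).map φV)
      (a := ⟨a, (V.valuation_le_one_iff _).mp hale⟩)
      (a' := ⟨a', (V.valuation_le_one_iff _).mp hale'⟩) (hev _ hroot) (hev _ hroot') ?_ ?_ hsepχ
    · intro h
      exact hi (congrArg Subtype.val h)
    · rw [ValuationSubring.valuation_lt_one_iff]
      exact hlt
  · -- Case B
    push Not at hcase
    obtain ⟨a₀, ha₀, hρa₀⟩ := hcase
    have hfu : ∀ y, f y = 0 ∨ V.valuation (f y) = 1 := by
      intro y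
      have key : ∀ z, ρ z ≠ 0 → f z = 0 ∨ V.valuation (f z) = 1 := by
        intro z hz
        rcases k4 z hz with h | h
        · left
          show (σ : F →+* Ω) (ι z) = 0
          rw [h, map_zero]
        · exact Or.inr h
      by_cases hy : ρ y = 0
      · have h5 : f (y + a₀) = f y := by
          show (σ : F →+* Ω) (ι (y + a₀)) = (σ : F →+* Ω) (ι y)
          rw [map_add, ha₀, add_zero]
        rw [← h5]
        apply key
        rw [map_add, hy, zero_add]
        exact hρa₀
      · exact key y hy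
    have hint : f.IsIntegralElem (a - a') :=
      RingHom.IsIntegralElem.sub f ⟨P i, hP i, hroot⟩ ⟨P i, hP i, hroot'⟩
    obtain ⟨g, hg, hg0⟩ := hint
    exact one_le_valuation_of_eval₂_eq_zero V f hfu hd0 hdle g.natDegree g le_rfl
      ((hg.map f).ne_zero) hg0


/-- a nontrivial `m`-th root of unity is not congruent to `1` when `m` is a unit -/
theorem valuation_one_sub_eq_one_of_pow_eq_one {Ω : Type*} [Field Ω] (V : ValuationSubring Ω)
    {m : ℕ} (hm : V.valuation (m : Ω) = 1) {ω : Ω} (hω : ω ^ m = 1) (hne : ω ≠ 1) :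
    V.valuation (1 - ω) = 1 := by
  have hm0 : m ≠ 0 := by
    rintro rfl
    rw [Nat.cast_zero, map_zero] at hm
    exact zero_ne_one hm
  have hv : V.valuation ω = 1 := by
    have : V.valuation ω ^ m = 1 := by rw [← map_pow, hω, map_one]
    exact (pow_eq_one_iff.mp this).resolve_right hm0
  have hle : V.valuation (1 - ω) ≤ 1 := by
    refine (Valuation.map_sub_le (v := V.valuation) (x := 1) (y := ω) (g := 1) ?_ ?_)
    · rw [map_one]
    · rw [hv]
  refine le_antisymm hle ?_
  by_contra hlt
  rw [not_le] at hlt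
  have hsum : ∑ i ∈ Finset.range m, ω ^ i = 0 := by
    have h1 := mul_geom_sum ω m
    rw [hω, sub_self] at h1
    exact (mul_eq_zero.mp h1).resolve_left (sub_ne_zero.mpr hne)
  have hmsum : (m : Ω) = ∑ i ∈ Finset.range m, (1 - ω ^ i) := by
    rw [Finset.sum_sub_distrib, hsum, sub_zero, Finset.sum_const, Finset.card_range, nsmul_eq_mul,
      mul_one]
  have hlt' : V.valuation (m : Ω) < 1 := by
    rw [hmsum]
    refine Valuation.map_sum_lt _ one_ne_zero ?_
    intro i _
    have h2 : 1 - ω ^ i = (1 - ω) * ∑ j ∈ Finset.range i, ω ^ j := by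
      have := mul_geom_sum ω i
      linear_combination this
    rw [h2, map_mul]
    refine Left.mul_lt_one_of_lt_of_le hlt ?_
    refine Valuation.map_sum_le _ ?_
    intro j _
    rw [map_pow, hv, one_pow]
  rw [hm] at hlt'
  exact lt_irrefl _ hlt'

section Root

variable {R K E L1 : Type u} [CommRing R] [IsDomain R] [Field K] [Algebra R K]
  [IsFractionRing R K] [Field E] [Algebra K E] [Algebra R E] [IsScalarTower R K E]
  [Field L1] [Algebra E L1] [Algebra K L1] [Algebra R L1] [IsScalarTower K E L1]
  [IsScalarTower R E L1] [IsScalarTower R K L1]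

/-- two `K`-embeddings of `L1 = E(u)` with the same restriction to `E` and the same value at `u` are
equal -/
theorem algHom_eq_of_restrict_eq {K E L1 Ω : Type*} [Field K] [Field E] [Algebra K E]
    [Field L1] [Algebra E L1] [Algebra K L1] [IsScalarTower K E L1] [Field Ω] [Algebra K Ω]
    (σ σ' : L1 →ₐ[K] Ω) {u : L1} (hgen : IntermediateField.adjoin E {u} = ⊤)
    (hE : ∀ x : E, σ (algebraMap E L1 x) = σ' (algebraMap E L1 x)) (hu : σ u = σ' u) : σ = σ' := by
  ext x
  have hx : x ∈ IntermediateField.adjoin E {u} := by rw [hgen]; trivial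
  induction hx using IntermediateField.adjoin_induction with
  | mem x hx =>
    rw [Set.mem_singleton_iff] at hx
    rw [hx, hu]
  | algebraMap x => exact hE x
  | add x y _ _ hx hy => rw [map_add, map_add, hx, hy]
  | inv x _ hx => rw [map_inv₀, map_inv₀, hx]
  | mul x y _ _ hx hy => rw [map_mul, map_mul, hx, hy]

/-- **AK4d.** `UnitDiff` passes from `(E, T)` to `(L1 = E(u), u)`, `u ^ M = T - b0`.
(Two embeddings of `L1` which agree at `u` and are distinct have distinct restrictions to `E`,
which agree at `T`; `GaussDom.comp_root`, `PiInt.map_root`.) -/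
theorem UnitDiff.root {π : R} (hπ : Prime π) {T : E} (h : UnitDiff K π T) {b0 : R} {M : ℕ}
    (hM : 0 < M) {u : L1} (hu : u ^ M = algebraMap E L1 (T - algebraMap R E b0))
    (hgen : IntermediateField.adjoin E {u} = ⊤) : UnitDiff K π u := by
  intro Ω _ _ V σ σ' hσu hG hne
  let τ : E →ₐ[K] Ω := σ.comp (IsScalarTower.toAlgHom K E L1)
  let τ' : E →ₐ[K] Ω := σ'.comp (IsScalarTower.toAlgHom K E L1)
  have hT : algebraMap E L1 T = u ^ M + algebraMap K L1 (algebraMap R K b0) := by
    rw [hu, map_sub, ← IsScalarTower.algebraMap_apply R E L1, ← IsScalarTower.algebraMap_apply R K L1]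
    ring
  have hτT : τ T = τ' T := by
    show σ (algebraMap E L1 T) = σ' (algebraMap E L1 T)
    rw [hT, map_add, map_add, map_pow, map_pow, hσu, AlgHom.commutes, AlgHom.commutes]
  have hGτ : GaussDom π T V (τ : E →+* Ω) := GaussDom.comp_root hπ hM hu hG
  have hneτ : τ ≠ τ' := by
    intro heq
    apply hne
    exact algHom_eq_of_restrict_eq σ σ' hgen (fun x => DFunLike.congr_fun heq x) hσu
  obtain ⟨c, hc, hv⟩ := h Ω V τ τ' hτT hGτ hneτ
  exact ⟨algebraMap E L1 c, PiInt.map_root hπ hM hu hc, hv⟩

/-- **AK4c** (only needed for the direct route through `E = F(y)`).  `L1 = E(y)`, `y ^ m = f`,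
`(f - 1) / π` `π`-integral, `m` a unit of `R`, `ζ ∈ R` a primitive `m`-th root of unity. -/
theorem UnitDiff.kummer {π : R} (hπ : Prime π) {T : E} (h : UnitDiff K π T) {m : ℕ}
    (hm : IsUnit (m : R)) (ζ : R) (hζ : IsPrimitiveRoot ζ m) {f : E} {y : L1}
    (hy : y ^ m = algebraMap E L1 f) (hf : PiInt π T ((f - 1) / algebraMap R E π))
    (hgen : IntermediateField.adjoin E {y} = ⊤) : UnitDiff K π (algebraMap E L1 T) := by
  intro Ω _ _ V σ σ' hσT hG hne
  have hu : (algebraMap E L1 T) ^ 1 = algebraMap E L1 (T - algebraMap R E 0) := by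
    rw [pow_one, map_zero, sub_zero]
  let τ : E →ₐ[K] Ω := σ.comp (IsScalarTower.toAlgHom K E L1)
  let τ' : E →ₐ[K] Ω := σ'.comp (IsScalarTower.toAlgHom K E L1)
  have hτT : τ T = τ' T := hσT
  have hGτ : GaussDom π T V (τ : E →+* Ω) := GaussDom.comp_root hπ one_pos hu hG
  by_cases hneτ : τ = τ'
  · -- the embeddings differ at `y`
    have hyne : σ y ≠ σ' y := by
      intro hyy
      exact hne (algHom_eq_of_restrict_eq σ σ' hgen (fun x => DFunLike.congr_fun hneτ x) hyy)
    have hm0 : 0 < m := by
      rcases Nat.eq_zero_or_pos m with h0 | h0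
      · rw [h0, Nat.cast_zero] at hm
        exact absurd hm not_isUnit_zero
      · exact h0
    have hπ0 : algebraMap R E π ≠ 0 := by
      rw [IsScalarTower.algebraMap_apply R K E]
      intro h0
      have h5 := (map_eq_zero (algebraMap K E)).mp h0
      exact hπ.ne_zero ((IsFractionRing.injective R K) (by rw [h5, map_zero]))
    -- `f ≡ 1`
    have hfe : f = 1 + (f - 1) / algebraMap R E π * algebraMap R E π := by
      rw [div_mul_cancel₀ _ hπ0]; ring
    have hfint : PiInt π T f := by
      rw [hfe]
      refine PiInt.add hπ (PiInt.of_isIntegral hπ isIntegral_one) (PiInt.mul hπ hf ?_)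
      refine PiInt.of_isIntegral hπ ?_
      rw [IsScalarTower.algebraMap_apply R (Algebra.adjoin R {T}) E]
      exact isIntegral_algebraMap
    have hyint : PiInt π (algebraMap E L1 T) y := by
      refine PiInt.of_pow hm0 ?_
      rw [hy]
      exact PiInt.map_root hπ one_pos hu hfint
    refine ⟨y, hyint, ?_⟩
    have hvf : V.valuation (τ f) = 1 := by
      have e : τ f = 1 + (τ : E →+* Ω) ((f - 1) / algebraMap R E π) *
          (τ : E →+* Ω) (algebraMap R E π) := by
        rw [← map_mul, div_mul_cancel₀ _ hπ0]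
        simp
      rw [e]
      apply Valuation.map_one_add_of_lt
      rw [map_mul]
      exact Right.mul_lt_one_of_le_of_lt (hGτ.valuation_le_one hf) hGτ.valuation_pi_lt_one
    have hpa : σ y ^ m = τ f := by
      rw [← map_pow, hy]; rfl
    have hpa' : σ' y ^ m = τ f := by
      rw [← map_pow, hy, hneτ]; rfl
    have hva : V.valuation (σ y) = 1 := by
      have : V.valuation (σ y) ^ m = 1 := by rw [← map_pow, hpa, hvf]
      exact (pow_eq_one_iff.mp this).resolve_right hm0.ne'
    have ha0 : σ y ≠ 0 := by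
      intro h0
      rw [h0, map_zero] at hva
      exact zero_ne_one hva
    have hvm : V.valuation ((m : ℕ) : Ω) = 1 := by
      obtain ⟨h1, h2⟩ := hGτ (C (m : R))
      have e : (τ : E →+* Ω) (aeval T (C (m : R))) = (m : Ω) := by
        rw [aeval_C, map_natCast, map_natCast]
      rw [e] at h1 h2
      refine le_antisymm h1 (not_lt.mp fun hlt => ?_)
      have h3 := h2.mp hlt
      rw [Polynomial.C_dvd_iff_dvd_coeff] at h3
      have h4 := h3 0
      rw [coeff_C_zero] at h4
      exact hπ.not_isUnit (isUnit_of_dvd_unit h4 hm)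
    have hω : (σ' y / σ y) ^ m = 1 := by
      rw [div_pow, hpa, hpa']
      refine div_self ?_
      intro h0
      rw [h0, map_zero] at hvf
      exact zero_ne_one hvf
    have hω1 : σ' y / σ y ≠ 1 := by
      intro h1
      rw [div_eq_one_iff_eq ha0] at h1
      exact hyne h1.symm
    have key := valuation_one_sub_eq_one_of_pow_eq_one V hvm hω hω1
    have e2 : σ y - σ' y = σ y * (1 - σ' y / σ y) := by
      field_simp
    rw [e2, map_mul, hva, key, one_mul]
  · obtain ⟨c, hc, hv⟩ := h Ω V τ τ' hτT hGτ hneτ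
    exact ⟨algebraMap E L1 c, PiInt.map_root hπ one_pos hu hc, hv⟩

end Root

end Fermat.Agent.ESlib
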