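import Mathlib
import Fermat.Agent.ES.C.AKDefs
import Fermat.Agent.ES.C.AK8Glob
import Fermat.Agent.ES.C.AKGauss

/-!
# ES, AK7: root extraction and trace descent
-/

set_option autoImplicit false

namespace Fermat.Agent.ESlib

open Polynomial

/-- **AK7b.** Kummer degree: if `E` contains a primitive `M`-th root of unity, `u ^ M ∈ E`,
`L1 = E(u)`, then `[L1 : E] ∣ M`.
(`L1 / E` is Galois and `σ ↦ σ u / u` embeds the Galois group in `μ_M(E)`.) -/
theorem finrank_dvd_of_pow_mem {E L1 : Type*} [Field E] [Field L1] [Algebra E L1] {M : ℕ}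
    (hM : 0 < M) (ζ : E) (hζ : IsPrimitiveRoot ζ M) (u : L1) (s : E) (hs : s ≠ 0)
    (hu : u ^ M = algebraMap E L1 s) (hgen : IntermediateField.adjoin E {u} = ⊤) :
    Module.finrank E L1 ∣ M := by
  have : NeZero M := ⟨hM.ne'⟩
  have hu0 : u ≠ 0 := by
    rintro rfl
    rw [zero_pow hM.ne'] at hu
    exact hs ((map_eq_zero _).mp hu.symm)
  have hζ' : IsPrimitiveRoot (algebraMap E L1 ζ) M :=
    hζ.map_of_injective (algebraMap E L1).injective
  have hME : (M : E) ≠ 0 := (hζ.neZero').out
  have hsep : (X ^ M - C s : E[X]).Separable := separable_X_pow_sub_C s hME hs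
  have hsplit : ((X ^ M - C s : E[X]).map (algebraMap E L1)).Splits := by
    have := X_pow_sub_C_splits_of_isPrimitiveRoot hζ' hu
    simpa using this
  have hroot : u ∈ (X ^ M - C s : E[X]).rootSet L1 := by
    rw [mem_rootSet]
    refine ⟨hsep.ne_zero, ?_⟩
    simp [hu]
  have hint : IsIntegral E u := ⟨X ^ M - C s, monic_X_pow_sub_C s hM.ne', by simp [hu]⟩
  have hgen' : Algebra.adjoin E {u} = ⊤ := by
    have := IntermediateField.adjoin_simple_toSubalgebra_of_isAlgebraic hint.isAlgebraic
    rw [hgen] at this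
    simpa using this.symm
  have : IsSplittingField E L1 (X ^ M - C s) := by
    refine ⟨hsplit, ?_⟩
    rw [eq_top_iff, ← hgen']
    exact Algebra.adjoin_mono (Set.singleton_subset_iff.mpr hroot)
  have : FiniteDimensional E L1 := IsSplittingField.finiteDimensional L1 (X ^ M - C s)
  have : IsGalois E L1 := IsGalois.of_separable_splitting_field hsep
  rw [← IsGalois.card_aut_eq_finrank]
  have key : ∀ σ : L1 ≃ₐ[E] L1, ∃ η : rootsOfUnity M E,
      σ u = algebraMap E L1 ((η : Eˣ) : E) * u := by
    intro σ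
    have h1 : (σ u / u) ^ M = 1 := by
      rw [div_pow, ← map_pow, hu, AlgEquiv.commutes, div_self]
      rw [← hu]; exact pow_ne_zero _ hu0
    obtain ⟨i, -, hi⟩ := hζ'.eq_pow_of_pow_eq_one h1
    refine ⟨⟨(hζ.isUnit hM.ne').unit ^ i, ?_⟩, ?_⟩
    · rw [mem_rootsOfUnity]
      ext
      simp only [Units.val_pow_eq_pow_val, IsUnit.unit_spec, Units.val_one]
      rw [← pow_mul, mul_comm, pow_mul, hζ.pow_eq_one, one_pow]
    · simp only [Units.val_pow_eq_pow_val, IsUnit.unit_spec, map_pow]
      rw [hi, div_mul_cancel₀ _ hu0]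
  choose η hη using key
  have hinj' : ∀ a b : rootsOfUnity M E, algebraMap E L1 ((a : Eˣ) : E) * u =
      algebraMap E L1 ((b : Eˣ) : E) * u → a = b := by
    intro a b h
    have := mul_right_cancel₀ hu0 h
    exact Subtype.ext (Units.ext ((algebraMap E L1).injective this))
  let φ : (L1 ≃ₐ[E] L1) →* rootsOfUnity M E :=
    { toFun := η
      map_one' := by
        apply hinj'
        rw [← hη]; simp
      map_mul' := by
        intro σ τ
        apply hinj'
        rw [← hη, AlgEquiv.mul_apply, hη τ, map_mul, AlgEquiv.commutes, hη σ]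
        simp only [Subgroup.coe_mul, Units.val_mul, map_mul]
        ring }
  have hinj : Function.Injective φ := by
    intro σ τ h
    have h2 : σ u = τ u := by
      rw [hη, hη]
      have : η σ = η τ := h
      rw [this]
    have h3 : (σ : L1 →ₐ[E] L1) = (τ : L1 →ₐ[E] L1) := by
      apply AlgHom.ext_of_adjoin_eq_top hgen'
      intro x hx
      rw [Set.mem_singleton_iff] at hx
      subst hx
      exact h2
    ext x
    exact DFunLike.congr_fun h3 x
  have := Subgroup.card_dvd_of_injective φ hinj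
  rwa [hζ.card_rootsOfUnity] at this

variable {R K E L1 : Type*} [CommRing R] [IsDomain R] [IsDiscreteValuationRing R] [Field K]
  [Algebra R K] [IsFractionRing R K] [CharZero K] [Field E] [Algebra K E] [Algebra R E]
  [IsScalarTower R K E] [Field L1] [Algebra E L1] [Algebra K L1] [Algebra R L1]
  [IsScalarTower K E L1] [IsScalarTower R E L1] [IsScalarTower R K L1]

/-- **AK7a** (trace): `locIdeal(u) ∩ R[T] ⊆ locIdeal(T)`.
Apply `(1/d) Tr_{L1/E}`, `d = [L1 : E]` a unit of `R` (AK7b); `Tr` of an element integral over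
`R[u]` (hence over `R[T]`, `isIntegral_of_isIntegral_root`) is integral over `R[T]`
(`Algebra.isIntegral_trace`). -/
theorem locAt_of_locAt_root {π : R} (T : E) (b0 : R) {M : ℕ}
    (hM : IsUnit (M : R)) (ζ : K) (hζ : IsPrimitiveRoot ζ M) (hT : Transcendental K T)
    (u : L1) (hu : u ^ M = algebraMap E L1 (T - algebraMap R E b0))
    (hgen : IntermediateField.adjoin E {u} = ⊤) (ε : E) (r a : R[X])
    (h : LocAt π u (algebraMap E L1 ε) (r.comp (X ^ M + C b0)) (a.comp (X ^ M + C b0))) :
    LocAt π T ε r a := by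
  have hM0 : 0 < M := by
    rcases Nat.eq_zero_or_pos M with rfl | h0
    · simp at hM
    · exact h0
  have hs : T - algebraMap R E b0 ≠ 0 := by
    intro h0
    apply hT
    rw [sub_eq_zero] at h0
    rw [h0, IsScalarTower.algebraMap_apply R K E]
    exact isAlgebraic_algebraMap _
  have hζE : IsPrimitiveRoot (algebraMap K E ζ) M :=
    hζ.map_of_injective (algebraMap K E).injective
  obtain ⟨c, hc⟩ := finrank_dvd_of_pow_mem hM0 _ hζE u _ hs hu hgen
  have hint : IsIntegral E u :=
    ⟨X ^ M - C (T - algebraMap R E b0), monic_X_pow_sub_C _ hM0.ne', by simp [hu]⟩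
  have hfin : FiniteDimensional E L1 := by
    have := IntermediateField.adjoin.finiteDimensional hint
    rw [hgen] at this
    exact (IntermediateField.topEquiv (F := E) (E := L1)).toLinearEquiv.finiteDimensional
  -- the inverse of the degree
  obtain ⟨d', hd'⟩ : ∃ d' : R, (Module.finrank E L1 : R) * d' = 1 := by
    obtain ⟨v, hv⟩ := hM.exists_right_inv
    refine ⟨c * v, ?_⟩
    rw [← mul_assoc, ← Nat.cast_mul, ← hc, hv]
  obtain ⟨e, z, he, hz, hez⟩ := h
  rw [aeval_comp_root hu, aeval_comp_root hu] at hez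
  have he' : IsIntegral (Algebra.adjoin R {T}) (Algebra.trace E L1 e) :=
    Algebra.isIntegral_trace (isIntegral_of_isIntegral_root hM0 hu he)
  have hz' : IsIntegral (Algebra.adjoin R {T}) (Algebra.trace E L1 z) :=
    Algebra.isIntegral_trace (isIntegral_of_isIntegral_root hM0 hu hz)
  have hdint : IsIntegral (Algebra.adjoin R {T}) (algebraMap R E d') := by
    have := isIntegral_aeval_adjoin T (C d')
    rwa [aeval_C] at this
  refine ⟨algebraMap R E d' * Algebra.trace E L1 e, algebraMap R E d' * Algebra.trace E L1 z,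
    hdint.mul he', hdint.mul hz', ?_⟩
  have htr := congrArg (Algebra.trace E L1) hez
  rw [← map_mul, mul_sub, ← map_mul, map_sub, Algebra.trace_algebraMap,
    IsScalarTower.algebraMap_apply R E L1, ← Algebra.smul_def, ← Algebra.smul_def, map_smul,
    map_smul, smul_eq_mul, smul_eq_mul, nsmul_eq_mul] at htr
  have hd'E : (Module.finrank E L1 : E) * algebraMap R E d' = 1 := by
    have := congrArg (algebraMap R E) hd'
    simpa using this
  calc aeval T r * (algebraMap R E d' * Algebra.trace E L1 e - aeval T a * ε)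
      = algebraMap R E d' * (aeval T r * Algebra.trace E L1 e
          - (Module.finrank E L1 : E) * (aeval T r * (aeval T a * ε)))
          + (aeval T r * (aeval T a * ε)) * ((Module.finrank E L1 : E) * algebraMap R E d' - 1) := by
        ring
    _ = algebraMap R E π * (algebraMap R E d' * Algebra.trace E L1 z) := by
        rw [htr, hd'E]; ring

/-- `a ↦ a.comp (X ^ M + C b0)` is an integral ring homomorphism. -/
theorem isIntegral_compRingHom_root {A : Type*} [CommRing A] (b0 : A) {M : ℕ} (hM : 0 < M) :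
    (compRingHom (X ^ M + C b0 : A[X])).IsIntegral := by
  intro p
  have hC : ∀ c : A, (compRingHom (X ^ M + C b0 : A[X])).IsIntegralElem (C c) := by
    intro c
    have := (compRingHom (X ^ M + C b0 : A[X])).isIntegralElem_map (x := C c)
    simpa using this
  have hX : (compRingHom (X ^ M + C b0 : A[X])).IsIntegralElem X := by
    refine ⟨X ^ M - C (X - C b0), monic_X_pow_sub_C _ hM.ne', ?_⟩
    simp
  induction p using Polynomial.induction_on' with
  | add p q hp hq => exact hp.add _ hq
  | monomial n c =>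
    rw [← C_mul_X_pow_eq_monomial]
    refine (hC c).mul _ ?_
    induction n with
    | zero => rw [pow_zero]; exact RingHom.isIntegralElem_one _
    | succ n ih => rw [pow_succ]; exact ih.mul _ hX

/-- `(π, X - b0)` is the preimage of `(π)` under evaluation at `b0`. -/
theorem span_C_X_sub_C_eq_comap {A : Type*} [CommRing A] (π b0 : A) :
    (Ideal.span {C π, X - C b0} : Ideal A[X]) = (Ideal.span {π}).comap (evalRingHom b0) := by
  apply le_antisymm
  · rw [Ideal.span_le]
    rintro x (rfl | rfl)
    · simp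
    · simp
  · intro p hp
    rw [Ideal.mem_comap, Ideal.mem_span_singleton, coe_evalRingHom] at hp
    obtain ⟨c, hc⟩ := hp
    have h1 : p = (X - C b0) * (p /ₘ (X - C b0)) + C π * C c := by
      rw [← C_mul, ← hc, ← modByMonic_X_sub_C_eq_C_eval, add_comm]
      exact (modByMonic_add_div p (X - C b0)).symm
    rw [h1]
    exact add_mem (Ideal.mul_mem_right _ _ (Ideal.subset_span (by simp)))
      (Ideal.mul_mem_right _ _ (Ideal.subset_span (by simp)))

/-- **AK7.**  (Loc) at `(π, u)` for `(R[u], L1)` implies (Loc) at `(π, T - b0)` for `(R[T], E)`.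
Proof: `ψ : R[X] → R[X], a ↦ a.comp (X ^ M + C b0)` is an integral ring hom; by AK7a
`(locIdeal π u ε₁ r₁).comap ψ ≤ locIdeal π T ε r`.  If `locIdeal π T ε r ≤ (π, X - b0) =: 𝔪` then
`Ideal.exists_ideal_over_prime_of_isIntegral` (algebra structure `ψ.toAlgebra`) gives a prime
`Q ≥ locIdeal π u ε₁ r₁` with `Q.comap ψ = 𝔪`; `Q ∋ ψ (C π) = C π`, `ψ (X - C b0) = X ^ M`, so
`Q ⊇ (π, X)`, which is maximal, so `Q = (π, X) ∌ a`.  Contradiction. -/
theorem locAt_descent {π : R} (hπ : Irreducible π) (T : E) (b0 : R) {M : ℕ}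
    (hM : IsUnit (M : R)) (ζ : K) (hζ : IsPrimitiveRoot ζ M) (hT : Transcendental K T)
    (u : L1) (hu : u ^ M = algebraMap E L1 (T - algebraMap R E b0))
    (hgen : IntermediateField.adjoin E {u} = ⊤) (ε : E) (r : R[X])
    (h : ∃ a : R[X], a ∉ Ideal.span {C π, X} ∧
      LocAt π u (algebraMap E L1 ε) (r.comp (X ^ M + C b0)) a) :
    ∃ a : R[X], a ∉ Ideal.span {C π, X - C b0} ∧ LocAt π T ε r a := by
  have hM0 : 0 < M := by
    rcases Nat.eq_zero_or_pos M with rfl | h0
    · simp at hM
    · exact h0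
  obtain ⟨a, ha, hloc⟩ := h
  by_contra hcon
  push Not at hcon
  set ψ : R[X] →+* R[X] := compRingHom (X ^ M + C b0 : R[X]) with hψ
  set I : Ideal R[X] := locIdeal π u (algebraMap E L1 ε) (r.comp (X ^ M + C b0)) with hI
  set 𝔪 : Ideal R[X] := Ideal.span {C π, X - C b0} with h𝔪
  have hprime : 𝔪.IsPrime := by
    rw [h𝔪, span_C_X_sub_C_eq_comap]
    have : (Ideal.span {π} : Ideal R).IsPrime :=
      (Ideal.span_singleton_prime hπ.ne_zero).mpr hπ.prime
    exact Ideal.comap_isPrime _ _
  have hle : I.comap ψ ≤ 𝔪 := by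
    intro p hp
    by_contra hp'
    exact hcon p hp' (locAt_of_locAt_root T b0 hM ζ hζ hT u hu hgen ε r p hp)
  let _ : Algebra R[X] R[X] := ψ.toAlgebra
  have hint : Algebra.IsIntegral R[X] R[X] := ⟨isIntegral_compRingHom_root b0 hM0⟩
  obtain ⟨Q, hQI, hQp, hQ⟩ := Ideal.exists_ideal_over_prime_of_isIntegral 𝔪 I hle
  have hmem : ∀ p ∈ 𝔪, ψ p ∈ Q := by
    intro p hp
    rw [← hQ] at hp
    exact hp
  have h1 : C π ∈ Q := by
    have := hmem (C π) (Ideal.subset_span (by simp))
    simpa [hψ] using this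
  have h2 : X ∈ Q := by
    have := hmem (X - C b0) (Ideal.subset_span (by simp))
    have h3 : (X : R[X]) ^ M ∈ Q := by simpa [hψ] using this
    exact hQp.mem_of_pow_mem _ h3
  have h3 : a ∈ Q := hQI hloc
  have h4 : ¬ π ∣ a.coeff 0 := by
    rintro ⟨c, hc⟩
    apply ha
    rw [← divX_mul_X_add a, hc, C_mul]
    exact add_mem (Ideal.mul_mem_left _ _ (Ideal.subset_span (by simp)))
      (Ideal.mul_mem_right _ _ (Ideal.subset_span (by simp)))
  have h5 : IsUnit (a.coeff 0) := by
    by_contra hnu
    have : a.coeff 0 ∈ IsLocalRing.maximalIdeal R := hnu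
    rw [hπ.maximalIdeal_eq, Ideal.mem_span_singleton] at this
    exact h4 this
  have h6 : C (a.coeff 0) ∈ Q := by
    have : C (a.coeff 0) = a - divX a * X := by
      have := divX_mul_X_add a
      linear_combination this
    rw [this]
    exact sub_mem h3 (Ideal.mul_mem_left _ _ h2)
  exact hQp.ne_top (Ideal.eq_top_of_isUnit_mem _ h6 (h5.map C))

end Fermat.Agent.ESlib
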