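import Mathlib

/-!
# ES: Laurent series of positive order are power series
-/

set_option autoImplicit false

namespace Fermat.Agent.ESlib

/-- **AK10c.** a Laurent series `w` with `ord (w - b) = M ≥ 1` is a power series. -/
theorem exists_powerSeries_of_order_sub {Ch : Type*} [Field Ch] {w : LaurentSeries Ch} {b : Ch}
    {M : ℕ} (hM : 0 < M) (hw : (w - HahnSeries.C b).order = (M : ℤ)) :
    ∃ w' : PowerSeries Ch, (w' : LaurentSeries Ch) = w ∧ (w' - PowerSeries.C b).order = M := by
  set d := w - HahnSeries.C b with hd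
  have hd0 : d ≠ 0 := by
    intro h
    rw [h, HahnSeries.order_zero] at hw
    omega
  have hdec := LaurentSeries.single_order_mul_powerSeriesPart d
  rw [hw] at hdec
  have hc0 : PowerSeries.constantCoeff d.powerSeriesPart ≠ 0 := by
    rw [← PowerSeries.coeff_zero_eq_constantCoeff_apply, LaurentSeries.powerSeriesPart_coeff]
    simpa using (HahnSeries.coeff_order_eq_zero (x := d)).not.mpr hd0
  refine ⟨PowerSeries.C b + PowerSeries.X ^ M * d.powerSeriesPart, ?_, ?_⟩
  · have h1 : ((PowerSeries.X ^ M * d.powerSeriesPart : PowerSeries Ch) : LaurentSeries Ch) = d := by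
      conv_rhs => rw [← hdec]
      rw [← HahnSeries.ofPowerSeries_X_pow]
      exact map_mul (HahnSeries.ofPowerSeries ℤ Ch) _ _
    have h2 : ((PowerSeries.C b + PowerSeries.X ^ M * d.powerSeriesPart : PowerSeries Ch) :
        LaurentSeries Ch) = HahnSeries.C b + d := by
      conv_rhs => rw [← h1, ← HahnSeries.ofPowerSeries_C]
      exact map_add (HahnSeries.ofPowerSeries ℤ Ch) _ _
    rw [h2, hd]
    ring
  · rw [add_sub_cancel_left, PowerSeries.order_mul, PowerSeries.order_X_pow,
      PowerSeries.order_zero_of_unit ((PowerSeries.isUnit_iff_constantCoeff).2 hc0.isUnit), add_zero]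

end Fermat.Agent.ESlib
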