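import Mathlib
import Fermat.Agent.ES.C.AKDefs
import Fermat.Agent.ES.C.AKGauss
import Fermat.Agent.ES.C.AK8Glob
import Fermat.Agent.ES.C.AK7Desc
import Fermat.Agent.ES.C.AK11Ext
import Fermat.Agent.ES.C.AK4Sep
import Fermat.Agent.ES.C.AKWrap
import Fermat.Agent.ES.C.PSRoot
import Fermat.Agent.ES.C.PSOrder

/-!
# ES, AK-CHART: (Loc) on a whole chart `Spec R[T]`
-/

set_option autoImplicit false
set_option linter.unusedSectionVars false

namespace Fermat.Agent.ESlib

open Polynomial IntermediateField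

universe u

theorem isMaximal_span_C_X_sub_C {R : Type*} [CommRing R] [IsDomain R]
    [IsDiscreteValuationRing R] {π : R} (hπ : Irreducible π) (b0 : R) :
    (Ideal.span {C π, X - C b0} : Ideal R[X]).IsMaximal := by
  let f : R[X] →+* IsLocalRing.ResidueField R := (IsLocalRing.residue R).comp (evalRingHom b0)
  have hf : Function.Surjective f := by
    intro c
    obtain ⟨a, rfl⟩ := IsLocalRing.residue_surjective c
    exact ⟨C a, by simp [f]⟩
  have hker : RingHom.ker f = Ideal.span {C π, X - C b0} := by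
    apply le_antisymm
    · intro p hp
      have h1 : p.eval b0 ∈ IsLocalRing.maximalIdeal R := by
        rw [← IsLocalRing.residue_eq_zero_iff]
        exact hp
      rw [hπ.maximalIdeal_eq, Ideal.mem_span_singleton] at h1
      obtain ⟨c, hc⟩ := h1
      have h2 : p = (X - C b0) * (p /ₘ (X - C b0)) + C π * C c := by
        rw [← C_mul, ← hc, ← modByMonic_X_sub_C_eq_C_eval, add_comm]
        exact (modByMonic_add_div p (X - C b0)).symm
      rw [h2]
      refine add_mem (Ideal.mul_mem_right _ _ (Ideal.subset_span (by simp)))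
        (Ideal.mul_mem_right _ _ (Ideal.subset_span (by simp)))
    · rw [Ideal.span_le]
      rintro x (rfl | rfl)
      · show f (C π) = 0
        simp only [f, RingHom.comp_apply, coe_evalRingHom, eval_C]
        rw [IsLocalRing.residue_eq_zero_iff, hπ.maximalIdeal_eq]
        exact Ideal.mem_span_singleton_self π
      · show f (X - C b0) = 0
        simp [f]
  rw [← hker]
  exact RingHom.ker_isMaximal_of_surjective f hf


theorem separable_map_of_irreducible {R Ch : Type*} [CommRing R] [IsDomain R]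
    [IsDiscreteValuationRing R]
    [Field Ch] [CharZero Ch] [Algebra R Ch] [FaithfulSMul R Ch] {h : R[X]} (hh : Irreducible h)
    (hdeg : 0 < h.natDegree) : (h.map (algebraMap R Ch)).Separable := by
  have hinj : Function.Injective (algebraMap R Ch) := FaithfulSMul.algebraMap_injective R Ch
  have : CharZero R := by
    refine ⟨fun a b hab => ?_⟩
    have := congrArg (algebraMap R Ch) hab
    simpa using this
  have : CharZero (FractionRing R) :=
    charZero_of_injective_algebraMap (IsFractionRing.injective R (FractionRing R))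
  have hprim : h.IsPrimitive := hh.isPrimitive hdeg.ne'
  have hirr : Irreducible (h.map (algebraMap R (FractionRing R))) :=
    (hprim.irreducible_iff_irreducible_map_fraction_map).1 hh
  have hsep := hirr.separable.map (f := IsFractionRing.lift hinj)
  rw [Polynomial.map_map] at hsep
  have hcomp : (IsFractionRing.lift hinj).comp (algebraMap R (FractionRing R)) = algebraMap R Ch := by
    ext x
    simp
  rwa [hcomp] at hsep

theorem order_aeval_eq_one {R Ch : Type*} [CommRing R] [IsDomain R] [IsDiscreteValuationRing R]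
    [Field Ch] [CharZero Ch] [Algebra R Ch] [FaithfulSMul R Ch] {h : R[X]} (hh : Irreducible h)
    (hdeg : 0 < h.natDegree) {β : Ch} (hβ : aeval β h = 0) {w : PowerSeries Ch}
    (hw : (w - PowerSeries.C β).order = 1) : (aeval w h).order = 1 := by
  set hC := h.map (algebraMap R Ch) with hhC
  have hsep : hC.Separable := separable_map_of_irreducible hh hdeg
  have hroot : hC.IsRoot β := by
    rw [IsRoot.def, hhC, eval_map_algebraMap]
    exact hβ
  set q := hC /ₘ (X - C β) with hq
  have hfac : (X - C β) * q = hC := mul_divByMonic_eq_iff_isRoot.2 hroot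
  have hqβ : q.eval β ≠ 0 := by
    have h1 := hsep.aeval_derivative_ne_zero (x := β) (by simpa [aeval_def, eval₂_eq_eval_map] using hroot)
    rw [← hfac] at h1
    simpa [derivative_mul] using h1
  have hcw : PowerSeries.constantCoeff w = β := by
    have h0 : PowerSeries.coeff 0 (w - PowerSeries.C β) = 0 :=
      PowerSeries.coeff_of_lt_order 0 (by rw [hw]; norm_num)
    simpa [sub_eq_zero] using h0
  have h1 : aeval w h = aeval w hC := by
    rw [hhC, aeval_map_algebraMap]
  have h2 : aeval w hC = (w - PowerSeries.C β) * aeval w q := by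
    rw [← hfac, map_mul, map_sub, aeval_X, aeval_C]
    rfl
  have h3 : PowerSeries.constantCoeff (aeval w q) = q.eval β := by
    rw [aeval_def, hom_eval₂, hcw]
    have : (PowerSeries.constantCoeff (R := Ch)).comp (algebraMap Ch (PowerSeries Ch)) = RingHom.id Ch := by
      ext x
      simp
    rw [this, eval₂_id]
  rw [h1, h2, PowerSeries.order_mul, hw,
    PowerSeries.order_zero_of_unit ((PowerSeries.isUnit_iff_constantCoeff).2 (h3 ▸ hqβ.isUnit)),
    add_zero]


variable {R K L Ch : Type u} [CommRing R] [IsDomain R] [IsDiscreteValuationRing R]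
    [Field K] [Algebra R K] [IsFractionRing R K] [CharZero K] [Field L] [Algebra K L] [Algebra R L]
    [IsScalarTower R K L] [Field Ch] [CharZero Ch] [IsAlgClosed Ch] [Algebra K Ch] [Algebra R Ch]
    [IsScalarTower R K Ch]

theorem faithfulSMul_of_tower (R K Ch : Type*) [CommRing R] [IsDomain R] [Field K] [Algebra R K]
    [IsFractionRing R K] [Field Ch] [Algebra K Ch] [Algebra R Ch] [IsScalarTower R K Ch] :
    FaithfulSMul R Ch := by
  rw [faithfulSMul_iff_algebraMap_injective, IsScalarTower.algebraMap_eq R K Ch]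
  exact (algebraMap K Ch).injective.comp (IsFractionRing.injective R K)

/-- a polynomial of positive degree has a root in `Ch` -/
theorem exists_root_of_natDegree_pos {R Ch : Type*} [CommRing R] [IsDomain R] [Field Ch]
    [IsAlgClosed Ch] [Algebra R Ch] [FaithfulSMul R Ch] {h : R[X]} (hdeg : 0 < h.natDegree) :
    ∃ β : Ch, aeval β h = 0 := by
  apply IsAlgClosed.exists_aeval_eq_zero Ch h
  rw [degree_eq_natDegree (by rintro rfl; simp at hdeg)]
  exact_mod_cast hdeg.ne'

theorem chart_nonspecial {π : R} (hπ : Irreducible π) (T : L) (hT : Transcendental K T)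
    [FiniteDimensional K⟮T⟯ L] (hU : UnitDiff K π T) (S : Finset R)
    (hh : ∀ b : Ch, (∀ b0 ∈ S, b ≠ algebraMap R Ch b0) → HhAt K Ch T b 1)
    (𝔪 : Ideal R[X]) (h𝔪 : 𝔪.IsMaximal) (hπ𝔪 : C π ∈ 𝔪) (hns : ∀ b0 ∈ S, X - C b0 ∉ 𝔪)
    (ε : L) (r : R[X]) (hr : ¬ C π ∣ r)
    (hrε : IsIntegral (Algebra.adjoin R {T}) (aeval T r * ε)) (hε : IntModPi π T ε) :
    ∃ a : R[X], a ∉ 𝔪 ∧ LocAt π T ε r a := by
  have hF : FaithfulSMul R Ch := faithfulSMul_of_tower R K Ch
  refine local_etale_poly (Ch := Ch) hπ T hT hU 𝔪 h𝔪 hπ𝔪 ?_ ε r hr hrε hε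
  intro h hirr hmem hdeg
  obtain ⟨β, hβ⟩ := exists_root_of_natDegree_pos (Ch := Ch) hdeg
  have hnsp : ∀ b0 ∈ S, β ≠ algebraMap R Ch b0 := by
    rintro b0 hb0 rfl
    have hirr' : Irreducible (X - C b0 : R[X]) := irreducible_X_sub_C b0 
    have hdvd : (X - C b0) ∣ h :=
      dvd_of_aeval_eq_zero_of_irreducible (Ch := Ch) hirr' (by rw [natDegree_X_sub_C]; norm_num)
        (β := algebraMap R Ch b0) (by simp) hβ
    have hass : Associated (X - C b0) h := hirr'.associated_of_dvd hirr hdvd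
    obtain ⟨c, hc⟩ := hass.symm
    apply hns b0 hb0
    rw [← hc]
    exact Ideal.mul_mem_right _ _ hmem
  obtain ⟨w, hw, hsplit⟩ := hh β hnsp
  obtain ⟨w', hw', hord⟩ := exists_powerSeries_of_order_sub (M := 1) one_pos (by exact_mod_cast hw)
  refine ⟨w', order_aeval_eq_one hirr hdeg hβ (by exact_mod_cast hord), ?_⟩
  rw [hw']
  exact hsplit


omit [IsDiscreteValuationRing R] [CharZero K] [CharZero Ch] [IsAlgClosed Ch] [IsDomain R]
  [IsFractionRing R K] in
theorem algebraMap_laurent_eq_C (b0 : R) :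
    algebraMap K (LaurentSeries Ch) (algebraMap R K b0) = HahnSeries.C (algebraMap R Ch b0) := by
  rw [HahnSeries.algebraMap_apply', PowerSeries.algebraMap_apply, HahnSeries.ofPowerSeries_C,
    ← IsScalarTower.algebraMap_apply]

/-- the constant coefficient of an element of `(π, X)` is divisible by `π` -/
theorem dvd_coeff_zero_of_mem_span {R : Type*} [CommRing R] {π : R} {h : R[X]}
    (hmem : h ∈ Ideal.span {C π, (X : R[X])}) : π ∣ h.coeff 0 := by
  rw [Ideal.mem_span_pair] at hmem
  obtain ⟨a, b, rfl⟩ := hmem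
  simp only [coeff_add, mul_coeff_zero, coeff_C_zero, coeff_X_zero, mul_zero, add_zero]
  exact Dvd.intro_left _ rfl

section aux

variable {L1 : Type u} [Field L1] [Algebra L L1] [Algebra K L1] [Algebra R L1]
  [IsScalarTower K L L1] [IsScalarTower R L L1] [IsScalarTower R K L1]

theorem chart_special_hh {π : R} (hπ : Irreducible π) (T : L)
    (S : Finset R) (M : R → ℕ)
    (hS : ∀ b ∈ S, ∀ b' ∈ S, b ≠ b' → IsUnit (b - b'))
    (hMu : ∀ b ∈ S, IsUnit (M b : R))
    (hhS : ∀ b ∈ S, HhAt K Ch T (algebraMap R Ch b) (M b))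
    (hh : ∀ b : Ch, (∀ b0 ∈ S, b ≠ algebraMap R Ch b0) → HhAt K Ch T b 1)
    (b0 : R) (hb0 : b0 ∈ S)
    (u : L1) (hu : u ^ M b0 = algebraMap L L1 (T - algebraMap R L b0))
    (hgen : IntermediateField.adjoin L {u} = ⊤)
    (h : R[X]) (hirr : Irreducible h) (hmem : h ∈ Ideal.span {C π, (X : R[X])})
    (hdeg : 0 < h.natDegree) :
    ∃ w : PowerSeries Ch, (aeval w h).order = 1 ∧ SplitAt K Ch u (w : LaurentSeries Ch) := by
  have hF : FaithfulSMul R Ch := faithfulSMul_of_tower R K Ch
  have hM0 : M b0 ≠ 0 := by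
    intro h0
    have := hMu b0 hb0
    rw [h0, Nat.cast_zero] at this
    exact not_isUnit_zero this
  have hMCh : ((M b0 : ℕ) : Ch) ≠ 0 := Nat.cast_ne_zero.2 hM0
  have hu' : u ^ M b0 = algebraMap L L1 (T - algebraMap K L (algebraMap R K b0)) := by
    rw [hu, ← IsScalarTower.algebraMap_apply]
  by_cases hX : (X : R[X]) ∣ h
  · -- `h ~ X`
    obtain ⟨c, hc⟩ := hX
    have hcu : IsUnit c := by
      rcases hirr.isUnit_or_isUnit hc with h1 | h1
      · exact absurd h1 not_isUnit_X
      · exact h1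
    obtain ⟨w0, hw0, hsplit⟩ := hhS b0 hb0
    obtain ⟨v, hv⟩ := laurent_exists_pow_eq hMCh (w0 - HahnSeries.C (algebraMap R Ch b0))
      (by rw [hw0])
    have hv0 : v ≠ 0 := by
      rintro rfl
      rw [zero_pow hM0] at hv
      rw [← hv, HahnSeries.order_zero] at hw0
      exact hM0 (by exact_mod_cast hw0.symm)
    have hvord : v.order = 1 := by
      have h1 := HahnSeries.order_pow v (M b0)
      rw [hv, hw0, nsmul_eq_mul] at h1
      have h2 : ((M b0 : ℕ) : ℤ) ≠ 0 := by exact_mod_cast hM0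
      have h3 : ((M b0 : ℕ) : ℤ) * 1 = (M b0 : ℤ) * v.order := by rw [mul_one]; exact h1
      exact (mul_left_cancel₀ h2 h3).symm
    obtain ⟨v', hv', hord⟩ := exists_powerSeries_of_order_sub (w := v) (b := 0) (M := 1) one_pos
      (by simpa using hvord)
    refine ⟨v', ?_, ?_⟩
    · rw [hc, map_mul, aeval_X, PowerSeries.order_mul,
        PowerSeries.order_zero_of_unit (hcu.map (aeval v')), add_zero]
      simpa using hord
    · rw [hv']
      refine hsplit.root hu' ?_ hgen
      rw [hv, algebraMap_laurent_eq_C]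
  · -- a nonzero root
    obtain ⟨β, hβ⟩ := exists_root_of_natDegree_pos (Ch := Ch) hdeg
    have hβ0 : β ≠ 0 := by
      rintro rfl
      apply hX
      rw [X_dvd_iff]
      have h1 : algebraMap R Ch (h.coeff 0) = 0 := by
        rw [← hβ, aeval_def, eval₂_at_zero]
      exact (FaithfulSMul.algebraMap_injective R Ch) (by rw [h1, map_zero])
    set b : Ch := algebraMap R Ch b0 + β ^ M b0 with hb
    have hnsp : ∀ b1 ∈ S, b ≠ algebraMap R Ch b1 := by
      intro b1 hb1 heq
      by_cases h01 : b1 = b0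
      · rw [h01, hb] at heq
        exact pow_ne_zero _ hβ0 (by simpa using heq)
      · have hroot : aeval β (X ^ M b0 - C (b1 - b0) : R[X]) = 0 := by
          simp only [map_sub, map_pow, aeval_X, aeval_C]
          rw [← heq, hb]
          ring
        obtain ⟨c, hc⟩ := dvd_of_aeval_eq_zero_of_irreducible (Ch := Ch) hirr hdeg hβ hroot
        have h1 : π ∣ (X ^ M b0 - C (b1 - b0) : R[X]).coeff 0 := by
          rw [hc, mul_coeff_zero]
          exact Dvd.dvd.mul_right (dvd_coeff_zero_of_mem_span hmem) _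
        have h2 : (X ^ M b0 - C (b1 - b0) : R[X]).coeff 0 = -(b1 - b0) := by
          simp [coeff_X_pow, hM0.symm]
        rw [h2, dvd_neg] at h1
        exact hπ.not_isUnit (isUnit_of_dvd_unit h1 (hS b1 hb1 b0 hb0 h01))
    obtain ⟨w0, hw0, hsplit⟩ := hh b hnsp
    obtain ⟨w0', hw0', hord⟩ := exists_powerSeries_of_order_sub (M := 1) one_pos
      (by exact_mod_cast hw0)
    have hcw0 : PowerSeries.constantCoeff w0' = b := by
      have h0 : PowerSeries.coeff 0 (w0' - PowerSeries.C b) = 0 :=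
        PowerSeries.coeff_of_lt_order 0 (by rw [hord]; norm_num)
      simpa [sub_eq_zero] using h0
    obtain ⟨v', hv', hcv'⟩ := exists_pow_eq_of_constantCoeff hMCh
      (w0' - PowerSeries.C (algebraMap R Ch b0)) hβ0 (by
        rw [map_sub, hcw0, PowerSeries.constantCoeff_C, hb]; ring)
    have hordv : (v' - PowerSeries.C β).order = 1 := by
      rw [← order_pow_sub_eq hMCh v' hβ0 hcv', hv']
      have : w0' - PowerSeries.C (algebraMap R Ch b0) - PowerSeries.C (β ^ M b0)
          = w0' - PowerSeries.C b := by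
        rw [hb, map_add]; ring
      rw [this]
      exact_mod_cast hord
    refine ⟨v', order_aeval_eq_one hirr hdeg hβ hordv, ?_⟩
    refine hsplit.root hu' ?_ hgen
    rw [algebraMap_laurent_eq_C, ← hw0', ← HahnSeries.ofPowerSeries_C]
    have := congrArg (HahnSeries.ofPowerSeries ℤ Ch) hv'
    rw [map_pow, map_sub] at this
    exact this


theorem chart_special_aux {π : R} (hπ : Irreducible π) (T : L) (hT : Transcendental K T)
    [FiniteDimensional K⟮T⟯ L] (hU : UnitDiff K π T) (S : Finset R) (M : R → ℕ)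
    (hS : ∀ b ∈ S, ∀ b' ∈ S, b ≠ b' → IsUnit (b - b'))
    (hMu : ∀ b ∈ S, IsUnit (M b : R)) (hMζ : ∀ b ∈ S, ∃ ζ : K, IsPrimitiveRoot ζ (M b))
    (hhS : ∀ b ∈ S, HhAt K Ch T (algebraMap R Ch b) (M b))
    (hh : ∀ b : Ch, (∀ b0 ∈ S, b ≠ algebraMap R Ch b0) → HhAt K Ch T b 1)
    (b0 : R) (hb0 : b0 ∈ S)
    (u : L1) (hu : u ^ M b0 = algebraMap L L1 (T - algebraMap R L b0))
    (hgen : IntermediateField.adjoin L {u} = ⊤)
    (ε : L) (r : R[X]) (hr : ¬ C π ∣ r)
    (hrε : IsIntegral (Algebra.adjoin R {T}) (aeval T r * ε)) (hε : IntModPi π T ε) :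
    ∃ a : R[X], a ∉ Ideal.span {C π, X - C b0} ∧ LocAt π T ε r a := by
  have hM0 : 0 < M b0 := by
    rw [Nat.pos_iff_ne_zero]
    intro h0
    have := hMu b0 hb0
    rw [h0, Nat.cast_zero] at this
    exact not_isUnit_zero this
  have hπp : Prime π := hπ.prime
  obtain ⟨ζ, hζ⟩ := hMζ b0 hb0
  have hu' : u ^ M b0 = algebraMap L L1 (T - algebraMap K L (algebraMap R K b0)) := by
    rw [hu, ← IsScalarTower.algebraMap_apply]
  refine locAt_descent hπ T b0 (hMu b0 hb0) ζ hζ hT u hu hgen ε r ?_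
  have hTu : Transcendental K u := transcendental_root hM0 hT hu
  have hfin : FiniteDimensional K⟮u⟯ L1 := finiteDimensional_root hM0 hu' hgen
  have hmax : (Ideal.span {C π, (X : R[X])}).IsMaximal := by
    have := isMaximal_span_C_X_sub_C hπ (0 : R)
    rwa [C_0, sub_zero] at this
  refine local_etale_poly (Ch := Ch) hπ u hTu (UnitDiff.root hπp hU hM0 hu hgen) _ hmax
    (Ideal.subset_span (by simp)) ?_ (algebraMap L L1 ε) _ ?_ ?_ (IntModPi.map_root hπp hM0 hu hε)
  · intro h hirr hmem hdeg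
    exact chart_special_hh hπ T S M hS hMu hhS hh b0 hb0 u hu hgen h hirr hmem hdeg
  · rwa [C_dvd_comp_root_iff hπp hM0]
  · rw [aeval_comp_root hu, ← map_mul]
    exact isIntegral_root_of_isIntegral hu hrε

end aux

theorem adjoin_gen_eq_top' {F E : Type*} [Field F] [Field E] [Algebra F E] (α : E) :
    IntermediateField.adjoin F {AdjoinSimple.gen F α} = (⊤ : IntermediateField F F⟮α⟯) := by
  apply IntermediateField.map_injective (F⟮α⟯.val)
  rw [adjoin_map, Set.image_singleton, ← AlgHom.fieldRange_eq_map, fieldRange_val]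
  rfl

theorem chart_special {π : R} (hπ : Irreducible π) (T : L) (hT : Transcendental K T)
    [FiniteDimensional K⟮T⟯ L] (hU : UnitDiff K π T) (S : Finset R) (M : R → ℕ)
    (hS : ∀ b ∈ S, ∀ b' ∈ S, b ≠ b' → IsUnit (b - b'))
    (hMu : ∀ b ∈ S, IsUnit (M b : R)) (hMζ : ∀ b ∈ S, ∃ ζ : K, IsPrimitiveRoot ζ (M b))
    (hhS : ∀ b ∈ S, HhAt K Ch T (algebraMap R Ch b) (M b))
    (hh : ∀ b : Ch, (∀ b0 ∈ S, b ≠ algebraMap R Ch b0) → HhAt K Ch T b 1)
    (b0 : R) (hb0 : b0 ∈ S)
    (ε : L) (r : R[X]) (hr : ¬ C π ∣ r)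
    (hrε : IsIntegral (Algebra.adjoin R {T}) (aeval T r * ε)) (hε : IntModPi π T ε) :
    ∃ a : R[X], a ∉ Ideal.span {C π, X - C b0} ∧ LocAt π T ε r a := by
  have hM0 : 0 < M b0 := by
    rw [Nat.pos_iff_ne_zero]
    intro h0
    have := hMu b0 hb0
    rw [h0, Nat.cast_zero] at this
    exact not_isUnit_zero this
  obtain ⟨u, hu⟩ := IsAlgClosed.exists_pow_nat_eq
    (algebraMap L (AlgebraicClosure L) (T - algebraMap R L b0)) hM0
  let L1 : IntermediateField L (AlgebraicClosure L) := L⟮u⟯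
  have hu1 : (AdjoinSimple.gen L u) ^ M b0 = algebraMap L L1 (T - algebraMap R L b0) := by
    apply Subtype.ext
    exact hu
  have : IsScalarTower R K L1 := by
    refine IsScalarTower.of_algebraMap_eq fun x => ?_
    rw [IsScalarTower.algebraMap_apply R L L1, IsScalarTower.algebraMap_apply K L L1,
      ← IsScalarTower.algebraMap_apply R K L]
  exact chart_special_aux (L1 := L1) hπ T hT hU S M hS hMu hMζ hhS hh b0 hb0
    (AdjoinSimple.gen L u) hu1 (adjoin_gen_eq_top' u) ε r hr hrε hε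

/-- **AK-CHART.**  If the reduction of the `π`-integral element `ε` is integral over `Bfin(T) / π`
then `ε ≡ e mod π C` for some `e ∈ Bfin(T)`. -/
theorem chart_loc {π : R} (hπ : Irreducible π) (T : L) (hT : Transcendental K T)
    [FiniteDimensional K⟮T⟯ L] (hU : UnitDiff K π T) (S : Finset R) (M : R → ℕ)
    (hS : ∀ b ∈ S, ∀ b' ∈ S, b ≠ b' → IsUnit (b - b'))
    (hMu : ∀ b ∈ S, IsUnit (M b : R)) (hMζ : ∀ b ∈ S, ∃ ζ : K, IsPrimitiveRoot ζ (M b))
    (hhS : ∀ b ∈ S, HhAt K Ch T (algebraMap R Ch b) (M b))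
    (hh : ∀ b : Ch, (∀ b0 ∈ S, b ≠ algebraMap R Ch b0) → HhAt K Ch T b 1)
    (ε : L) (hε1 : PiInt π T ε) (hε : IntModPi π T ε) :
    ∃ e : L, IsIntegral (Algebra.adjoin R {T}) e ∧ PiInt π T ((e - ε) / algebraMap R L π) := by
  obtain ⟨r, hr, hrε⟩ := hε1
  have key : LocAt π T ε r 1 := by
    refine locAt_one_of_forall_maximal π T ε r hrε fun 𝔪 h𝔪 hπ𝔪 => ?_
    by_cases hsp : ∃ b0 ∈ S, X - C b0 ∈ 𝔪
    · obtain ⟨b0, hb0, hb0𝔪⟩ := hsp
      have hle : Ideal.span {C π, X - C b0} ≤ 𝔪 := by
        rw [Ideal.span_le]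
        rintro x (rfl | rfl)
        · exact hπ𝔪
        · exact hb0𝔪
      have heq : Ideal.span {C π, X - C b0} = 𝔪 :=
        (isMaximal_span_C_X_sub_C hπ b0).eq_of_le h𝔪.ne_top hle
      rw [← heq]
      exact chart_special hπ T hT hU S M hS hMu hMζ hhS hh b0 hb0 ε r hr hrε hε
    · push Not at hsp
      exact chart_nonspecial hπ T hT hU S hh 𝔪 h𝔪 hπ𝔪 hsp ε r hr hrε hε
  obtain ⟨e, z, he, hz, h⟩ := key
  refine ⟨e, he, r, hr, ?_⟩
  have hπ0 : algebraMap R L π ≠ 0 := by
    rw [IsScalarTower.algebraMap_apply R K L]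
    simpa using hπ.ne_zero
  have : aeval T r * ((e - ε) / algebraMap R L π) = z := by
    rw [map_one, one_mul] at h
    rw [← mul_div_assoc, h, mul_div_cancel_left₀ _ hπ0]
  rw [this]
  exact hz

end Fermat.Agent.ESlib
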