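import Mathlib

/-!
# ES library, part C6: connectedness without formal functions (abstract commutative algebra)
-/

set_option autoImplicit false

namespace Fermat.Agent.ESlib

section Idem

variable {B : Type*} [CommRing B]

/-- Newton iteration for idempotents. -/
theorem exists_idem_lift (J : Ideal B) {a : B} (ha : a ^ 2 - a ∈ J) (r : ℕ) :
    ∃ a' : B, a' ^ 2 - a' ∈ J ^ (r + 1) ∧ a' - a ∈ J := by
  induction r with
  | zero => exact ⟨a, by simpa using ha, by simp⟩
  | succ r ih =>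
    obtain ⟨e, he, hea⟩ := ih
    refine ⟨3 * e ^ 2 - 2 * e ^ 3, ?_, ?_⟩
    · have h1 : (3 * e ^ 2 - 2 * e ^ 3) ^ 2 - (3 * e ^ 2 - 2 * e ^ 3)
          = (e ^ 2 - e) ^ 2 * (-((3 - 2 * e) * (1 + 2 * e))) := by ring
      rw [h1]
      apply Ideal.mul_mem_right
      have h2 : (e ^ 2 - e) ^ 2 ∈ (J ^ (r + 1)) ^ 2 := Ideal.pow_mem_pow he 2
      rw [← pow_mul] at h2
      exact Ideal.pow_le_pow_right (by omega) h2
    · have h1 : 3 * e ^ 2 - 2 * e ^ 3 - a = (e - a) + (e ^ 2 - e) * (-(2 * e - 1)) := by ring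
      rw [h1]
      refine J.add_mem hea (Ideal.mul_mem_right _ _ ?_)
      exact Ideal.pow_le_self (by omega) he

/-- Two idempotents modulo `J ^ r` that agree modulo `J` agree modulo `J ^ r`. -/
theorem idem_unique (J : Ideal B) {a b : B} (r : ℕ) (ha : a ^ 2 - a ∈ J ^ (r + 1))
    (hb : b ^ 2 - b ∈ J ^ (r + 1)) (hab : a - b ∈ J) : a - b ∈ J ^ (r + 1) := by
  have h3 : (a - b) ^ 3 - (a - b) ∈ J ^ (r + 1) := by
    have : (a - b) ^ 3 - (a - b) = (a ^ 2 - a) * (a + 1 - 3 * b) + (b ^ 2 - b) * (3 * a - b - 1) := by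
      ring
    rw [this]
    exact (J ^ (r + 1)).add_mem (Ideal.mul_mem_right _ _ ha) (Ideal.mul_mem_right _ _ hb)
  have key : ∀ k : ℕ, k ≤ r → a - b ∈ J ^ (k + 1) := by
    intro k
    induction k with
    | zero => intro _; simpa using hab
    | succ k ih =>
      intro hk
      have h1 := ih (by omega)
      have h2 : (a - b) ^ 3 ∈ (J ^ (k + 1)) ^ 3 := Ideal.pow_mem_pow h1 3
      rw [← pow_mul] at h2
      have h4 : (a - b) ^ 3 ∈ J ^ (k + 1 + 1) := Ideal.pow_le_pow_right (by omega) h2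
      have h5 : (a - b) ^ 3 - (a - b) ∈ J ^ (k + 1 + 1) := Ideal.pow_le_pow_right (by omega) h3
      have : a - b = (a - b) ^ 3 - ((a - b) ^ 3 - (a - b)) := by ring
      rw [this]
      exact (J ^ (k + 1 + 1)).sub_mem h4 h5
  exact key r le_rfl

end Idem

section Main

variable {R : Type*} [CommRing R] [IsDomain R] [IsDiscreteValuationRing R]
variable {Bm : Type*} [CommRing Bm] [Algebra R Bm]

/-- bounded torsion in a finitely generated module over a noetherian ring -/
theorem exists_torsion_bound {M : Type*} [AddCommGroup M] [Module R M] [Module.Finite R M] (π : R) :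
    ∃ s : ℕ, ∀ (n : ℕ) (x : M), π ^ n • x = 0 → π ^ s • x = 0 := by
  have : IsNoetherian R M := isNoetherian_of_isNoetherianRing_of_finite R M
  let f : ℕ →o Submodule R M :=
    { toFun := fun n => Submodule.torsionBy R M (π ^ n)
      monotone' := by
        intro m n hmn x hx
        rw [Submodule.mem_torsionBy_iff] at hx ⊢
        obtain ⟨k, rfl⟩ := Nat.exists_eq_add_of_le hmn
        rw [pow_add, mul_comm, mul_smul, hx, smul_zero] }
  obtain ⟨s, hs⟩ := monotone_stabilizes_iff_noetherian.mpr this f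
  refine ⟨s, fun n x hx => ?_⟩
  have h1 : x ∈ f n := (Submodule.mem_torsionBy_iff _ _).mpr hx
  have h2 : x ∈ f (max s n) := f.monotone (le_max_right s n) h1
  rw [← hs _ (le_max_left s n)] at h2
  exact (Submodule.mem_torsionBy_iff _ _).mp h2

/-- lifting an idempotent modulo `π` inside a subalgebra, elementwise form -/
theorem exists_idem_lift_subalgebra (π : R) (S : Subalgebra R Bm) {a : Bm} (ha : a ∈ S)
    (haa : ∃ y ∈ S, a ^ 2 - a = algebraMap R Bm π * y) (r : ℕ) :
    ∃ a' ∈ S, (∃ y ∈ S, a' ^ 2 - a' = algebraMap R Bm π ^ (r + 1) * y) ∧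
      ∃ y ∈ S, a' - a = algebraMap R Bm π * y := by
  obtain ⟨y, hy, hay⟩ := haa
  have h1 : (⟨a, ha⟩ : S) ^ 2 - ⟨a, ha⟩ ∈ Ideal.span {algebraMap R S π} := by
    rw [Ideal.mem_span_singleton']
    refine ⟨⟨y, hy⟩, ?_⟩
    apply Subtype.ext
    simp only [Subalgebra.coe_mul, Subalgebra.coe_sub, Subalgebra.coe_pow,
      Subalgebra.coe_algebraMap]
    rw [hay, mul_comm]
  obtain ⟨a', h2, h3⟩ := exists_idem_lift _ h1 r
  rw [Ideal.span_singleton_pow, Ideal.mem_span_singleton'] at h2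
  rw [Ideal.mem_span_singleton'] at h3
  obtain ⟨y2, hy2⟩ := h2
  obtain ⟨y3, hy3⟩ := h3
  refine ⟨a', a'.2, ⟨y2, y2.2, ?_⟩, ⟨y3, y3.2, ?_⟩⟩
  · have := congrArg Subtype.val hy2
    simp only [Subalgebra.coe_mul, Subalgebra.coe_sub, Subalgebra.coe_pow,
      Subalgebra.coe_algebraMap] at this
    rw [← this, mul_comm]
  · have := congrArg Subtype.val hy3
    simp only [Subalgebra.coe_mul, Subalgebra.coe_sub, Subalgebra.coe_pow,
      Subalgebra.coe_algebraMap] at this
    rw [← this, mul_comm]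

/-- **Connectedness (C6).** -/
theorem idempotent_trivial {π : R} (hπ : Irreducible π) (Bf Bi : Subalgebra R Bm)
    (hH0 : ∀ x, x ∈ Bf → x ∈ Bi → ∃ r : R, algebraMap R Bm r = x)
    (hH1 : Module.Finite R (Bm ⧸ (Subalgebra.toSubmodule Bf ⊔ Subalgebra.toSubmodule Bi)))
    (h1 : ¬ ∃ y ∈ Bf, (1 : Bm) = algebraMap R Bm π * y)
    {a b : Bm} (ha : a ∈ Bf) (hb : b ∈ Bi)
    (haa : ∃ y ∈ Bf, a ^ 2 - a = algebraMap R Bm π * y)
    (hbb : ∃ y ∈ Bi, b ^ 2 - b = algebraMap R Bm π * y)
    (hab : ∃ y, a - b = algebraMap R Bm π * y) :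
    ((∃ y ∈ Bf, a = algebraMap R Bm π * y) ∧ (∃ y ∈ Bi, b = algebraMap R Bm π * y)) ∨
      ((∃ y ∈ Bf, 1 - a = algebraMap R Bm π * y) ∧ (∃ y ∈ Bi, 1 - b = algebraMap R Bm π * y)) := by
  set P : Bm := algebraMap R Bm π with hP
  obtain ⟨s, hs⟩ := exists_torsion_bound
    (M := Bm ⧸ (Subalgebra.toSubmodule Bf ⊔ Subalgebra.toSubmodule Bi)) π
  obtain ⟨a', ha', ⟨ya, hya, hya'⟩, ⟨za, hza, hza'⟩⟩ := exists_idem_lift_subalgebra π Bf ha haa s
  obtain ⟨b', hb', ⟨yb, hyb, hyb'⟩, ⟨zb, hzb, hzb'⟩⟩ := exists_idem_lift_subalgebra π Bi hb hbb s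
  obtain ⟨yab, hyab⟩ := hab
  -- uniqueness in `Bm`
  have hu : a' - b' ∈ (Ideal.span {P}) ^ (s + 1) := by
    apply idem_unique
    · rw [Ideal.span_singleton_pow, Ideal.mem_span_singleton']
      exact ⟨ya, by rw [hya', mul_comm]⟩
    · rw [Ideal.span_singleton_pow, Ideal.mem_span_singleton']
      exact ⟨yb, by rw [hyb', mul_comm]⟩
    · rw [Ideal.mem_span_singleton']
      refine ⟨za + yab - zb, ?_⟩
      have : a' - b' = (a' - a) + (a - b) - (b' - b) := by ring
      rw [this, hza', hyab, hzb']; ring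
  rw [Ideal.span_singleton_pow, Ideal.mem_span_singleton'] at hu
  obtain ⟨c, hc⟩ := hu
  -- the class of `c` is torsion
  have hc1 : π ^ (s + 1) • (Submodule.Quotient.mk c :
      Bm ⧸ (Subalgebra.toSubmodule Bf ⊔ Subalgebra.toSubmodule Bi)) = 0 := by
    rw [← Submodule.Quotient.mk_smul, Submodule.Quotient.mk_eq_zero, Algebra.smul_def, map_pow,
      mul_comm, hc, sub_eq_add_neg]
    exact Submodule.add_mem_sup ha' (Bi.neg_mem hb')
  have hc2 := hs _ _ hc1
  rw [← Submodule.Quotient.mk_smul, Submodule.Quotient.mk_eq_zero, Submodule.mem_sup] at hc2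
  obtain ⟨u, hu, v, hv, huv⟩ := hc2
  rw [Algebra.smul_def, map_pow] at huv
  have hu : u ∈ Bf := hu
  have hv : v ∈ Bi := hv
  have hPf : P ∈ Bf := Bf.algebraMap_mem π
  have hPi : P ∈ Bi := Bi.algebraMap_mem π
  have e1 : a' - P * u = b' + P * v := by
    have : a' - b' = P * (u + v) := by rw [huv, ← hc]; ring
    linear_combination this
  obtain ⟨ρ, hρ⟩ := hH0 (a' - P * u) (Bf.sub_mem ha' (Bf.mul_mem hPf hu))
    (e1 ▸ Bi.add_mem hb' (Bi.mul_mem hPi hv))
  -- `a ≡ ρ`, `b ≡ ρ`
  have ea : a = algebraMap R Bm ρ + P * (u - za) := by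
    rw [hρ]; linear_combination -hza'
  have eb : b = algebraMap R Bm ρ + P * (-v - zb) := by
    rw [hρ, e1]; linear_combination -hzb'
  have hmax : IsLocalRing.maximalIdeal R = Ideal.span {π} := hπ.maximalIdeal_eq
  by_cases h0 : ρ ∈ IsLocalRing.maximalIdeal R
  · left
    rw [hmax, Ideal.mem_span_singleton'] at h0
    obtain ⟨t, ht⟩ := h0
    have : algebraMap R Bm ρ = P * algebraMap R Bm t := by rw [← ht, map_mul, mul_comm]
    refine ⟨⟨algebraMap R Bm t + (u - za), Bf.add_mem (Bf.algebraMap_mem t) (Bf.sub_mem hu hza), ?_⟩,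
      ⟨algebraMap R Bm t + (-v - zb), Bi.add_mem (Bi.algebraMap_mem t)
        (Bi.sub_mem (Bi.neg_mem hv) hzb), ?_⟩⟩
    · rw [ea, this]; ring
    · rw [eb, this]; ring
  by_cases h0' : 1 - ρ ∈ IsLocalRing.maximalIdeal R
  · right
    rw [hmax, Ideal.mem_span_singleton'] at h0'
    obtain ⟨t, ht⟩ := h0'
    have : 1 - algebraMap R Bm ρ = P * algebraMap R Bm t := by
      rw [mul_comm, hP, ← map_mul, ht, map_sub, map_one]
    refine ⟨⟨algebraMap R Bm t - (u - za), Bf.sub_mem (Bf.algebraMap_mem t) (Bf.sub_mem hu hza), ?_⟩,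
      ⟨algebraMap R Bm t - (-v - zb), Bi.sub_mem (Bi.algebraMap_mem t)
        (Bi.sub_mem (Bi.neg_mem hv) hzb), ?_⟩⟩
    · rw [ea]; linear_combination this
    · rw [eb]; linear_combination this
  · exfalso
    apply h1
    have hu1 : IsUnit ρ := by
      by_contra h; exact h0 ((IsLocalRing.mem_maximalIdeal _).mpr h)
    have hu2 : IsUnit (1 - ρ) := by
      by_contra h; exact h0' ((IsLocalRing.mem_maximalIdeal _).mpr h)
    obtain ⟨w, hw⟩ := (hu1.mul hu2).exists_left_inv
    obtain ⟨y, hy, hay⟩ := haa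
    -- `ρ (1 - ρ) ∈ π Bf`
    have h5 : algebraMap R Bm (ρ * (1 - ρ)) =
        P * (-y + (u - za) * (2 * algebraMap R Bm ρ - 1 + P * (u - za))) := by
      rw [map_mul, map_sub, map_one]
      have : a ^ 2 - a = (algebraMap R Bm ρ + P * (u - za)) ^ 2
          - (algebraMap R Bm ρ + P * (u - za)) := by rw [← ea]
      rw [hay] at this
      linear_combination this
    refine ⟨algebraMap R Bm w * (-y + (u - za) * (2 * algebraMap R Bm ρ - 1 + P * (u - za))), ?_, ?_⟩
    · refine Bf.mul_mem (Bf.algebraMap_mem w) (Bf.add_mem (Bf.neg_mem hy) (Bf.mul_mem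
        (Bf.sub_mem hu hza) (Bf.add_mem (Bf.sub_mem (Bf.mul_mem ?_ (Bf.algebraMap_mem ρ)) Bf.one_mem)
        (Bf.mul_mem hPf (Bf.sub_mem hu hza)))))
      exact ofNat_mem Bf 2
    · have : (1 : Bm) = algebraMap R Bm w * algebraMap R Bm (ρ * (1 - ρ)) := by
        rw [← map_mul, hw, map_one]
      calc (1 : Bm) = algebraMap R Bm w * algebraMap R Bm (ρ * (1 - ρ)) := this
        _ = _ := by rw [h5]; ring

end Main

section H1

variable {R : Type*} [CommRing R]
variable {Bm : Type*} [CommRing Bm] [Algebra R Bm]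

/-- **Finite generation of `H¹`.** -/
theorem finite_H1 (Bf Bi : Subalgebra R Bm) {j j' : Bm} (hjj : j * j' = 1) (hj : j ∈ Bf)
    (hj' : j' ∈ Bi) {ι : Type*} [Finite ι] (b : ι → Bm) (hb : ∀ k, b k ∈ Bf)
    (hspan : ∀ x ∈ Bf, ∃ p : ι → Polynomial R, x = ∑ᶠ k, Polynomial.aeval j (p k) * b k)
    (s : ℕ) (hs : ∀ k, j' ^ s * b k ∈ Bi) (hloc : ∀ x : Bm, ∃ n : ℕ, j ^ n * x ∈ Bf) :
    Module.Finite R (Bm ⧸ (Subalgebra.toSubmodule Bf ⊔ Subalgebra.toSubmodule Bi)) := by
  classical
  cases nonempty_fintype ι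
  set T : Submodule R Bm := Subalgebra.toSubmodule Bf ⊔ Subalgebra.toSubmodule Bi with hT
  let G : Set Bm := Set.range fun x : Fin s × ι => j' ^ (x.1 : ℕ) * b x.2
  have hGfin : G.Finite := Set.finite_range _
  -- monomials
  have hmon : ∀ (n i : ℕ) (k : ι), j' ^ n * (j ^ i * b k) ∈ T ⊔ Submodule.span R G := by
    intro n i k
    rcases le_total n i with h | h
    · obtain ⟨d, rfl⟩ := Nat.exists_eq_add_of_le h
      have : j' ^ n * (j ^ (n + d) * b k) = j ^ d * b k := by
        rw [pow_add, ← mul_assoc, ← mul_assoc, ← mul_pow, mul_comm j' j, hjj, one_pow, one_mul]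
      rw [this]
      exact Submodule.mem_sup_left (Submodule.mem_sup_left (Bf.mul_mem (Bf.pow_mem hj d) (hb k)))
    · obtain ⟨d, rfl⟩ := Nat.exists_eq_add_of_le h
      have : j' ^ (i + d) * (j ^ i * b k) = j' ^ d * b k := by
        rw [pow_add, mul_comm (j' ^ i), mul_assoc, ← mul_assoc (j' ^ i), ← mul_pow, mul_comm j' j,
          hjj, one_pow, one_mul]
      rw [this]
      by_cases hd : d < s
      · exact Submodule.mem_sup_right (Submodule.subset_span ⟨(⟨d, hd⟩, k), rfl⟩)
      · obtain ⟨e, rfl⟩ := Nat.exists_eq_add_of_le (not_lt.mp hd)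
        have : j' ^ (s + e) * b k = j' ^ e * (j' ^ s * b k) := by rw [pow_add]; ring
        rw [this]
        exact Submodule.mem_sup_left (Submodule.mem_sup_right
          (Bi.mul_mem (Bi.pow_mem hj' e) (hs k)))
  have hpoly : ∀ (n : ℕ) (p : Polynomial R) (k : ι),
      j' ^ n * (Polynomial.aeval j p * b k) ∈ T ⊔ Submodule.span R G := by
    intro n p k
    rw [Polynomial.aeval_eq_sum_range, Finset.sum_mul, Finset.mul_sum]
    refine Submodule.sum_mem _ fun i _ => ?_
    rw [smul_mul_assoc, mul_smul_comm]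
    exact Submodule.smul_mem _ _ (hmon n i k)
  have htop : T ⊔ Submodule.span R G = ⊤ := by
    rw [eq_top_iff]
    intro x _
    obtain ⟨n, hn⟩ := hloc x
    obtain ⟨p, hp⟩ := hspan _ hn
    have : x = j' ^ n * (j ^ n * x) := by
      rw [← mul_assoc, ← mul_pow, mul_comm j' j, hjj, one_pow, one_mul]
    rw [this, hp, finsum_eq_sum_of_fintype, Finset.mul_sum]
    exact Submodule.sum_mem _ fun k _ => hpoly n (p k) k
  refine ⟨?_⟩
  have h1 : (⊤ : Submodule R (Bm ⧸ T)) = Submodule.map T.mkQ (Submodule.span R G) := by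
    have := congrArg (Submodule.map T.mkQ) htop
    rw [Submodule.map_sup, Submodule.map_top, Submodule.range_mkQ] at this
    rw [← this]
    have h0 : Submodule.map T.mkQ T = ⊥ := by
      rw [eq_bot_iff]
      rintro _ ⟨y, hy, rfl⟩
      simpa using hy
    rw [h0, bot_sup_eq]
  rw [h1]
  exact (Submodule.fg_span hGfin).map _

end H1

section H0

open Polynomial IntermediateField

variable {K E : Type*} [Field K] [Field E] [Algebra K E]

theorem isIntegrallyClosed_adjoin_of_transcendental {j : E} (hj : Transcendental K j) :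
    IsIntegrallyClosed (Algebra.adjoin K {j}) := by
  have hinj : Function.Injective (aeval j : K[X] →ₐ[K] E) := transcendental_iff_injective.mp hj
  have e1 : K[X] ≃ₐ[K] (aeval j : K[X] →ₐ[K] E).range := AlgEquiv.ofInjective _ hinj
  have h2 : Algebra.adjoin K {j} = (aeval j : K[X] →ₐ[K] E).range :=
    Algebra.adjoin_singleton_eq_range_aeval K j
  exact IsIntegrallyClosed.of_equiv (e1.trans (Subalgebra.equivOfEq _ _ h2.symm)).toRingEquiv

open IntermediateField.algebraAdjoinAdjoin in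
theorem coeff_minpoly_mem_adjoin {j : E} (hj : Transcendental K j) {x : E}
    (hx : IsIntegral (Algebra.adjoin K {j}) x) (i : ℕ) :
    ((minpoly K⟮j⟯ x).map (algebraMap K⟮j⟯ E)).coeff i ∈ Algebra.adjoin K {j} := by
  have := isIntegrallyClosed_adjoin_of_transcendental hj
  rw [minpoly.isIntegrallyClosed_eq_field_fractions' K⟮j⟯ hx, Polynomial.map_map, coeff_map]
  exact ((minpoly (Algebra.adjoin K {j}) x).coeff i).2

theorem map_minpoly_congr {L₁ L₂ : IntermediateField K E} (h : L₁ = L₂) (x : E) :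
    (minpoly L₁ x).map (algebraMap L₁ E) = (minpoly L₂ x).map (algebraMap L₂ E) := by
  subst h; rfl

theorem adjoin_inv_eq_adjoin (j : E) : K⟮j⁻¹⟯ = K⟮j⟯ := by
  apply le_antisymm
  · rw [adjoin_simple_le_iff]
    exact inv_mem (mem_adjoin_simple_self K j)
  · rw [adjoin_simple_le_iff]
    have := inv_mem (mem_adjoin_simple_self K j⁻¹)
    rwa [inv_inv] at this

theorem mem_adjoin_inter {j : E} (hj : Transcendental K j) {u : E}
    (h1 : u ∈ Algebra.adjoin K {j}) (h2 : u ∈ Algebra.adjoin K {j⁻¹}) :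
    ∃ c : K, algebraMap K E c = u := by
  rw [Algebra.adjoin_singleton_eq_range_aeval] at h1 h2
  obtain ⟨P, rfl⟩ := h1
  obtain ⟨Q, hQ⟩ := h2
  have hj0 : j ≠ 0 := fun h => hj (h ▸ isAlgebraic_zero)
  have hinj : Function.Injective (aeval j : K[X] →ₐ[K] E) := transcendental_iff_injective.mp hj
  let _ : Invertible j⁻¹ := invertibleOfNonzero (inv_ne_zero hj0)
  have h3 := eval₂_reverse_mul_pow (algebraMap K E) j⁻¹ Q
  have h4 : ⅟(j⁻¹) = j := by rw [invOf_eq_inv, inv_inv]
  rw [h4] at h3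
  have h5 : aeval j (P * X ^ Q.natDegree) = aeval j Q.reverse := by
    rw [map_mul, map_pow, aeval_X]
    have : (aeval j⁻¹) Q = eval₂ (algebraMap K E) j⁻¹ Q := rfl
    have hQ' : (aeval j) P = eval₂ (algebraMap K E) j⁻¹ Q := by
      rw [← this]; exact hQ.symm
    rw [hQ', ← h3, mul_assoc, ← mul_pow, inv_mul_cancel₀ hj0, one_pow, mul_one]
    rfl
  have h6 := hinj h5
  by_cases hP : P = 0
  · exact ⟨0, by simp [hP]⟩
  have h7 : (P * X ^ Q.natDegree).natDegree = P.natDegree + Q.natDegree := by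
    rw [natDegree_mul hP (pow_ne_zero _ X_ne_zero), natDegree_X_pow]
  have h8 : Q.reverse.natDegree ≤ Q.natDegree := reverse_natDegree_le Q
  rw [← h6, h7] at h8
  have h9 : P.natDegree = 0 := by omega
  rw [natDegree_eq_zero] at h9
  obtain ⟨c, rfl⟩ := h9
  exact ⟨c, by simp⟩

open IntermediateField.algebraAdjoinAdjoin in
/-- an element which is integral over `K[j]` and over `K[1/j]` is algebraic over `K` -/
theorem isIntegral_of_isIntegral_adjoin_both {j : E} (hj : Transcendental K j) {x : E}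
    (h1 : IsIntegral (Algebra.adjoin K {j}) x) (h2 : IsIntegral (Algebra.adjoin K {j⁻¹}) x) :
    IsIntegral K x := by
  have hj' : Transcendental K j⁻¹ := by
    intro h
    exact hj (by simpa using h.inv)
  have hc : ∀ i, ∃ c : K, algebraMap K E c = ((minpoly K⟮j⟯ x).map (algebraMap K⟮j⟯ E)).coeff i := by
    intro i
    refine mem_adjoin_inter hj (coeff_minpoly_mem_adjoin hj h1 i) ?_
    rw [← map_minpoly_congr (adjoin_inv_eq_adjoin j) x]
    exact coeff_minpoly_mem_adjoin hj' h2 i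
  choose c hc using hc
  have hxL : IsIntegral K⟮j⟯ x := by
    obtain ⟨p, hp, hpx⟩ := h1
    refine ⟨p.map (algebraMap (Algebra.adjoin K {j}) K⟮j⟯), hp.map _, ?_⟩
    rw [eval₂_map]
    exact hpx
  set n := (minpoly K⟮j⟯ x).natDegree with hn
  let q : K[X] := ∑ i ∈ Finset.range (n + 1), Polynomial.monomial i (c i)
  have hq : q.map (algebraMap K E) = (minpoly K⟮j⟯ x).map (algebraMap K⟮j⟯ E) := by
    ext i
    simp only [q, Polynomial.map_sum, Polynomial.map_monomial, Polynomial.finsetSum_coeff,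
      Polynomial.coeff_monomial, hc]
    rw [Finset.sum_ite_eq']
    split_ifs with h
    · rfl
    · rw [Finset.mem_range, not_lt] at h
      rw [coeff_map, coeff_eq_zero_of_natDegree_lt (by omega), map_zero]
  have hmon : q.Monic := by
    have h1 : (q.map (algebraMap K E)).Monic := by
      rw [hq]; exact (minpoly.monic hxL).map _
    exact Polynomial.monic_of_injective (algebraMap K E).injective h1
  refine ⟨q, hmon, ?_⟩
  rw [← eval_map, hq, eval_map]
  exact minpoly.aeval K⟮j⟯ x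

variable {R : Type*} [CommRing R] [Algebra R K] [Algebra R E] [IsScalarTower R K E]

theorem isIntegral_adjoin_field_of_ring {j x : E} (h : IsIntegral (Algebra.adjoin R {j}) x) :
    IsIntegral (Algebra.adjoin K {j}) x := by
  have hle : Algebra.adjoin R {j} ≤ (Algebra.adjoin K {j}).restrictScalars R := by
    apply Algebra.adjoin_le
    intro y hy
    rw [Set.mem_singleton_iff] at hy
    rw [hy, SetLike.mem_coe, Subalgebra.mem_restrictScalars]
    exact Algebra.self_mem_adjoin_singleton K j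
  let φ : Algebra.adjoin R {j} →+* Algebra.adjoin K {j} := (Subalgebra.inclusion hle).toRingHom
  obtain ⟨p, hp, hpx⟩ := h
  refine ⟨p.map φ, hp.map _, ?_⟩
  rw [eval₂_map]
  exact hpx

theorem isIntegral_of_isIntegral_adjoin_const {j : E} (hj : Transcendental K j) {c : K}
    (h : IsIntegral (Algebra.adjoin R {j}) (algebraMap K E c)) : IsIntegral R c := by
  obtain ⟨p, hp, hpx⟩ := h
  -- lift to `R[X][T]`
  let π : R[X] →+* Algebra.adjoin R {j} :=
    ((aeval j : R[X] →ₐ[R] E).codRestrict (Algebra.adjoin R {j}) (fun P => by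
      rw [Algebra.adjoin_singleton_eq_range_aeval]; exact ⟨P, rfl⟩)).toRingHom
  have hπ : Function.Surjective π := by
    rintro ⟨y, hy⟩
    have hy' := hy
    rw [Algebra.adjoin_singleton_eq_range_aeval] at hy'
    obtain ⟨P, hP⟩ := hy'
    exact ⟨P, Subtype.ext hP⟩
  have hlift : p ∈ Polynomial.lifts π := by
    rw [Polynomial.lifts_iff_coeff_lifts]
    intro n
    exact hπ _
  obtain ⟨q, hq, -, hqm⟩ := Polynomial.lifts_and_natDegree_eq_and_monic hlift hp
  rw [← hq, eval₂_map] at hpx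
  let g : K[X] →+* E := (aeval j : K[X] →ₐ[K] E).toRingHom
  let f₁ : R[X] →+* K[X] := mapRingHom (algebraMap R K)
  have hinj : Function.Injective g := transcendental_iff_injective.mp hj
  have hcomp : (algebraMap (Algebra.adjoin R {j}) E).comp π = g.comp f₁ := by
    apply Polynomial.ringHom_ext
    · intro a
      simp [π, g, f₁, IsScalarTower.algebraMap_apply R K E]
    · simp [π, g, f₁]
  have hgc : algebraMap K E c = g (C c) := by simp [g]
  rw [hcomp, hgc, ← hom_eval₂] at hpx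
  have h0 : eval₂ f₁ (C c) q = 0 := hinj (by rw [hpx, map_zero])
  have h1 := congrArg (evalRingHom (0 : K)) h0
  rw [hom_eval₂, map_zero] at h1
  have hcomp2 : (evalRingHom (0 : K)).comp f₁ = (algebraMap R K).comp (evalRingHom (0 : R)) := by
    apply Polynomial.ringHom_ext
    · intro a; simp [f₁]
    · simp [f₁]
  rw [hcomp2] at h1
  refine ⟨q.map (evalRingHom (0 : R)), hqm.map _, ?_⟩
  rw [eval₂_map]
  simpa using h1

/-- **`H⁰ = R`.** -/
theorem exists_algebraMap_eq_of_isIntegral_both [IsDomain R] [IsIntegrallyClosed R]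
    [IsFractionRing R K] {j : E} (hj : Transcendental K j)
    (hK : ∀ y : E, IsIntegral K y → ∃ c : K, algebraMap K E c = y) {x : E}
    (h1 : IsIntegral (Algebra.adjoin R {j}) x) (h2 : IsIntegral (Algebra.adjoin R {j⁻¹}) x) :
    ∃ r : R, algebraMap R E r = x := by
  obtain ⟨c, rfl⟩ := hK x (isIntegral_of_isIntegral_adjoin_both hj
    (isIntegral_adjoin_field_of_ring h1) (isIntegral_adjoin_field_of_ring h2))
  obtain ⟨r, hr⟩ := IsIntegrallyClosed.isIntegral_iff.mp
    (isIntegral_of_isIntegral_adjoin_const hj h1)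
  exact ⟨r, by rw [IsScalarTower.algebraMap_apply R K E, hr]⟩

end H0

end Fermat.Agent.ESlib
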