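import Mathlib
import Fermat.Agent.ES.C.AKDefs
import Fermat.Agent.ES.C.AKGauss
import Fermat.Agent.ES.C.AK11Ext
import Fermat.Agent.ES.C.AK4Sep
import Fermat.Agent.ES.C.AKChart
import Fermat.Agent.ES.C.AKWrapAux
import Fermat.Agent.ES.C.Connected

/-!
# ES, AK-CORE: good charts, `Sm_abstract`, connectedness of the special fibre
-/

set_option autoImplicit false

namespace Fermat.Agent.ESlib

open Polynomial IntermediateField

universe u

section MidAux

variable {R L : Type*} [CommRing R] [Field L] [Algebra R L]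

/-- integrality over a smaller subalgebra implies integrality over a bigger one -/
theorem isIntegral_of_subalgebra_le {A A' : Subalgebra R L} (h : A ≤ A') {x : L}
    (hx : IsIntegral A x) : IsIntegral A' x := by
  obtain ⟨p, hp, hpx⟩ := hx
  refine ⟨p.map (Subalgebra.inclusion h).toRingHom, hp.map _, ?_⟩
  rw [eval₂_map]
  exact hpx

theorem exists_pow_mul_mem_adjoin_of_mid {T c : L} (hT0 : T ≠ 0)
    (hc : c ∈ Algebra.adjoin R {T, T⁻¹}) : ∃ n : ℕ, T ^ n * c ∈ Algebra.adjoin R {T} := by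
  have hT : T ∈ Algebra.adjoin R {T} := Algebra.self_mem_adjoin_singleton R T
  induction hc using Algebra.adjoin_induction with
  | mem x hx =>
    rcases hx with rfl | hx
    · exact ⟨0, by simp [hT]⟩
    · rw [Set.mem_singleton_iff] at hx
      subst hx
      exact ⟨1, by rw [pow_one, mul_inv_cancel₀ hT0]; exact one_mem _⟩
  | algebraMap r => exact ⟨0, by simp⟩
  | add x y _ _ hx hy =>
    obtain ⟨n, hn⟩ := hx
    obtain ⟨m, hm⟩ := hy
    refine ⟨n + m, ?_⟩
    have : T ^ (n + m) * (x + y) = T ^ m * (T ^ n * x) + T ^ n * (T ^ m * y) := by ring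
    rw [this]
    exact add_mem (mul_mem (pow_mem hT _) hn) (mul_mem (pow_mem hT _) hm)
  | mul x y _ _ hx hy =>
    obtain ⟨n, hn⟩ := hx
    obtain ⟨m, hm⟩ := hy
    refine ⟨n + m, ?_⟩
    have : T ^ (n + m) * (x * y) = (T ^ n * x) * (T ^ m * y) := by ring
    rw [this]
    exact mul_mem hn hm

end MidAux

/-- All the hypotheses of `chart_loc` on the chart `T` of the field `L`. -/
def GoodChart (K : Type u) {R L : Type u} (Ch : Type u) [CommRing R] [Field K] [Field L]
    [Algebra R L] [Algebra K L] [Field Ch] [Algebra K Ch] [Algebra R Ch] (π : R) (T : L) : Prop :=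
  Transcendental K T ∧ FiniteDimensional K⟮T⟯ L ∧ UnitDiff K π T ∧
    ∃ (S : Finset R) (M : R → ℕ), (∀ b ∈ S, ∀ b' ∈ S, b ≠ b' → IsUnit (b - b')) ∧
      (∀ b ∈ S, IsUnit (M b : R)) ∧ (∀ b ∈ S, ∃ ζ : K, IsPrimitiveRoot ζ (M b)) ∧
      (∀ b ∈ S, HhAt K Ch T (algebraMap R Ch b) (M b)) ∧
      (∀ b : Ch, (∀ b0 ∈ S, b ≠ algebraMap R Ch b0) → HhAt K Ch T b 1)

variable {R K L Ch : Type u} [CommRing R] [IsDomain R] [IsDiscreteValuationRing R]
    [Field K] [Algebra R K] [IsFractionRing R K] [CharZero K] [Field L] [Algebra K L] [Algebra R L]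
    [IsScalarTower R K L] [Field Ch] [CharZero Ch] [IsAlgClosed Ch] [Algebra K Ch] [Algebra R Ch]
    [IsScalarTower R K Ch]

/-- **`Sm_abstract`, element form, chart `R[T]`.** -/
theorem GoodChart.loc {π : R} (hπ : Irreducible π) {T : L} (h : GoodChart K Ch π T)
    (ε : L) (hε1 : PiInt π T ε) (hε : IntModPi π T ε) :
    ∃ e : L, IsIntegral (Algebra.adjoin R {T}) e ∧ PiInt π T ((e - ε) / algebraMap R L π) := by
  obtain ⟨hT, hfin, hU, S, M, hS, hMu, hMζ, hhS, hh⟩ := h
  exact chart_loc hπ T hT hU S M hS hMu hMζ hhS hh ε hε1 hε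

/-- `z` integral over `R[T, T⁻¹]` ⟹ `T ^ n z` integral over `R[T]` for `n` large. -/
theorem exists_pow_mul_isIntegral_of_mid {T z : L} (hT0 : T ≠ 0)
    (hz : IsIntegral (Algebra.adjoin R {T, T⁻¹}) z) :
    ∃ n : ℕ, IsIntegral (Algebra.adjoin R {T}) (T ^ n * z) := by
  have hle : Algebra.adjoin R {T} ≤ Algebra.adjoin R {T, T⁻¹} :=
    Algebra.adjoin_mono (by simp)
  let _ : Algebra (Algebra.adjoin R {T}) (Algebra.adjoin R {T, T⁻¹}) :=
    (Subalgebra.inclusion hle).toRingHom.toAlgebra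
  have hst : IsScalarTower (Algebra.adjoin R {T}) (Algebra.adjoin R {T, T⁻¹}) L :=
    IsScalarTower.of_algebraMap_eq fun _ => rfl
  let τ : Algebra.adjoin R {T} := ⟨T, Algebra.self_mem_adjoin_singleton R T⟩
  have hloc : IsLocalization (Submonoid.powers τ) (Algebra.adjoin R {T, T⁻¹}) := by
    refine ⟨?_, ?_, ?_⟩
    · rintro ⟨_, n, rfl⟩
      refine IsUnit.of_mul_eq_one (⟨T⁻¹, Algebra.subset_adjoin (by simp)⟩ ^ n) ?_
      apply Subtype.ext
      change T ^ n * T⁻¹ ^ n = 1
      rw [← mul_pow, mul_inv_cancel₀ hT0, one_pow]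
    · intro c
      obtain ⟨n, hn⟩ := exists_pow_mul_mem_adjoin_of_mid hT0 c.2
      refine ⟨(⟨_, hn⟩, ⟨τ ^ n, n, rfl⟩), Subtype.ext ?_⟩
      change (c : L) * T ^ n = T ^ n * c
      rw [mul_comm]
    · intro x y hxy
      refine ⟨1, ?_⟩
      have : (x : L) = y := congrArg (fun w : Algebra.adjoin R {T, T⁻¹} => (w : L)) hxy
      rw [Subtype.ext this]
  obtain ⟨⟨_, n, rfl⟩, hm⟩ := IsIntegral.exists_multiple_integral_of_isLocalization
    (Submonoid.powers τ) z hz
  exact ⟨n, hm⟩

theorem isIntegral_mid_of_isIntegral {T z : L} (hz : IsIntegral (Algebra.adjoin R {T}) z) :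
    IsIntegral (Algebra.adjoin R {T, T⁻¹}) z :=
  isIntegral_of_subalgebra_le (Algebra.adjoin_mono (by simp)) hz

theorem isIntegral_mid_of_isIntegral_inv {T z : L} (hz : IsIntegral (Algebra.adjoin R {T⁻¹}) z) :
    IsIntegral (Algebra.adjoin R {T, T⁻¹}) z :=
  isIntegral_of_subalgebra_le (Algebra.adjoin_mono (by simp)) hz


theorem isIntegral_self_adjoin (T : L) : IsIntegral (Algebra.adjoin R {T}) T :=
  isIntegral_algebraMap (R := Algebra.adjoin R {T})
    (x := ⟨T, Algebra.self_mem_adjoin_singleton R T⟩)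

theorem isIntegral_inv_mid (T : L) : IsIntegral (Algebra.adjoin R {T, T⁻¹}) T⁻¹ :=
  isIntegral_algebraMap (R := Algebra.adjoin R {T, T⁻¹})
    (x := ⟨T⁻¹, Algebra.subset_adjoin (by simp)⟩)

/-- saturation for the chart `R[T, T⁻¹]` -/
theorem isIntegral_mid_of_piInt {π : R} (hπ : Irreducible π) {T : L} (hT : Transcendental K T)
    {x : L} (hx : PiInt π T x)
    (h : IsIntegral (Algebra.adjoin R {T, T⁻¹}) (algebraMap R L π * x)) :
    IsIntegral (Algebra.adjoin R {T, T⁻¹}) x := by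
  have hT0 : T ≠ 0 := fun h0 => hT (h0 ▸ isAlgebraic_zero)
  obtain ⟨n, hn⟩ := exists_pow_mul_isIntegral_of_mid hT0 h
  have h1 : IsIntegral (Algebra.adjoin R {T}) (T ^ n * x) := by
    refine isIntegral_of_piInt (K := K) hπ.prime hT ?_ ?_
    · exact PiInt.mul hπ.prime (PiInt.of_isIntegral hπ.prime ((isIntegral_self_adjoin T).pow n)) hx
    · rwa [mul_left_comm]
  have h2 : x = T⁻¹ ^ n * (T ^ n * x) := by
    rw [← mul_assoc, ← mul_pow, inv_mul_cancel₀ hT0, one_pow, one_mul]
  rw [h2]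
  exact ((isIntegral_inv_mid T).pow n).mul (isIntegral_mid_of_isIntegral h1)

/-- **`Sm_abstract`, element form, chart `R[T, T⁻¹]`.**  (Multiply `ε` by a power of `T`.) -/
theorem GoodChart.loc_mid {π : R} (hπ : Irreducible π) {T : L} (h : GoodChart K Ch π T)
    (ε : L) (hε1 : PiInt π T ε)
    (hε : ∃ p : L[X], p.Monic ∧ (∀ i, IsIntegral (Algebra.adjoin R {T, T⁻¹}) (p.coeff i)) ∧
      PiInt π T (p.eval ε / algebraMap R L π)) :
    ∃ e : L, IsIntegral (Algebra.adjoin R {T, T⁻¹}) e ∧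
      PiInt π T ((e - ε) / algebraMap R L π) := by
  have hT : Transcendental K T := h.1
  have hT0 : T ≠ 0 := fun h0 => hT (h0 ▸ isAlgebraic_zero)
  have hTint : ∀ n : ℕ, IsIntegral (Algebra.adjoin R {T}) (T ^ n) := fun n =>
    (isIntegral_self_adjoin T).pow n
  have hTpi : ∀ n : ℕ, PiInt π T (T ^ n) := fun n => PiInt.of_isIntegral hπ.prime (hTint n)
  obtain ⟨p, hp, hc, hpε⟩ := hε
  choose n hn using fun i => exists_pow_mul_isIntegral_of_mid hT0 (hc i)
  set N : ℕ := (Finset.range (p.natDegree + 1)).sup n with hN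
  have hnN : ∀ i, i ≤ p.natDegree → ∀ m, N ≤ m →
      IsIntegral (Algebra.adjoin R {T}) (p.coeff i * T ^ m) := by
    intro i hi m hm
    have h1 : n i ≤ N := Finset.le_sup (f := n) (Finset.mem_range.2 (Nat.lt_succ_of_le hi))
    have h2 : p.coeff i * T ^ m = T ^ (m - n i) * (T ^ n i * p.coeff i) := by
      rw [← mul_assoc, ← pow_add, Nat.sub_add_cancel (h1.trans hm), mul_comm]
    rw [h2]
    exact (hTint _).mul (hn i)
  have hε' : IntModPi π T (T ^ N * ε) := by
    refine ⟨p.scaleRoots (T ^ N), (monic_scaleRoots_iff _).2 hp, fun i => ?_, ?_⟩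
    · rw [coeff_scaleRoots]
      rcases lt_trichotomy i p.natDegree with hi | hi | hi
      · rw [← pow_mul]
        refine hnN i hi.le _ ?_
        exact Nat.le_mul_of_pos_right _ (Nat.sub_pos_of_lt hi)
      · rw [hi, Nat.sub_self, pow_zero, mul_one, hp.coeff_natDegree]
        exact isIntegral_one
      · rw [coeff_eq_zero_of_natDegree_lt hi, zero_mul]
        exact isIntegral_zero
    · have h1 : (p.scaleRoots (T ^ N)).eval (T ^ N * ε) = (T ^ N) ^ p.natDegree * p.eval ε := by
        have := scaleRoots_eval₂_mul (RingHom.id L) ε (T ^ N) (p := p)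
        simpa [eval₂_id] using this
      rw [h1, mul_div_assoc, ← pow_mul]
      exact PiInt.mul hπ.prime (hTpi _) hpε
  obtain ⟨e', he', he''⟩ := h.loc hπ (T ^ N * ε) (PiInt.mul hπ.prime (hTpi N) hε1) hε'
  refine ⟨T⁻¹ ^ N * e', ((isIntegral_inv_mid T).pow N).mul (isIntegral_mid_of_isIntegral he'), ?_⟩
  have h3 : (T⁻¹ ^ N * e' - ε) / algebraMap R L π =
      (aeval T (X ^ N : R[X]))⁻¹ * ((e' - T ^ N * ε) / algebraMap R L π) := by
    rw [map_pow, aeval_X, ← mul_div_assoc, mul_sub, ← mul_assoc, inv_mul_cancel₀ (pow_ne_zero N hT0),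
      one_mul, inv_pow]
  rw [h3]
  refine PiInt.mul hπ.prime (PiInt.inv_aeval ?_) he''
  intro hdvd
  have h4 := (C_dvd_iff_dvd_coeff _ _).1 hdvd N
  rw [coeff_X_pow_self] at h4
  exact hπ.not_isUnit (isUnit_of_dvd_one h4)

/-- `C π ∣ p.reverse ↔ C π ∣ p`. -/
theorem C_dvd_reverse_iff {A : Type*} [CommRing A] (π : A) (p : A[X]) :
    C π ∣ p.reverse ↔ C π ∣ p := by
  rw [C_dvd_iff_dvd_coeff, C_dvd_iff_dvd_coeff]
  constructor
  · intro h i
    have := h (revAt p.natDegree i)
    rwa [coeff_reverse, revAt_invol] at this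
  · intro h i
    rw [coeff_reverse]
    exact h _

/-- A valuation ring dominating the Gauss ring of the chart `T⁻¹` dominates that of `T`. -/
theorem GaussDom.of_inv {A L' Ω : Type*} [CommRing A] [Field L'] [Algebra A L'] [Field Ω] {π : A}
    (hπ : ¬ IsUnit π) {T : L'} (hT0 : T ≠ 0) {V : ValuationSubring Ω} {σ : L' →+* Ω}
    (h : GaussDom π T⁻¹ V σ) : GaussDom π T V σ := by
  have hX : V.valuation (σ T⁻¹) = 1 := by
    have h1 := h X
    rw [aeval_X] at h1
    refine le_antisymm h1.1 (not_lt.1 fun hlt => ?_)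
    have h2 := h1.2.1 hlt
    rw [C_dvd_iff_dvd_coeff] at h2
    have h3 := h2 1
    rw [coeff_X_one] at h3
    exact hπ (isUnit_of_dvd_one h3)
  have hT1 : V.valuation (σ T) = 1 := by
    rw [map_inv₀, map_inv₀, inv_eq_one] at hX
    exact hX
  have key : ∀ p : A[X], V.valuation (σ (aeval T p)) = V.valuation (σ (aeval T⁻¹ p.reverse)) := by
    intro p
    letI : Invertible T := invertibleOfNonzero hT0
    have h1 := eval₂_reverse_mul_pow (algebraMap A L') T p
    rw [invOf_eq_inv] at h1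
    rw [aeval_def, aeval_def, ← h1, map_mul, map_mul, map_pow, map_pow, hT1, one_pow, mul_one]
  intro p
  rw [key p, ← C_dvd_reverse_iff]
  exact h p.reverse

/-- `UnitDiff` for the chart `T⁻¹`. -/
theorem UnitDiff.inv {π : R} (hπ : Irreducible π) {T : L} (hT : Transcendental K T)
    (h : UnitDiff K π T) : UnitDiff K π T⁻¹ := by
  intro Ω _ _ V σ σ' hσ hV hne
  have hT0 : T ≠ 0 := by
    rintro rfl
    exact hT isAlgebraic_zero
  have hσT : σ T = σ' T := by
    rw [map_inv₀, map_inv₀] at hσ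
    exact inv_injective hσ
  obtain ⟨c, hc, hcv⟩ := h Ω V σ σ' hσT (GaussDom.of_inv hπ.not_isUnit hT0 hV) hne
  exact ⟨c, (piInt_inv_iff hπ.prime hT).2 hc, hcv⟩

/-- The chart at infinity.  Special points of `T`: `0` and the units `a ∈ S`; special points of
`T⁻¹`: `0` and the `a⁻¹`. -/
theorem GoodChart.inv {π : R} (hπ : Irreducible π) {T : L} (hT : Transcendental K T)
    [FiniteDimensional K⟮T⟯ L] (hU : UnitDiff K π T) (S : Finset R) (M : R → ℕ)
    (hS0 : ∀ b ∈ S, IsUnit b) (hS : ∀ b ∈ S, ∀ b' ∈ S, b ≠ b' → IsUnit (b - b'))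
    (hMu : ∀ b ∈ S, IsUnit (M b : R)) (hMζ : ∀ b ∈ S, ∃ ζ : K, IsPrimitiveRoot ζ (M b))
    (hhS : ∀ b ∈ S, HhAt K Ch T (algebraMap R Ch b) (M b))
    (hh : ∀ b : Ch, b ≠ 0 → (∀ b0 ∈ S, b ≠ algebraMap R Ch b0) → HhAt K Ch T b 1)
    (Minf : ℕ) (hMinf : IsUnit (Minf : R)) (hζinf : ∃ ζ : K, IsPrimitiveRoot ζ Minf)
    (hinf : HhAt K Ch T⁻¹ 0 Minf) : GoodChart K Ch π T⁻¹ := by
  classical
  have hpos : ∀ n : ℕ, IsUnit (n : R) → 0 < n := by
    intro n hn
    rcases Nat.eq_zero_or_pos n with h0 | h0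
    · subst h0
      simp at hn
    · exact h0
  have halg : ∀ b : R, IsUnit b → algebraMap R Ch (Ring.inverse b) = (algebraMap R Ch b)⁻¹ := by
    intro b hb
    have h1 : algebraMap R Ch b * algebraMap R Ch (Ring.inverse b) = 1 := by
      rw [← map_mul, Ring.mul_inverse_cancel _ hb, map_one]
    exact eq_inv_of_mul_eq_one_right h1
  have halg0 : ∀ b : R, IsUnit b → algebraMap R Ch b ≠ 0 := fun b hb => (hb.map _).ne_zero
  have hinvinv : ∀ b : R, IsUnit b → Ring.inverse (Ring.inverse b) = b := by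
    intro b hb
    obtain ⟨u, rfl⟩ := hb
    rw [Ring.inverse_unit, Ring.inverse_unit, inv_inv]
  have hinvu : ∀ b : R, IsUnit b → IsUnit (Ring.inverse b) := by
    intro b hb
    obtain ⟨u, rfl⟩ := hb
    rw [Ring.inverse_unit]
    exact Units.isUnit _
  refine ⟨?_, ?_, hU.inv hπ hT, insert 0 (S.image Ring.inverse),
    fun c => if c = 0 then Minf else M (Ring.inverse c), ?_, ?_, ?_, ?_, ?_⟩
  · intro h
    exact hT (IsAlgebraic.inv_iff.1 h)
  · rw [adjoin_inv_eq_adjoin]
    infer_instance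
  · -- differences are units
    have h0u : ∀ c ∈ S.image Ring.inverse, IsUnit c := by
      intro c hc
      obtain ⟨b, hb, rfl⟩ := Finset.mem_image.1 hc
      exact hinvu b (hS0 b hb)
    intro c hc c' hc' hne
    rcases Finset.mem_insert.1 hc with rfl | hc
    · rcases Finset.mem_insert.1 hc' with rfl | hc'
      · exact absurd rfl hne
      · rw [zero_sub]
        exact (h0u c' hc').neg
    · rcases Finset.mem_insert.1 hc' with rfl | hc'
      · rw [sub_zero]
        exact h0u c hc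
      · obtain ⟨b, hb, rfl⟩ := Finset.mem_image.1 hc
        obtain ⟨b', hb', rfl⟩ := Finset.mem_image.1 hc'
        have hbb' : b' ≠ b := by
          rintro rfl
          exact hne rfl
        have h1 : Ring.inverse b - Ring.inverse b' =
            (b' - b) * (Ring.inverse b * Ring.inverse b') := by
          have e1 := Ring.mul_inverse_cancel _ (hS0 b hb)
          have e2 := Ring.mul_inverse_cancel _ (hS0 b' hb')
          calc Ring.inverse b - Ring.inverse b'
              = (b' * Ring.inverse b') * Ring.inverse b -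
                (b * Ring.inverse b) * Ring.inverse b' := by rw [e1, e2, one_mul, one_mul]
            _ = _ := by ring
        rw [h1]
        exact (hS b' hb' b hb hbb').mul ((hinvu b (hS0 b hb)).mul (hinvu b' (hS0 b' hb')))
  · intro c hc
    rcases Finset.mem_insert.1 hc with rfl | hc
    · simpa using hMinf
    · obtain ⟨b, hb, rfl⟩ := Finset.mem_image.1 hc
      beta_reduce
      rw [if_neg (hinvu b (hS0 b hb)).ne_zero, hinvinv b (hS0 b hb)]
      exact hMu b hb
  · intro c hc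
    rcases Finset.mem_insert.1 hc with rfl | hc
    · simpa using hζinf
    · obtain ⟨b, hb, rfl⟩ := Finset.mem_image.1 hc
      beta_reduce
      rw [if_neg (hinvu b (hS0 b hb)).ne_zero, hinvinv b (hS0 b hb)]
      exact hMζ b hb
  · intro c hc
    rcases Finset.mem_insert.1 hc with rfl | hc
    · simpa using hinf
    · obtain ⟨b, hb, rfl⟩ := Finset.mem_image.1 hc
      beta_reduce
      rw [if_neg (hinvu b (hS0 b hb)).ne_zero, hinvinv b (hS0 b hb), halg b (hS0 b hb)]
      exact (hhS b hb).inv (halg0 b (hS0 b hb)) (hpos _ (hMu b hb))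
  · intro b hb
    have hb0 : b ≠ 0 := by
      have := hb 0 (Finset.mem_insert_self _ _)
      rwa [map_zero] at this
    have h1 : ∀ b0 ∈ S, b⁻¹ ≠ algebraMap R Ch b0 := by
      intro b0 hb0S hEq
      apply hb (Ring.inverse b0) (Finset.mem_insert_of_mem (Finset.mem_image_of_mem _ hb0S))
      rw [halg b0 (hS0 b0 hb0S), ← hEq, inv_inv]
    have h2 := (hh b⁻¹ (inv_ne_zero hb0) h1).inv (inv_ne_zero hb0) one_pos
    rwa [inv_inv] at h2

/-- The integral closure of `R[t]` in `L` is a finitely generated `R[t]`-module. -/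
theorem exists_finite_gens_isIntegral (t : L) (ht : Transcendental K t)
    [FiniteDimensional K⟮t⟯ L] :
    ∃ (n : ℕ) (g : Fin n → L), (∀ k, IsIntegral (Algebra.adjoin R {t}) (g k)) ∧
      ∀ x, IsIntegral (Algebra.adjoin R {t}) x →
        ∃ p : Fin n → R[X], x = ∑ k, aeval t (p k) * g k := by
  let _ : Algebra R[X] K⟮t⟯ := polyAlgebra (R := R) K t
  let _ : Algebra R[X] L := ((aeval t : R[X] →ₐ[R] L) : R[X] →+* L).toAlgebra
  have hst : IsScalarTower R[X] K⟮t⟯ L := IsScalarTower.of_algebraMap_eq fun p =>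
    (polyAlgebra_algebraMap_coe (K := K) t p).symm
  have hfr : IsFractionRing R[X] K⟮t⟯ := isFractionRing_polyAlgebra ht
  have hfin : Module.Finite R[X] (integralClosure R[X] L) :=
    IsIntegralClosure.finite R[X] K⟮t⟯ L (integralClosure R[X] L)
  obtain ⟨n, s, hs⟩ := Module.Finite.exists_fin (R := R[X]) (M := integralClosure R[X] L)
  refine ⟨n, fun k => (s k : L), fun k => (isIntegral_adjoin_singleton_iff t _).2 (s k).2,
    fun x hx => ?_⟩
  have hx' : IsIntegral R[X] x := (isIntegral_adjoin_singleton_iff t x).1 hx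
  have hmem : (⟨x, hx'⟩ : integralClosure R[X] L) ∈ Submodule.span R[X] (Set.range s) := by
    rw [hs]
    exact Submodule.mem_top
  obtain ⟨c, hc⟩ := (Submodule.mem_span_range_iff_exists_fun R[X]).1 hmem
  refine ⟨c, ?_⟩
  have h1 := congrArg (fun w : integralClosure R[X] L => (w : L)) hc
  simp only [AddSubmonoidClass.coe_finsetSum] at h1
  rw [← h1]
  rfl


/-- **AK9-glue**: helper7's `idempotent_trivial` + `finite_H1` + `exists_algebraMap_eq_of_isIntegral_both`
instantiated with `Bm` = integral closure of `R[t, t⁻¹]`, `Bf`, `Bi` = those of `R[t]`, `R[t⁻¹]`. -/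
theorem connected_charts {π : R} (hπ : Irreducible π) (t : L) (ht : Transcendental K t)
    [FiniteDimensional K⟮t⟯ L]
    (hK : ∀ y : L, IsIntegral K y → ∃ c : K, algebraMap K L c = y) {a b : L}
    (ha : IsIntegral (Algebra.adjoin R {t}) a) (hb : IsIntegral (Algebra.adjoin R {t⁻¹}) b)
    (haa : IsIntegral (Algebra.adjoin R {t}) ((a ^ 2 - a) / algebraMap R L π))
    (hbb : IsIntegral (Algebra.adjoin R {t⁻¹}) ((b ^ 2 - b) / algebraMap R L π))
    (hab : IsIntegral (Algebra.adjoin R {t, t⁻¹}) ((a - b) / algebraMap R L π)) :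
    IsIntegral (Algebra.adjoin R {t}) (a / algebraMap R L π) ∨
      IsIntegral (Algebra.adjoin R {t}) ((1 - a) / algebraMap R L π) := by
  classical
  have ht0 : t ≠ 0 := fun h0 => ht (h0 ▸ isAlgebraic_zero)
  have hπ0 : π ≠ 0 := hπ.ne_zero
  have hπL : algebraMap R L π ≠ 0 := by
    rw [IsScalarTower.algebraMap_apply R K L]
    simpa using hπ0
  let Cf : Subalgebra R L := (integralClosure (Algebra.adjoin R {t}) L).restrictScalars R
  let Ci : Subalgebra R L := (integralClosure (Algebra.adjoin R {t⁻¹}) L).restrictScalars R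
  let Cm : Subalgebra R L := (integralClosure (Algebra.adjoin R {t, t⁻¹}) L).restrictScalars R
  have hfm : ∀ x, IsIntegral (Algebra.adjoin R {t}) x → x ∈ Cm := fun x hx =>
    isIntegral_mid_of_isIntegral hx
  have him : ∀ x, IsIntegral (Algebra.adjoin R {t⁻¹}) x → x ∈ Cm := fun x hx =>
    isIntegral_mid_of_isIntegral_inv hx
  let Bf : Subalgebra R Cm := Cf.comap Cm.val
  let Bi : Subalgebra R Cm := Ci.comap Cm.val
  have hBf : ∀ x : Cm, x ∈ Bf ↔ IsIntegral (Algebra.adjoin R {t}) (x : L) := fun x => Iff.rfl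
  have hBi : ∀ x : Cm, x ∈ Bi ↔ IsIntegral (Algebra.adjoin R {t⁻¹}) (x : L) := fun x => Iff.rfl
  have htf : IsIntegral (Algebra.adjoin R {t}) t := isIntegral_self_adjoin t
  have hti : IsIntegral (Algebra.adjoin R {t⁻¹}) t⁻¹ := isIntegral_self_adjoin t⁻¹
  let j : Cm := ⟨t, hfm t htf⟩
  let j' : Cm := ⟨t⁻¹, him _ hti⟩
  have hjj : j * j' = 1 := Subtype.ext (mul_inv_cancel₀ ht0)
  obtain ⟨n, g, hg, hgen⟩ := exists_finite_gens_isIntegral (R := R) (K := K) t ht
  let β : Fin n → Cm := fun k => ⟨g k, hfm _ (hg k)⟩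
  have haev : ∀ p : R[X], ((aeval j p : Cm) : L) = aeval t p := fun p =>
    (aeval_algHom_apply Cm.val j p).symm
  have hspan : ∀ x ∈ Bf, ∃ p : Fin n → R[X], x = ∑ᶠ k, aeval j (p k) * β k := by
    intro x hx
    obtain ⟨p, hp⟩ := hgen x ((hBf x).1 hx)
    refine ⟨p, Subtype.ext ?_⟩
    rw [finsum_eq_sum_of_fintype, hp, AddSubmonoidClass.coe_finsetSum]
    refine Finset.sum_congr rfl fun k _ => ?_
    rw [Subalgebra.coe_mul, haev]
  choose s hs using fun k => exists_isIntegral_inv_pow_mul (R := R) ht0 (hg k)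
  have hH1 : Module.Finite R (Cm ⧸ (Subalgebra.toSubmodule Bf ⊔ Subalgebra.toSubmodule Bi)) := by
    refine finite_H1 Bf Bi hjj htf hti β (fun k => hg k) hspan (Finset.univ.sup s) (fun k => ?_)
      (fun x => ?_)
    · exact hs k _ (Finset.le_sup (f := s) (Finset.mem_univ k))
    · obtain ⟨m, hm⟩ := exists_pow_mul_isIntegral_of_mid ht0 x.2
      exact ⟨m, hm⟩
  have hH0 : ∀ x, x ∈ Bf → x ∈ Bi → ∃ r : R, algebraMap R Cm r = x := by
    intro x h1 h2
    obtain ⟨r, hr⟩ := exists_algebraMap_eq_of_isIntegral_both ht hK h1 h2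
    exact ⟨r, Subtype.ext hr⟩
  have h1 : ¬ ∃ y ∈ Bf, (1 : Cm) = algebraMap R Cm π * y := by
    rintro ⟨y, hy, h1⟩
    have h2 : (1 : L) = algebraMap R L π * y := congrArg (fun w : Cm => (w : L)) h1
    have h3 : (y : L) = algebraMap K L (algebraMap R K π)⁻¹ := by
      rw [map_inv₀, ← IsScalarTower.algebraMap_apply]
      exact eq_inv_of_mul_eq_one_right h2.symm
    have h4 : IsIntegral (Algebra.adjoin R {t}) (algebraMap K L (algebraMap R K π)⁻¹) := h3 ▸ hy
    obtain ⟨r, hr⟩ := IsIntegrallyClosed.isIntegral_iff.mp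
      (isIntegral_of_isIntegral_adjoin_const ht h4)
    apply hπ.not_isUnit
    refine IsUnit.of_mul_eq_one r ?_
    apply IsFractionRing.injective R K
    rw [map_mul, hr, map_one, mul_inv_cancel₀]
    simpa using hπ0
  have hdiv : ∀ x : L, x = algebraMap R L π * (x / algebraMap R L π) := fun x =>
    (mul_div_cancel₀ x hπL).symm
  have key := idempotent_trivial hπ Bf Bi hH0 hH1 h1 (a := ⟨a, hfm a ha⟩) (b := ⟨b, him b hb⟩)
    ha hb ⟨⟨_, hfm _ haa⟩, haa, Subtype.ext (hdiv _)⟩ ⟨⟨_, him _ hbb⟩, hbb, Subtype.ext (hdiv _)⟩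
    ⟨⟨_, hab⟩, Subtype.ext (hdiv _)⟩
  rcases key with ⟨⟨y, hy, hay⟩, -⟩ | ⟨⟨y, hy, hay⟩, -⟩
  · left
    have h2 : a = algebraMap R L π * y := congrArg (fun w : Cm => (w : L)) hay
    rw [h2, mul_div_cancel_left₀ _ hπL]
    exact hy
  · right
    have h2 : 1 - a = algebraMap R L π * y := congrArg (fun w : Cm => (w : L)) hay
    rw [h2, mul_div_cancel_left₀ _ hπL]
    exact hy

/-- **AK-CORE**: the special fibre is connected: no non trivial idempotent modulo `π C`.
(`GoodChart.loc` in both charts gives `e_f`, `e_i`; saturation (`isIntegral_of_piInt`,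
`isIntegral_mid_of_piInt`, `piInt_inv_iff`) gives the hypotheses of `connected_charts`.) -/
theorem core_idempotent {π : R} (hπ : Irreducible π) {t : L} (h : GoodChart K Ch π t)
    (h' : GoodChart K Ch π t⁻¹)
    (hK : ∀ y : L, IsIntegral K y → ∃ c : K, algebraMap K L c = y)
    (ε : L) (hε1 : PiInt π t ε) (hε : PiInt π t ((ε ^ 2 - ε) / algebraMap R L π)) :
    PiInt π t (ε / algebraMap R L π) ∨ PiInt π t ((1 - ε) / algebraMap R L π) := by
  have hp : Prime π := hπ.prime
  have ht : Transcendental K t := h.1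
  have ht' : Transcendental K t⁻¹ := h'.1
  haveI : FiniteDimensional K⟮t⟯ L := h.2.1
  have hπ0 : algebraMap R L π ≠ 0 := by
    rw [IsScalarTower.algebraMap_apply R K L]
    simpa using hπ.ne_zero
  -- `ε` is integral modulo `π` in both charts
  have hmod : ∀ T : L, PiInt π T ((ε ^ 2 - ε) / algebraMap R L π) → IntModPi π T ε := by
    intro T hT
    refine ⟨X ^ 2 - X, ?_, ?_, ?_⟩
    · exact monic_X_pow_sub (by simp)
    · intro i
      have : (X ^ 2 - X : L[X]).coeff i =
          algebraMap (Algebra.adjoin R {T}) L ((X ^ 2 - X : (Algebra.adjoin R {T})[X]).coeff i) := by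
        simp only [coeff_sub, coeff_X_pow, coeff_X, map_sub]
        split_ifs <;> simp
      rw [this]
      exact isIntegral_algebraMap
    · simpa using hT
  have hε1' : PiInt π t⁻¹ ε := (piInt_inv_iff hp ht).2 hε1
  have hε' : PiInt π t⁻¹ ((ε ^ 2 - ε) / algebraMap R L π) := (piInt_inv_iff hp ht).2 hε
  obtain ⟨a, ha, hau⟩ := h.loc hπ ε hε1 (hmod t hε)
  obtain ⟨b, hb, hbu'⟩ := h'.loc hπ ε hε1' (hmod t⁻¹ hε')
  have hbu : PiInt π t ((b - ε) / algebraMap R L π) := (piInt_inv_iff hp ht).1 hbu'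
  -- idempotency modulo `π`
  have hidem : ∀ (T c : L), PiInt π T ε → PiInt π T ((ε ^ 2 - ε) / algebraMap R L π) →
      IsIntegral (Algebra.adjoin R {T}) c → PiInt π T ((c - ε) / algebraMap R L π) →
      PiInt π T ((c ^ 2 - c) / algebraMap R L π) := by
    intro T c h1 h2 hc h3
    have : (c ^ 2 - c) / algebraMap R L π = (ε ^ 2 - ε) / algebraMap R L π +
        (c - ε) / algebraMap R L π * (c + ε - 1) := by
      field_simp
      ring
    rw [this]
    refine h2.add hp (h3.mul hp ?_)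
    exact ((PiInt.of_isIntegral hp hc).add hp h1).sub hp (PiInt.of_isIntegral hp isIntegral_one)
  have haa : IsIntegral (Algebra.adjoin R {t}) ((a ^ 2 - a) / algebraMap R L π) := by
    refine isIntegral_of_piInt hp ht (hidem t a hε1 hε ha hau) ?_
    rw [mul_div_cancel₀ _ hπ0]
    exact (ha.pow 2).sub ha
  have hbb : IsIntegral (Algebra.adjoin R {t⁻¹}) ((b ^ 2 - b) / algebraMap R L π) := by
    refine isIntegral_of_piInt hp ht' (hidem t⁻¹ b hε1' hε' hb hbu') ?_
    rw [mul_div_cancel₀ _ hπ0]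
    exact (hb.pow 2).sub hb
  have hab : IsIntegral (Algebra.adjoin R {t, t⁻¹}) ((a - b) / algebraMap R L π) := by
    refine isIntegral_mid_of_piInt hπ ht ?_ ?_
    · have : (a - b) / algebraMap R L π =
          (a - ε) / algebraMap R L π - (b - ε) / algebraMap R L π := by
        field_simp
        ring
      rw [this]
      exact hau.sub hp hbu
    · rw [mul_div_cancel₀ _ hπ0]
      exact (isIntegral_mid_of_isIntegral ha).sub (isIntegral_mid_of_isIntegral_inv hb)
  rcases connected_charts hπ t ht hK ha hb haa hbb hab with h0 | h1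
  · left
    have : ε / algebraMap R L π = a / algebraMap R L π - (a - ε) / algebraMap R L π := by
      field_simp
      ring
    rw [this]
    exact (PiInt.of_isIntegral hp h0).sub hp hau
  · right
    have : (1 - ε) / algebraMap R L π =
        (1 - a) / algebraMap R L π + (a - ε) / algebraMap R L π := by
      field_simp
      ring
    rw [this]
    exact (PiInt.of_isIntegral hp h1).add hp hau

end Fermat.Agent.ESlib
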