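import Mathlib
import Fermat.Agent.ES.C.AKDefs
import Fermat.Agent.ES.C.AKGauss
import Fermat.Agent.ES.C.AK11Ext
import Fermat.Agent.ES.C.AK4Sep
import Fermat.Agent.ES.C.AKCore

/-!
# ES, AK12: the abstract KIL (direct route through `E = F(y)`)
-/

set_option autoImplicit false

namespace Fermat.Agent.ESlib

open Polynomial IntermediateField

universe u

/-- integrality over `R[T]` is transported by an `R`-algebra homomorphism -/
theorem ak12_isIntegral_adjoin_singleton_map {R A B : Type*} [CommRing R] [CommRing A] [CommRing B]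
    [Algebra R A] [Algebra R B] (φ : A →ₐ[R] B) {T z : A}
    (h : IsIntegral (Algebra.adjoin R {T}) z) : IsIntegral (Algebra.adjoin R {φ T}) (φ z) := by
  obtain ⟨p, hp, hpz⟩ := h
  have hmem : ∀ x : Algebra.adjoin R {T}, φ x ∈ Algebra.adjoin R {φ T} := by
    intro x
    rw [← AlgHom.map_adjoin_singleton]
    exact ⟨x, x.2, rfl⟩
  let g : Algebra.adjoin R {T} →+* Algebra.adjoin R {φ T} :=
    ((φ.comp (Algebra.adjoin R {T}).val).codRestrict (Algebra.adjoin R {φ T}) hmem).toRingHom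
  refine ⟨p.map g, hp.map g, ?_⟩
  rw [eval₂_map]
  have h1 : (algebraMap (Algebra.adjoin R {φ T}) B).comp g =
      (φ : A →+* B).comp (algebraMap (Algebra.adjoin R {T}) A) := by
    ext x
    rfl
  rw [h1]
  have h2 := hom_eval₂ p (algebraMap (Algebra.adjoin R {T}) A) (φ : A →+* B) z
  rw [hpz, map_zero] at h2
  exact h2.symm

section Aux

variable {R L : Type*} [CommRing R] [IsDomain R] [Field L] [Algebra R L] {π : R} {T : L}

theorem ak12_piInt_algebraMap (hπ : Prime π) (c : R) : PiInt π T (algebraMap R L c) := by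
  refine PiInt.of_isIntegral hπ ?_
  exact isIntegral_algebraMap (R := Algebra.adjoin R {T}) (x := algebraMap R _ c)

theorem ak12_piInt_sum (hπ : Prime π) {ι : Type*} (s : Finset ι) (g : ι → L)
    (h : ∀ i ∈ s, PiInt π T (g i)) : PiInt π T (∑ i ∈ s, g i) := by
  refine Finset.sum_induction g (PiInt π T) (fun a b => PiInt.add hπ) ?_ h
  exact PiInt.of_isIntegral hπ isIntegral_zero

end Aux

section ValAux

variable {Ω : Type*} [Field Ω] (V : ValuationSubring Ω)

theorem ak12_valuation_pow_sub_pow_lt_one {x z : Ω} (hz : V.valuation z ≤ 1)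
    (h : V.valuation (x - z) < 1) (k : ℕ) : V.valuation (x ^ k - z ^ k) < 1 := by
  have hx : V.valuation x ≤ 1 := by
    have : x = (x - z) + z := by ring
    rw [this]
    exact (V.valuation.map_add _ _).trans (max_le h.le hz)
  induction k with
  | zero => simp
  | succ k ih =>
    have h1 : x ^ (k + 1) - z ^ (k + 1) = x ^ k * (x - z) + (x ^ k - z ^ k) * z := by ring
    rw [h1]
    refine V.valuation.map_add_lt ?_ ?_
    · rw [map_mul, map_pow]
      exact mul_lt_of_le_one_of_lt (pow_le_one' hx k) h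
    · rw [map_mul]
      exact mul_lt_of_lt_of_le_one ih hz

theorem ak12_valuation_sum_lt_one {ι : Type*} (s : Finset ι) (g : ι → Ω)
    (h : ∀ i ∈ s, V.valuation (g i) < 1) : V.valuation (∑ i ∈ s, g i) < 1 :=
  V.valuation.map_sum_lt one_ne_zero h

end ValAux

theorem ak12_gaussDom_algebraMap_le_one {R L Ω : Type*} [CommRing R] [Field L] [Algebra R L]
    [Field Ω] {π : R} {T : L} {V : ValuationSubring Ω} {σ : L →+* Ω} (h : GaussDom π T V σ)
    (c : R) : V.valuation (σ (algebraMap R L c)) ≤ 1 := by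
  have := (h (C c)).1
  rwa [aeval_C] at this

theorem ak12_natCast_inv_eq_algebraMap {R L : Type*} [CommRing R] [Field L] [Algebra R L] {m : ℕ}
    (hm : IsUnit (m : R)) : (m : L)⁻¹ = algebraMap R L (↑hm.unit⁻¹ : R) := by
  have h1 : (m : L) * algebraMap R L (↑hm.unit⁻¹ : R) = 1 := by
    have h2 : (m : R) * (↑hm.unit⁻¹ : R) = 1 := hm.mul_val_inv
    rw [← map_natCast (algebraMap R L), ← map_mul, h2, map_one]
  exact inv_eq_of_mul_eq_one_right h1

/-- a second embedding of `E = F(y)` when `y ∉ F` (characteristic zero) -/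
theorem ak12_exists_algHom_apply_ne {F E Ω : Type*} [Field F] [CharZero F] [Field E] [Algebra F E]
    [Field Ω] [Algebra F Ω] [IsAlgClosed Ω] (σ : E →ₐ[F] Ω) {y : E} (hint : IsIntegral F y)
    (hgen : IntermediateField.adjoin F {y} = ⊤) (hy : ∀ x : F, algebraMap F E x ≠ y) :
    ∃ σ' : E →ₐ[F] Ω, σ' y ≠ σ y := by
  have hsep : (minpoly F y).Separable := (minpoly.irreducible hint).separable
  have hsplit : ((minpoly F y).map (algebraMap F Ω)).Splits := IsAlgClosed.splits _
  have hcard := card_rootSet_eq_natDegree hsep hsplit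
  have hdeg : 1 < (minpoly F y).natDegree := by
    have h1 : 0 < (minpoly F y).natDegree := minpoly.natDegree_pos hint
    have h2 : (minpoly F y).natDegree ≠ 1 := by
      intro h
      have h3 : (minpoly F y).degree = 1 := by
        rw [degree_eq_natDegree (minpoly.ne_zero hint), h]
        rfl
      obtain ⟨x, hx⟩ := minpoly.mem_range_of_degree_eq_one F y h3
      exact hy x hx
    omega
  have hmem : σ y ∈ (minpoly F y).rootSet Ω := by
    rw [mem_rootSet]
    refine ⟨minpoly.ne_zero hint, ?_⟩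
    rw [aeval_algHom_apply, minpoly.aeval, map_zero]
  rw [← hcard] at hdeg
  obtain ⟨⟨y', hy'⟩, hne⟩ := Fintype.exists_ne_of_one_lt_card hdeg ⟨σ y, hmem⟩
  obtain ⟨σ', hσ'⟩ := IntermediateField.exists_algHom_of_adjoin_splits_of_aeval (F := F) (E := E)
    (K := Ω) (S := {y}) (x := y) (y := y')
    (fun s hs => by
      rw [Set.mem_singleton_iff] at hs
      subst hs
      exact ⟨hint, hsplit⟩) hgen ((mem_rootSet.1 hy').2)
  refine ⟨σ', ?_⟩
  rw [hσ']
  intro h
  exact hne (Subtype.ext h)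

variable {R K F E Ch : Type u} [CommRing R] [IsDomain R] [IsDiscreteValuationRing R]
    [Field K] [Algebra R K] [IsFractionRing R K] [CharZero K] [Field F] [Algebra K F] [Algebra R F]
    [IsScalarTower R K F] [Field E] [Algebra F E] [Algebra K E] [Algebra R E] [IsScalarTower K F E]
    [IsScalarTower R F E] [IsScalarTower R K E]
    [Field Ch] [CharZero Ch] [IsAlgClosed Ch] [Algebra K Ch] [Algebra R Ch] [IsScalarTower R K Ch]

/-- `PiInt` in `F` implies `PiInt` in `E`. -/
theorem PiInt.map {π : R} {T x : F} (h : PiInt π T x) :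
    PiInt π (algebraMap F E T) (algebraMap F E x) := by
  obtain ⟨r, hr, hint⟩ := h
  refine ⟨r, hr, ?_⟩
  have h1 : IsIntegral (Algebra.adjoin R {algebraMap F E T}) (algebraMap F E (aeval T r * x)) :=
    ak12_isIntegral_adjoin_singleton_map (IsScalarTower.toAlgHom R F E) hint
  rwa [map_mul, ← aeval_algebraMap_apply] at h1

/-- `E = F(y)` is finite over `K(T)`. -/
theorem finiteDimensional_kummer {T : F} [FiniteDimensional K⟮T⟯ F] {m : ℕ} (hm : 0 < m) {f : F}
    {y : E} (hy : y ^ m = algebraMap F E f) (hgen : IntermediateField.adjoin F {y} = ⊤) :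
    FiniteDimensional K⟮algebraMap F E T⟯ E := by
  have hint : IsIntegral F y := by
    refine ⟨X ^ m - C f, monic_X_pow_sub_C f hm.ne', ?_⟩
    simp [hy]
  have h1 : FiniteDimensional F E := by
    have h2 : FiniteDimensional F F⟮y⟯ := IntermediateField.adjoin.finiteDimensional hint
    rw [hgen] at h2
    exact Module.Finite.equiv (IntermediateField.topEquiv (F := F) (E := E)).toLinearEquiv
  have h3 : Module.Finite K⟮T⟯ E := Module.Finite.trans F E
  have hmem : ∀ x : K⟮T⟯, algebraMap F E x ∈ K⟮algebraMap F E T⟯ := by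
    intro x
    have h4 : (K⟮T⟯).map (IsScalarTower.toAlgHom K F E) = K⟮algebraMap F E T⟯ := by
      rw [IntermediateField.adjoin_map]
      simp
    rw [← h4]
    exact ⟨x, x.2, rfl⟩
  let g : K⟮T⟯ →+* K⟮algebraMap F E T⟯ :=
    ((algebraMap F E).comp (algebraMap K⟮T⟯ F)).codRestrict
      (K⟮algebraMap F E T⟯).toSubfield.toSubring hmem
  let _ : Algebra K⟮T⟯ K⟮algebraMap F E T⟯ := g.toAlgebra
  have : IsScalarTower K⟮T⟯ K⟮algebraMap F E T⟯ E := IsScalarTower.of_algebraMap_eq fun _ => rfl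
  exact Module.Finite.of_restrictScalars_finite K⟮T⟯ K⟮algebraMap F E T⟯ E

/-- **AK12a** (the idempotent).  `Y ^ m = f`, `(f - 1) / π` `π`-integral, `m` a unit:
`ε = (1/m) ∑_{k<m} Y ^ k` is `π`-integral and idempotent modulo `π C`:
`ε² - ε = (f - 1) (1/m²) ∑_{k<m} ∑_{i<k} Y ^ i`.
(Hypothesis `hπ0` added: `R → E` is not assumed injective in this lemma.) -/
theorem kummer_idempotent {π : R} (hπ : Irreducible π) (hπ0 : algebraMap R E π ≠ 0) {T : E}
    {m : ℕ} (hm : IsUnit (m : R))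
    {f Y : E} (hY : Y ^ m = f) (hf : PiInt π T ((f - 1) / algebraMap R E π)) :
    PiInt π T ((m : E)⁻¹ * ∑ k ∈ Finset.range m, Y ^ k) ∧
      PiInt π T ((((m : E)⁻¹ * ∑ k ∈ Finset.range m, Y ^ k) ^ 2 -
        (m : E)⁻¹ * ∑ k ∈ Finset.range m, Y ^ k) / algebraMap R E π) := by
  have hp : Prime π := hπ.prime
  have hm0 : 0 < m := by
    rcases Nat.eq_zero_or_pos m with rfl | h
    · simp at hm
    · exact h
  have hmE : (m : E) ≠ 0 := by
    intro h0
    have h1 : (m : E) * algebraMap R E (↑hm.unit⁻¹ : R) = 1 := by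
      have h2 : (m : R) * (↑hm.unit⁻¹ : R) = 1 := hm.mul_val_inv
      rw [← map_natCast (algebraMap R E), ← map_mul, h2, map_one]
    rw [h0, zero_mul] at h1
    exact zero_ne_one h1
  have hminv : PiInt π T (m : E)⁻¹ := by
    rw [ak12_natCast_inv_eq_algebraMap hm]
    exact ak12_piInt_algebraMap hp _
  have hfP : PiInt π T f := by
    have h1 : f = 1 + algebraMap R E π * ((f - 1) / algebraMap R E π) := by
      field_simp
      ring
    rw [h1]
    refine PiInt.add hp ?_ (PiInt.mul hp (ak12_piInt_algebraMap hp _) hf)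
    exact PiInt.of_isIntegral hp isIntegral_one
  have hYP : PiInt π T Y := PiInt.of_pow hm0 (hY ▸ hfP)
  have hS : ∀ n : ℕ, PiInt π T (∑ k ∈ Finset.range n, Y ^ k) := fun n =>
    ak12_piInt_sum hp _ _ fun k _ => PiInt.pow hp hYP k
  refine ⟨PiInt.mul hp hminv (hS m), ?_⟩
  set S := ∑ k ∈ Finset.range m, Y ^ k with hSdef
  set G := ∑ k ∈ Finset.range m, ∑ i ∈ Finset.range k, Y ^ i with hGdef
  have hG : PiInt π T G := ak12_piInt_sum hp _ _ fun k _ => hS k
  have h1 : S * (Y - 1) = f - 1 := by rw [hSdef, geom_sum_mul, hY]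
  have h2 : S - m = G * (Y - 1) := by
    rw [hGdef, Finset.sum_mul, hSdef]
    have : ∀ k ∈ Finset.range m, (∑ i ∈ Finset.range k, Y ^ i) * (Y - 1) = Y ^ k - 1 :=
      fun k _ => geom_sum_mul Y k
    rw [Finset.sum_congr rfl this, Finset.sum_sub_distrib]
    simp
  have h3 : (((m : E)⁻¹ * S) ^ 2 - (m : E)⁻¹ * S) / algebraMap R E π =
      (m : E)⁻¹ * (m : E)⁻¹ * G * ((f - 1) / algebraMap R E π) := by
    rw [← h1]
    have h4 : S = G * (Y - 1) + m := by rw [← h2]; ring
    field_simp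
    rw [h4]
    ring
  rw [h3]
  exact PiInt.mul hp (PiInt.mul hp (PiInt.mul hp hminv hminv) hG) hf

/-- **AK12b** (non triviality).  `V` dominating the Gauss ring via `σ`; `σ Y ≡ ζ ^ a`:
`σ ε ≡ 1` if `m ∣ a`, `σ ε ≡ 0` otherwise. -/
theorem kummer_idempotent_valuation {Ω : Type*} [Field Ω] {π : R} (hπ : Irreducible π) {T : E}
    {m : ℕ} (hm : IsUnit (m : R)) (ζ : R) (hζ : IsPrimitiveRoot ζ m) {Y : E}
    (V : ValuationSubring Ω) (σ : E →+* Ω) (hV : GaussDom π T V σ) (a : ℕ)
    (hY : V.valuation (σ Y - σ (algebraMap R E (ζ ^ a))) < 1) :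
    (m ∣ a → V.valuation (σ ((m : E)⁻¹ * ∑ k ∈ Finset.range m, Y ^ k) - 1) < 1) ∧
      (¬ m ∣ a → V.valuation (σ ((m : E)⁻¹ * ∑ k ∈ Finset.range m, Y ^ k)) < 1) := by
  have hminv : V.valuation (σ (m : E)⁻¹) ≤ 1 := by
    rw [ak12_natCast_inv_eq_algebraMap hm]
    exact ak12_gaussDom_algebraMap_le_one hV _
  have hmE : (m : E) ≠ 0 := by
    intro h0
    have h1 : (m : E) * algebraMap R E (↑hm.unit⁻¹ : R) = 1 := by
      have h2 : (m : R) * (↑hm.unit⁻¹ : R) = 1 := hm.mul_val_inv
      rw [← map_natCast (algebraMap R E), ← map_mul, h2, map_one]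
    rw [h0, zero_mul] at h1
    exact zero_ne_one h1
  have hsum : V.valuation (σ (∑ k ∈ Finset.range m, Y ^ k) -
      σ (algebraMap R E (∑ k ∈ Finset.range m, (ζ ^ a) ^ k))) < 1 := by
    have h0 : σ (∑ k ∈ Finset.range m, Y ^ k) -
        σ (algebraMap R E (∑ k ∈ Finset.range m, (ζ ^ a) ^ k)) =
        ∑ k ∈ Finset.range m, ((σ Y) ^ k - (σ (algebraMap R E (ζ ^ a))) ^ k) := by
      rw [Finset.sum_sub_distrib, map_sum, map_sum, map_sum]
      simp only [map_pow]
    rw [h0]
    refine ak12_valuation_sum_lt_one V _ _ fun k _ => ?_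
    exact ak12_valuation_pow_sub_pow_lt_one V (ak12_gaussDom_algebraMap_le_one hV _) hY k
  constructor
  · intro hdvd
    have h1 : ζ ^ a = 1 := (hζ.pow_eq_one_iff_dvd a).2 hdvd
    have h2 : σ ((m : E)⁻¹ * ∑ k ∈ Finset.range m, Y ^ k) - 1 =
        σ (m : E)⁻¹ * (σ (∑ k ∈ Finset.range m, Y ^ k) -
          σ (algebraMap R E (∑ k ∈ Finset.range m, (ζ ^ a) ^ k))) := by
      rw [h1]
      simp only [one_pow, Finset.sum_const, Finset.card_range, nsmul_eq_mul, mul_one, map_natCast]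
      rw [mul_sub, ← map_mul, ← map_natCast σ m, ← map_mul σ (m : E)⁻¹ (m : E),
        inv_mul_cancel₀ hmE, map_one]
    rw [h2, map_mul]
    exact mul_lt_of_le_one_of_lt hminv hsum
  · intro hdvd
    have h1 : ζ ^ a ≠ 1 := fun h => hdvd ((hζ.pow_eq_one_iff_dvd a).1 h)
    have h2 : ∑ k ∈ Finset.range m, (ζ ^ a) ^ k = 0 := by
      have h3 : (∑ k ∈ Finset.range m, (ζ ^ a) ^ k) * (ζ ^ a - 1) = 0 := by
        rw [geom_sum_mul, ← pow_mul, mul_comm, pow_mul, hζ.pow_eq_one, one_pow, sub_self]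
      exact (mul_eq_zero.1 h3).resolve_right (sub_ne_zero.2 h1)
    rw [h2, map_zero, map_zero, sub_zero] at hsum
    rw [map_mul, map_mul]
    exact mul_lt_of_le_one_of_lt hminv hsum

/-- **AK12c.** `x ^ m ≡ 1 mod 𝔪_V` implies `x ≡ ζ ^ a` for some `a`. -/
theorem exists_valuation_sub_zeta_lt_one {Ω : Type*} [Field Ω] {π : R} {T : E}
    {m : ℕ} (hm : 0 < m) (ζ : R) (hζ : IsPrimitiveRoot ζ m) {Y : E}
    (V : ValuationSubring Ω) (σ : E →+* Ω) (hV : GaussDom π T V σ)
    (hY : V.valuation (σ (Y ^ m) - 1) < 1) :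
    ∃ a : ℕ, V.valuation (σ Y - σ (algebraMap R E (ζ ^ a))) < 1 := by
  have : NeZero m := ⟨hm.ne'⟩
  have hprod := X_pow_sub_one_eq_prod hm hζ
  have h1 : σ (Y ^ m) - 1 = ∏ ξ ∈ nthRootsFinset m (1 : R), (σ Y - σ (algebraMap R E ξ)) := by
    have h2 := congrArg (fun p : R[X] => p.eval₂ (σ.comp (algebraMap R E)) (σ Y)) hprod
    simp only [eval₂_sub, eval₂_pow, eval₂_X, eval₂_one, eval₂_finsetProd, eval₂_C] at h2
    rw [map_pow, h2]
    rfl
  rw [h1, map_prod] at hY
  by_contra hcon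
  push Not at hcon
  refine absurd hY (not_lt.2 ?_)
  refine Finset.prod_induction _ (fun x => 1 ≤ x) (fun a b ha hb => one_le_mul ha hb) le_rfl ?_
  intro ξ hξ
  have hξ1 : ξ ^ m = 1 := (mem_nthRootsFinset hm 1).1 hξ
  obtain ⟨i, _, hi⟩ := hζ.eq_pow_of_pow_eq_one hξ1
  rw [← hi]
  exact hcon i

/-- **AK12 = abstract KIL.**
Proof.  Suppose `y ∉ F`.  `T := t` in `E`.  `GoodChart K Ch π T` and `GoodChart K Ch π T⁻¹` for `E`
(`finiteDimensional_kummer`, `UnitDiff.kummer`, `HhAtF.kummer`, `GoodChart.inv`; special set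
`{0, a0}`, resp. `{0, a0⁻¹}`).  `Ω := AlgebraicClosure E`, `σ := algebraMap`, `V` from
`exists_gaussDom`.  `σ y ≡ ζ ^ a` (AK12c).  `Y := ζ ^ (-a) y`, `ε := (1/m) ∑ Y ^ k`.
As `y ∉ F` there is an `F`-embedding `σ' : E → Ω` with `σ' y ≠ σ y`, so `σ' y = ζ ^ k σ y`,
`m ∤ k`; `V` also dominates via `σ'` (same restriction to `K(T) ⊆ F`).  By AK12b `σ ε ≡ 1`,
`σ' ε ≡ 0`.  By `core_idempotent` `ε / π` or `(1 - ε) / π` is `π`-integral, so
`σ ε ≡ σ' ε ≡ 0` or `≡ 1` (`GaussDom.valuation_le_one`): contradiction. -/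
theorem abstract_KIL {π : R} (hπ : Irreducible π) (t : F) (ht : Transcendental K t)
    [FiniteDimensional K⟮t⟯ F] (hU : UnitDiff K π t)
    (m : ℕ) (hm : IsUnit (m : R)) (ζ : R) (hζ : IsPrimitiveRoot ζ m)
    (f : F) (hf : PiInt π t ((f - 1) / algebraMap R F π))
    (a0 : R) (ha0 : IsUnit a0) (M0 Ma Minf : ℕ)
    (hM0 : IsUnit (M0 : R)) (hMa : IsUnit (Ma : R)) (hMinf : IsUnit (Minf : R))
    (hζ0 : ∃ z : K, IsPrimitiveRoot z M0) (hζa : ∃ z : K, IsPrimitiveRoot z Ma)
    (hζinf : ∃ z : K, IsPrimitiveRoot z Minf)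
    (h0 : HhAtF K Ch t f m 0 M0) (ha : HhAtF K Ch t f m (algebraMap R Ch a0) Ma)
    (hinf : HhAtF K Ch t⁻¹ f m 0 Minf)
    (hgen : ∀ b : Ch, b ≠ 0 → b ≠ algebraMap R Ch a0 → HhAtF K Ch t f m b 1)
    (y : E) (hy : y ^ m = algebraMap F E f) (hE : IntermediateField.adjoin F {y} = ⊤)
    (hK : ∀ z : E, IsIntegral K z → ∃ c : K, algebraMap K E c = z) :
    ∃ x : F, algebraMap F E x = y := by
  classical
  by_contra hcon
  push Not at hcon
  have hp : Prime π := hπ.prime
  have hm0 : 0 < m := by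
    rcases Nat.eq_zero_or_pos m with rfl | h
    · simp at hm
    · exact h
  have hmne : NeZero m := ⟨hm0.ne'⟩
  have hinjRE : Function.Injective (algebraMap R E) := by
    rw [IsScalarTower.algebraMap_eq R K E]
    exact (algebraMap K E).injective.comp (IsFractionRing.injective R K)
  have hπE : algebraMap R E π ≠ 0 := by
    rw [Ne, map_eq_zero_iff _ hinjRE]
    exact hπ.ne_zero
  have hπF : algebraMap R F π ≠ 0 := by
    intro h
    apply hπE
    rw [IsScalarTower.algebraMap_apply R F E, h, map_zero]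
  have hcharF : CharZero F := charZero_of_injective_algebraMap (algebraMap K F).injective
  set T : E := algebraMap F E t with hTdef
  have hT : Transcendental K T := (transcendental_algebraMap_iff (algebraMap F E).injective).2 ht
  have hfin : FiniteDimensional K⟮T⟯ E := finiteDimensional_kummer hm0 hy hE
  have hUE : UnitDiff K π T := UnitDiff.kummer hp hU hm ζ hζ hy hf hE
  have h0E : HhAt K Ch T 0 M0 := HhAtF.kummer hm0 h0 hy hE
  have haE : HhAt K Ch T (algebraMap R Ch a0) Ma := HhAtF.kummer hm0 ha hy hE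
  have hinfE : HhAt K Ch T⁻¹ 0 Minf := by
    have := HhAtF.kummer hm0 hinf hy hE
    rwa [map_inv₀] at this
  have hgenE : ∀ b : Ch, b ≠ 0 → b ≠ algebraMap R Ch a0 → HhAt K Ch T b 1 := fun b hb hb' =>
    HhAtF.kummer hm0 (hgen b hb hb') hy hE
  have ha00 : a0 ≠ 0 := ha0.ne_zero
  -- the two charts
  have hG : GoodChart K Ch π T := by
    refine ⟨hT, hfin, hUE, {0, a0}, fun b => if b = 0 then M0 else Ma, ?_, ?_, ?_, ?_, ?_⟩
    · intro b hb b' hb' hne
      simp only [Finset.mem_insert, Finset.mem_singleton] at hb hb'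
      rcases hb with rfl | rfl <;> rcases hb' with rfl | rfl
      · exact absurd rfl hne
      · rw [zero_sub]; exact ha0.neg
      · rw [sub_zero]; exact ha0
      · exact absurd rfl hne
    · intro b hb
      simp only [Finset.mem_insert, Finset.mem_singleton] at hb
      rcases hb with rfl | rfl
      · simpa using hM0
      · simpa [ha00] using hMa
    · intro b hb
      simp only [Finset.mem_insert, Finset.mem_singleton] at hb
      rcases hb with rfl | rfl
      · simpa using hζ0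
      · simpa [ha00] using hζa
    · intro b hb
      simp only [Finset.mem_insert, Finset.mem_singleton] at hb
      rcases hb with rfl | rfl
      · simpa using h0E
      · simpa [ha00] using haE
    · intro b hb
      refine hgenE b ?_ ?_
      · have := hb 0 (by simp)
        rwa [map_zero] at this
      · exact hb a0 (by simp)
  have hG' : GoodChart K Ch π T⁻¹ := by
    refine GoodChart.inv hπ hT hUE {a0} (fun _ => Ma) ?_ ?_ ?_ ?_ ?_ ?_ Minf hMinf hζinf hinfE
    · intro b hb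
      rw [Finset.mem_singleton] at hb
      exact hb ▸ ha0
    · intro b hb b' hb' hne
      rw [Finset.mem_singleton] at hb hb'
      exact absurd (hb.trans hb'.symm) hne
    · intro b _
      exact hMa
    · intro b _
      exact hζa
    · intro b hb
      rw [Finset.mem_singleton] at hb
      exact hb ▸ haE
    · intro b hb hb'
      exact hgenE b hb (hb' a0 (by simp))
  -- the valuation
  let Ω := AlgebraicClosure E
  let σ : E →ₐ[F] Ω := IsScalarTower.toAlgHom F E Ω
  obtain ⟨V, hV⟩ := exists_gaussDom (K := K) hp hT (σ : E →+* Ω)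
  have hlt : ∀ {τ : E →+* Ω}, GaussDom π T V τ → ∀ {x : E}, PiInt π T (x / algebraMap R E π) →
      V.valuation (τ x) < 1 := by
    intro τ hτ x hx
    have h1 : x = algebraMap R E π * (x / algebraMap R E π) := by
      field_simp
    rw [h1, map_mul, map_mul]
    exact mul_lt_of_lt_of_le_one (GaussDom.valuation_pi_lt_one hτ)
      (GaussDom.valuation_le_one hτ hx)
  have hfE : PiInt π T ((algebraMap F E f - 1) / algebraMap R E π) := by
    have := PiInt.map (E := E) hf
    rwa [map_div₀, map_sub, map_one, ← IsScalarTower.algebraMap_apply R F E] at this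
  have hym : V.valuation ((σ : E →+* Ω) (y ^ m) - 1) < 1 := by
    have := hlt hV hfE
    rwa [map_sub, map_one, ← hy] at this
  obtain ⟨a, ha1⟩ := exists_valuation_sub_zeta_lt_one hm0 ζ hζ V (σ : E →+* Ω) hV hym
  -- normalisation of `y`
  set b : ℕ := a * (m - 1) with hb
  have hab : ζ ^ b * ζ ^ a = 1 := by
    rw [← pow_add, hb]
    have : a * (m - 1) + a = m * a := by
      obtain ⟨n, rfl⟩ : ∃ n, m = n + 1 := ⟨m - 1, by omega⟩
      simp only [Nat.add_sub_cancel]
      ring
    rw [this, pow_mul, hζ.pow_eq_one, one_pow]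
  set Y : E := algebraMap R E (ζ ^ b) * y with hYdef
  have hYm : Y ^ m = algebraMap F E f := by
    rw [hYdef, mul_pow, hy, ← map_pow, ← pow_mul, mul_comm b m, pow_mul, hζ.pow_eq_one, one_pow,
      map_one, one_mul]
  have hY1 : V.valuation ((σ : E →+* Ω) Y - 1) < 1 := by
    have h1 : (σ : E →+* Ω) Y - 1 = (σ : E →+* Ω) (algebraMap R E (ζ ^ b)) *
        ((σ : E →+* Ω) y - (σ : E →+* Ω) (algebraMap R E (ζ ^ a))) := by
      rw [mul_sub, ← map_mul, ← map_mul, ← map_mul, hab, map_one, map_one]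
    rw [h1, map_mul]
    exact mul_lt_of_le_one_of_lt (ak12_gaussDom_algebraMap_le_one hV _) ha1
  set ε : E := (m : E)⁻¹ * ∑ k ∈ Finset.range m, Y ^ k with hε
  obtain ⟨hε1, hε2⟩ := kummer_idempotent hπ hπE (T := T) hm hYm hfE
  -- the second embedding
  have hint : IsIntegral F y := by
    refine ⟨X ^ m - C f, monic_X_pow_sub_C f hm0.ne', ?_⟩
    simp [hy]
  obtain ⟨σ', hσ'⟩ := ak12_exists_algHom_apply_ne σ hint hE hcon
  have hy0 : y ≠ 0 := fun h => hcon 0 (by rw [map_zero, h])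
  have hσy0 : σ y ≠ 0 := by
    rw [Ne, map_eq_zero]
    exact hy0
  have hinjRΩ : Function.Injective ((σ : E →+* Ω).comp (algebraMap R E)) :=
    (σ : E →+* Ω).injective.comp hinjRE
  have hζΩ : IsPrimitiveRoot ((σ : E →+* Ω).comp (algebraMap R E) ζ) m :=
    hζ.map_of_injective hinjRΩ
  have hRσ : ∀ c : R, σ' (algebraMap R E c) = σ (algebraMap R E c) := by
    intro c
    rw [IsScalarTower.algebraMap_apply R F E, AlgHom.commutes, AlgHom.commutes]
  have hξ : (σ' y / σ y) ^ m = 1 := by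
    rw [div_pow, ← map_pow, ← map_pow, hy, AlgHom.commutes, AlgHom.commutes]
    refine div_self ?_
    rw [← AlgHom.commutes σ, ← hy, map_pow]
    exact pow_ne_zero _ hσy0
  obtain ⟨k, _, hk⟩ := hζΩ.eq_pow_of_pow_eq_one hξ
  have hkm : ¬ m ∣ k := by
    intro hdvd
    rw [(hζΩ.pow_eq_one_iff_dvd k).2 hdvd] at hk
    exact hσ' ((div_eq_one_iff_eq hσy0).1 hk.symm)
  have hV' : GaussDom π T V (σ' : E →+* Ω) := by
    intro p
    have h1 : (σ' : E →+* Ω) (aeval T p) = (σ : E →+* Ω) (aeval T p) := by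
      rw [hTdef, aeval_algebraMap_apply]
      exact (AlgHom.commutes σ' _).trans (AlgHom.commutes σ _).symm
    rw [h1]
    exact hV p
  have hY' : V.valuation ((σ' : E →+* Ω) Y - (σ' : E →+* Ω) (algebraMap R E (ζ ^ k))) < 1 := by
    have h1 : (σ' : E →+* Ω) Y - (σ' : E →+* Ω) (algebraMap R E (ζ ^ k)) =
        (σ : E →+* Ω) (algebraMap R E (ζ ^ k)) * ((σ : E →+* Ω) Y - 1) := by
      have h2 : σ' y = σ (algebraMap R E (ζ ^ k)) * σ y := by
        have h3 : σ (algebraMap R E (ζ ^ k)) = σ' y / σ y := by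
          rw [← hk, map_pow, map_pow]
          rfl
        rw [h3, div_mul_cancel₀ _ hσy0]
      change σ' Y - σ' (algebraMap R E (ζ ^ k)) = σ (algebraMap R E (ζ ^ k)) * (σ Y - 1)
      rw [hYdef, map_mul, map_mul, hRσ, hRσ, h2]
      ring
    rw [h1, map_mul]
    exact mul_lt_of_le_one_of_lt (ak12_gaussDom_algebraMap_le_one hV _) hY1
  have hY0 : V.valuation ((σ : E →+* Ω) Y - (σ : E →+* Ω) (algebraMap R E (ζ ^ 0))) < 1 := by
    rwa [pow_zero, map_one, map_one]
  have hA := (kummer_idempotent_valuation hπ hm ζ hζ V (σ : E →+* Ω) hV 0 hY0).1 (dvd_zero m)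
  have hB := (kummer_idempotent_valuation hπ hm ζ hζ V (σ' : E →+* Ω) hV' k hY').2 hkm
  have hone : ¬ V.valuation (1 : Ω) < 1 := by simp
  rcases core_idempotent hπ hG hG' hK ε hε1 hε2 with h | h
  · have h1 := hlt hV h
    apply hone
    have h2 : (1 : Ω) = (σ : E →+* Ω) ε - ((σ : E →+* Ω) ε - 1) := by ring
    rw [h2]
    exact V.valuation.map_sub_lt h1 hA
  · have h1 := hlt hV' h
    apply hone
    have h2 : (1 : Ω) = (σ' : E →+* Ω) (1 - ε) + (σ' : E →+* Ω) ε := by
      rw [map_sub, map_one]; ring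
    rw [h2]
    exact V.valuation.map_add_lt h1 hB

end Fermat.Agent.ESlib
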