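import Mathlib
import Fermat.Agent.ES.C.AKDefs
import Fermat.Agent.ES.C.AKGauss
import Fermat.Agent.ES.C.AK4Sep

/-!
# ES, AK4b': `UnitDiff` from unit derivatives, tower version
-/

set_option autoImplicit false

namespace Fermat.Agent.ESlib

open Polynomial IntermediateField

universe u

/-- two distinct roots `a, a'` in `V` of a polynomial with coefficients in `V`:
`v(Q'(a)) ≤ v(a - a')`. -/
theorem valuation_derivative_le_of_roots {Ω : Type*} [Field Ω] (V : ValuationSubring Ω) (Q : Polynomial Ω)
    (hQ : ∀ n, V.valuation (Q.coeff n) ≤ 1) {a a' : Ω} (ha : V.valuation a ≤ 1)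
    (ha' : V.valuation a' ≤ 1) (hr : Q.eval a = 0) (hr' : Q.eval a' = 0) (hne : a ≠ a') :
    V.valuation (Q.derivative.eval a) ≤ V.valuation (a - a') := by
  -- lift everything to `V`
  have hlift : Q ∈ Polynomial.lifts V.subtype := by
    rw [Polynomial.lifts_iff_coeff_lifts]
    intro n
    exact ⟨⟨Q.coeff n, (V.valuation_le_one_iff _).mp (hQ n)⟩, rfl⟩
  obtain ⟨Q0, rfl⟩ := hlift
  set b : V := ⟨a, (V.valuation_le_one_iff _).mp ha⟩ with hb
  set b' : V := ⟨a', (V.valuation_le_one_iff _).mp ha'⟩ with hb'
  have hinj : Function.Injective V.subtype := V.subtype_injective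
  have e : ∀ (S : V[X]) (x : V), (S.map V.subtype).eval (x : Ω) = ((S.eval x : V) : Ω) := by
    intro S x
    exact Polynomial.eval_map_apply V.subtype x
  have hr0 : Q0.eval b = 0 := by
    apply hinj
    rw [map_zero]
    exact (e Q0 b).symm.trans hr
  have hr0' : Q0.eval b' = 0 := by
    apply hinj
    rw [map_zero]
    exact (e Q0 b').symm.trans hr'
  have hbne : b ≠ b' := fun h => hne (congrArg Subtype.val h)
  obtain ⟨Q₁, hQ₁⟩ : (X - C b) ∣ Q0 := Polynomial.dvd_iff_isRoot.mpr hr0
  have h1 : Q₁.eval b' = 0 := by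
    rw [hQ₁, eval_mul, eval_sub, eval_X, eval_C] at hr0'
    exact (mul_eq_zero.mp hr0').resolve_left (sub_ne_zero.mpr hbne.symm)
  have h2 : (derivative Q0).eval b = Q₁.eval b := by
    rw [hQ₁, derivative_mul]
    simp
  obtain ⟨w, hw⟩ : b - b' ∣ Q₁.eval b := by
    have hd : b - b' ∣ Q₁.eval b - Q₁.eval b' := Polynomial.sub_dvd_eval_sub b b' Q₁
    rwa [h1, sub_zero] at hd
  have h3 : (Q0.map V.subtype).derivative.eval a = (a - a') * (w : Ω) := by
    rw [derivative_map]
    have := e (derivative Q0) b
    rw [h2, hw] at this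
    exact this
  show V.valuation ((Q0.map V.subtype).derivative.eval a) ≤ _
  rw [h3, map_mul]
  exact mul_le_of_le_one_right' ((V.valuation_le_one_iff _).mpr w.2)

/-- **AK4b', tower version with unit derivatives.**  `F = K(t, c_i : i ∈ I)`, `I` with a well founded
relation `r`; each `c_i` is `π`-integral and a root of a polynomial `P_i ∈ F[X]` whose coefficients
are `π`-integral and lie in `K(t, c_j : r j i)`, and `P_i'(c_i)` is a unit of the ring of
`π`-integral elements.  Then `UnitDiff K π t`. -/
theorem unitDiff_of_derivative_unit {R K F : Type u} [CommRing R] [IsDomain R] [Field K]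
    [Algebra R K] [IsFractionRing R K] [Field F] [Algebra K F] [Algebra R F] [IsScalarTower R K F]
    {π : R} (t : F) {I : Type*} (r : I → I → Prop) (hwf : WellFounded r)
    (c : I → F) (hc : ∀ i, PiInt π t (c i)) (P : I → F[X])
    (hcoef : ∀ i n, PiInt π t ((P i).coeff n))
    (hsub : ∀ i n, (P i).coeff n ∈ IntermediateField.adjoin K (insert t {x | ∃ j, r j i ∧ c j = x}))
    (hroot : ∀ i, (P i).eval (c i) = 0)
    (hder0 : ∀ i, (P i).derivative.eval (c i) ≠ 0)
    (hder : ∀ i, PiInt π t ((P i).derivative.eval (c i))⁻¹)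
    (hgen : IntermediateField.adjoin K (insert t (Set.range c)) = ⊤) : UnitDiff K π t := by
  intro Ω _ _ V σ σ' hσt hG hne
  have hag : ∀ x ∈ K⟮t⟯, σ x = σ' x := fun x hx => algHom_eq_on_adjoin_simple σ σ' hσt hx
  have hG' : GaussDom π t V (σ' : F →+* Ω) := by
    intro p
    have : (σ' : F →+* Ω) (aeval t p) = (σ : F →+* Ω) (aeval t p) := by
      have hmem : aeval t p ∈ K⟮t⟯ := by
        have : aeval t p = aeval t (p.map (algebraMap R K)) := by
          rw [aeval_map_algebraMap]
        rw [this]
        exact IntermediateField.algebra_adjoin_le_adjoin K {t}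
          (Polynomial.aeval_mem_adjoin_singleton K t)
      exact (hag _ hmem).symm
    rw [this]
    exact hG p
  -- they differ at some `c i`; take a minimal one
  have hex : ∃ i, σ (c i) ≠ σ' (c i) := by
    by_contra hcon
    push Not at hcon
    apply hne
    refine algHom_eq_of_adjoin_eq_top σ σ' hgen ?_
    intro s hs
    rcases hs with rfl | ⟨i, rfl⟩
    · exact hσt
    · exact hcon i
  obtain ⟨i, hi, hmin⟩ := hwf.has_min {i | σ (c i) ≠ σ' (c i)} hex
  have hmin' : ∀ j, r j i → σ (c j) = σ' (c j) := by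
    intro j hj
    by_contra hcon
    exact hmin j hcon hj
  have hcoefeq : ∀ n, σ ((P i).coeff n) = σ' ((P i).coeff n) := by
    intro n
    have hx := hsub i n
    generalize (P i).coeff n = z at hx
    induction hx using IntermediateField.adjoin_induction with
    | mem x hx =>
      rcases hx with rfl | ⟨j, hj, rfl⟩
      · exact hσt
      · exact hmin' j hj
    | algebraMap x => rw [AlgHom.commutes, AlgHom.commutes]
    | add x y _ _ hx hy => rw [map_add, map_add, hx, hy]
    | inv x _ hx => rw [map_inv₀, map_inv₀, hx]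
    | mul x y _ _ hx hy => rw [map_mul, map_mul, hx, hy]
  refine ⟨c i, hc i, ?_⟩
  set Q : Polynomial Ω := (P i).map (σ : F →+* Ω) with hQ
  have hQ' : Q = (P i).map (σ' : F →+* Ω) := by
    ext n
    rw [hQ, coeff_map, coeff_map]
    exact hcoefeq n
  have hale : V.valuation (σ (c i)) ≤ 1 := hG.valuation_le_one (hc i)
  have hale' : V.valuation (σ' (c i)) ≤ 1 := hG'.valuation_le_one (hc i)
  have hr : Q.eval (σ (c i)) = 0 := by
    have := Polynomial.eval_map_apply (p := P i) (σ : F →+* Ω) (c i)
    rw [hroot i, map_zero] at this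
    exact this
  have hr' : Q.eval (σ' (c i)) = 0 := by
    have := Polynomial.eval_map_apply (p := P i) (σ' : F →+* Ω) (c i)
    rw [hroot i, map_zero, ← hQ'] at this
    exact this
  have key := valuation_derivative_le_of_roots V Q
    (fun n => by rw [hQ, coeff_map]; exact hG.valuation_le_one (hcoef i n)) hale hale' hr hr' hi
  have hD : Q.derivative.eval (σ (c i)) = (σ : F →+* Ω) ((P i).derivative.eval (c i)) := by
    rw [hQ, derivative_map]
    exact Polynomial.eval_map_apply (σ : F →+* Ω) (c i)
  have hD1 : 1 ≤ V.valuation (Q.derivative.eval (σ (c i))) := by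
    rw [hD]
    have h5 : V.valuation ((σ : F →+* Ω) ((P i).derivative.eval (c i))⁻¹) ≤ 1 :=
      hG.valuation_le_one (hder i)
    rw [map_inv₀, map_inv₀] at h5
    have h6 : V.valuation ((σ : F →+* Ω) ((P i).derivative.eval (c i))) ≠ 0 := by
      rw [Valuation.ne_zero_iff]
      exact (map_ne_zero (σ : F →+* Ω)).mpr (hder0 i)
    exact (inv_le_one₀ (zero_lt_iff.mpr h6)).mp h5
  refine le_antisymm ?_ (hD1.trans key)
  exact (V.valuation_le_one_iff _).mpr
    (sub_mem ((V.valuation_le_one_iff _).mp hale) ((V.valuation_le_one_iff _).mp hale'))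

end Fermat.Agent.ESlib
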