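import Mathlib

/-!
# ES library, part C4a: the discriminant trick (abstract commutative algebra)

`P` a domain, `π` a prime element, `B` a finite `P`-algebra, `Pb = P/π`, `Bb = B/π` free over `Pb`.
If `B` has as many points as the rank over every (good) `Ω`-point of `P` outside `g = 0`, then the
discriminant of `Bb` over `Pb` divides a power of the reduction of `g`.
-/

set_option autoImplicit false

open Module

namespace Fermat.Agent.ESlib

section Points

variable {P B Ω : Type*} [CommRing P] [CommRing B] [Algebra P B] [Field Ω]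
variable {ι : Type*} [Fintype ι] [DecidableEq ι]

/-- the evaluation matrix of distinct points is invertible -/
theorem det_points_ne_zero (b : ι → B) {s : P}
    (hs : ∀ x : B, s • x ∈ Submodule.span P (Set.range b))
    (φ : P →+* Ω) (hφs : φ s ≠ 0) (χ : ι → (B →+* Ω)) (hχ : Function.Injective χ)
    (hχφ : ∀ m x, χ m (algebraMap P B x) = φ x) :
    (Matrix.of fun m k => χ m (b k)).det ≠ 0 := by
  intro hdet
  obtain ⟨c, hc0, hc⟩ := Matrix.exists_vecMul_eq_zero_iff.mpr hdet
  apply hc0
  have hck : ∀ k, ∑ m, c m * χ m (b k) = 0 := by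
    intro k
    have := congrFun hc k
    simpa [Matrix.vecMul, dotProduct] using this
  have hli : LinearIndependent Ω (fun m : ι => ((χ m : B →* Ω) : B → Ω)) := by
    have h1 := linearIndependent_monoidHom B Ω
    refine h1.comp (fun m : ι => (χ m : B →* Ω)) ?_
    intro m m' h
    apply hχ
    ext x
    exact DFunLike.congr_fun h x
  have hzero : ∑ m, c m • ((χ m : B →* Ω) : B → Ω) = 0 := by
    funext x
    obtain ⟨p, hp⟩ := (Submodule.mem_span_range_iff_exists_fun P).mp (hs x)
    have h2 : ∀ m, φ s * χ m x = ∑ l, φ (p l) * χ m (b l) := by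
      intro m
      have := congrArg (χ m) hp
      rw [map_sum, Algebra.smul_def, map_mul, hχφ] at this
      rw [← this]
      refine Finset.sum_congr rfl fun l _ => ?_
      rw [Algebra.smul_def, map_mul, hχφ]
    have h3 : φ s * ∑ m, c m * χ m x = 0 := by
      rw [Finset.mul_sum]
      calc ∑ m, φ s * (c m * χ m x) = ∑ m, c m * ∑ l, φ (p l) * χ m (b l) := by
            refine Finset.sum_congr rfl fun m _ => ?_
            rw [← h2 m]; ring
        _ = ∑ l, φ (p l) * ∑ m, c m * χ m (b l) := by
            simp only [Finset.mul_sum]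
            rw [Finset.sum_comm]
            refine Finset.sum_congr rfl fun l _ => Finset.sum_congr rfl fun m _ => ?_
            ring
        _ = 0 := by simp [hck]
    have h4 := (mul_eq_zero.mp h3).resolve_left hφs
    simpa [Finset.sum_apply] using h4
  funext m
  exact Fintype.linearIndependent_iff.mp hli c hzero m

/-- the "trace" computed from structure constants is the sum over the points -/
theorem sum_structure_const_eq (b : ι → B) {s : P}
    (hs : ∀ x : B, s • x ∈ Submodule.span P (Set.range b))
    (φ : P →+* Ω) (hφs : φ s ≠ 0) (χ : ι → (B →+* Ω)) (hχ : Function.Injective χ)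
    (hχφ : ∀ m x, χ m (algebraMap P B x) = φ x) (y : B) (a : ι → ι → P)
    (ha : ∀ k, ∑ l, a k l • b l = s • (y * b k)) :
    ∑ k, φ (a k k) = φ s * ∑ m, χ m y := by
  set X : Matrix ι ι Ω := Matrix.of fun m k => χ m (b k) with hX
  have hdet : X.det ≠ 0 := det_points_ne_zero b hs φ hφs χ hχ hχφ
  set A : Matrix ι ι Ω := Matrix.of fun k l => φ (a k l) with hA
  set D : Matrix ι ι Ω := Matrix.diagonal fun m => φ s * χ m y with hD
  have h1 : A * X.transpose = X.transpose * D := by
    ext k m
    rw [Matrix.mul_apply, hD, Matrix.mul_diagonal]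
    have := congrArg (χ m) (ha k)
    rw [map_sum, Algebra.smul_def, map_mul, map_mul, hχφ] at this
    simp only [hA, hX, Matrix.of_apply, Matrix.transpose_apply]
    calc ∑ l, φ (a k l) * χ m (b l) = ∑ l, χ m (a k l • b l) := by
          refine Finset.sum_congr rfl fun l _ => ?_
          rw [Algebra.smul_def, map_mul, hχφ]
      _ = φ s * (χ m y * χ m (b k)) := this
      _ = _ := by ring
  have hu : IsUnit X.transpose.det := by
    rw [Matrix.det_transpose]; exact isUnit_iff_ne_zero.mpr hdet
  have h2 : A = X.transpose * D * X.transpose⁻¹ := by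
    rw [← h1, Matrix.mul_assoc, Matrix.mul_nonsing_inv _ hu, Matrix.mul_one]
  have h3 : A.trace = D.trace := by
    rw [h2, Matrix.trace_mul_comm, ← Matrix.mul_assoc, Matrix.nonsing_inv_mul _ hu, Matrix.one_mul]
  have h4 : A.trace = ∑ k, φ (a k k) := by simp [Matrix.trace, hA]
  have h5 : D.trace = φ s * ∑ m, χ m y := by
    simp [hD, Matrix.trace_diagonal, Finset.mul_sum]
  rw [← h4, h3, h5]

end Points

section ET

variable {P B Pb Bb Ω : Type*} [CommRing P] [IsDomain P] [CommRing B] [Algebra P B]
  [Module.Finite P B] [CommRing Pb] [CommRing Bb] [Algebra Pb Bb] [Field Ω]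
variable {ι : Type*} [Fintype ι] [DecidableEq ι]

/-- cancelling a prime power -/
theorem exists_mul_eq_of_prime_pow {π : P} (hπ : Prime π) {d : P} (hd : ¬ π ∣ d) (a : ℕ) {x h : P}
    (hx : d * x = π ^ a * h) : ∃ x', d * x' = h := by
  induction a generalizing x with
  | zero => exact ⟨x, by simpa using hx⟩
  | succ a ih =>
    have h1 : π ∣ d * x := ⟨π ^ a * h, by rw [hx]; ring⟩
    obtain ⟨x', rfl⟩ := (hπ.dvd_or_dvd h1).resolve_left hd
    apply ih (x := x')
    apply mul_left_cancel₀ hπ.ne_zero
    have : π * (π ^ a * h) = π ^ (a + 1) * h := by ring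
    rw [this, ← hx]; ring

/-- **(ET) The discriminant trick.** -/
theorem discr_dvd_pow {π : P} (hπ : Prime π)
    (rP : P →+* Pb) (rB : B →+* Bb) (hrP : Function.Surjective rP) (hrB : Function.Surjective rB)
    (hkP : ∀ x, rP x = 0 ↔ π ∣ x) (hkB : ∀ x, rB x = 0 ↔ algebraMap P B π ∣ x)
    (hcomp : ∀ x, rB (algebraMap P B x) = algebraMap Pb Bb (rP x))
    (bb : Basis ι Pb Bb) (hd : Algebra.discr Pb bb ≠ 0)
    (Good : (P →+* Ω) → Prop) (g : P)
    (hPTS : ∀ φ : P →+* Ω, Good φ → φ g ≠ 0 → ∃ χ : ι → (B →+* Ω), Function.Injective χ ∧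
      ∀ m x, χ m (algebraMap P B x) = φ x)
    (hNS : ∀ d h : P, (∀ φ : P →+* Ω, Good φ → φ d = 0 → φ h = 0) →
      ∃ (x : P) (a k : ℕ), d * x = π ^ a * h ^ k) :
    ∃ (x : Pb) (k : ℕ), Algebra.discr Pb bb * x = rP g ^ k := by
  classical
  choose b hb using fun i => hrB (bb i)
  set N : Submodule P B := Submodule.span P (Set.range b) with hN
  -- `B = N + π B`
  have hdec : ∀ x : B, ∃ y ∈ N, ∃ z, x = y + algebraMap P B π * z := by
    intro x
    choose c hc using fun i => hrP (bb.repr (rB x) i)
    have h1 : rB (x - ∑ i, c i • b i) = 0 := by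
      rw [map_sub, map_sum, sub_eq_zero]
      conv_lhs => rw [← bb.sum_repr (rB x)]
      refine Finset.sum_congr rfl fun i _ => ?_
      rw [Algebra.smul_def (c i), map_mul, hcomp, hc, hb, Algebra.smul_def]
    obtain ⟨z, hz⟩ := (hkB _).mp h1
    refine ⟨∑ i, c i • b i, Submodule.sum_mem _ fun i _ =>
      Submodule.smul_mem _ _ (Submodule.subset_span ⟨i, rfl⟩), z, ?_⟩
    rw [← hz]; ring
  -- Nakayama
  obtain ⟨s, hs1, hs⟩ : ∃ s : P, π ∣ s - 1 ∧ ∀ x : B, s • x ∈ N := by
    obtain ⟨s, hs1, hs⟩ := Submodule.exists_sub_one_mem_and_smul_eq_zero_of_fg_of_le_smul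
      (Ideal.span {π}) (⊤ : Submodule P (B ⧸ N)) (Module.Finite.fg_top) (by
        intro x _
        obtain ⟨x, rfl⟩ := Submodule.Quotient.mk_surjective _ x
        obtain ⟨y, hy, z, rfl⟩ := hdec x
        have : (Submodule.Quotient.mk (y + algebraMap P B π * z) : B ⧸ N)
            = π • Submodule.Quotient.mk z := by
          rw [Submodule.Quotient.mk_add, (Submodule.Quotient.mk_eq_zero N).mpr hy, zero_add,
            ← Algebra.smul_def, Submodule.Quotient.mk_smul]
        rw [this]
        exact Submodule.smul_mem_smul (Ideal.mem_span_singleton_self π) Submodule.mem_top)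
    refine ⟨s, Ideal.mem_span_singleton.mp hs1, fun x => ?_⟩
    have := hs (Submodule.Quotient.mk x) Submodule.mem_top
    rwa [← Submodule.Quotient.mk_smul, Submodule.Quotient.mk_eq_zero] at this
  have hrs : rP s = 1 := by
    have := (hkP _).mpr hs1
    rwa [map_sub, map_one, sub_eq_zero] at this
  -- structure constants
  have hex : ∀ i j k, ∃ a : ι → P, ∑ l, a l • b l = s • (b i * b j * b k) := fun i j k =>
    (Submodule.mem_span_range_iff_exists_fun P).mp (hs _)
  choose a ha using hex
  set T : Matrix ι ι P := Matrix.of fun i j => ∑ k, a i j k k with hT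
  -- reduction of `T`
  have hTred : rP T.det = Algebra.discr Pb bb := by
    rw [RingHom.map_det, Algebra.discr_def]
    congr 1
    ext i j
    rw [Algebra.traceMatrix_apply, Algebra.traceForm_apply, Algebra.trace_eq_matrix_trace bb,
      Matrix.trace]
    simp only [RingHom.mapMatrix_apply, Matrix.map_apply, hT, Matrix.of_apply, map_sum,
      Matrix.diag_apply]
    refine Finset.sum_congr rfl fun k _ => ?_
    rw [Algebra.leftMulMatrix_eq_repr_mul]
    have h1 := congrArg rB (ha i j k)
    rw [map_sum, Algebra.smul_def, map_mul, hcomp, hrs, map_one, one_mul, map_mul, map_mul, hb, hb,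
      hb] at h1
    rw [← h1]
    have h2 : ∑ l, rB (a i j k l • b l) = ∑ l, rP (a i j k l) • bb l := by
      refine Finset.sum_congr rfl fun l _ => ?_
      rw [Algebra.smul_def, map_mul, hcomp, hb, Algebra.smul_def]
    rw [h2, bb.repr_sum_self]
  -- points
  have hpt : ∀ φ : P →+* Ω, Good φ → φ T.det = 0 → φ (g * s) = 0 := by
    intro φ hφ h0
    by_contra hne
    rw [map_mul] at hne
    have hg : φ g ≠ 0 := fun h => hne (by rw [h, zero_mul])
    have hφs : φ s ≠ 0 := fun h => hne (by rw [h, mul_zero])
    obtain ⟨χ, hχ, hχφ⟩ := hPTS φ hφ hg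
    set X : Matrix ι ι Ω := Matrix.of fun m k => χ m (b k) with hX
    have hdet : X.det ≠ 0 := det_points_ne_zero b hs φ hφs χ hχ hχφ
    have h1 : φ.mapMatrix T = φ s • (X.transpose * X) := by
      ext i j
      simp only [RingHom.mapMatrix_apply, Matrix.map_apply, hT, Matrix.of_apply, map_sum,
        Matrix.smul_apply, smul_eq_mul, Matrix.mul_apply, Matrix.transpose_apply, hX]
      rw [sum_structure_const_eq b hs φ hφs χ hχ hχφ (b i * b j) (a i j) (ha i j)]
      simp only [map_mul]
    rw [RingHom.map_det, h1, Matrix.det_smul, Matrix.det_mul, Matrix.det_transpose] at h0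
    exact mul_ne_zero (pow_ne_zero _ hφs) (mul_ne_zero hdet hdet) h0
  obtain ⟨x, e, k, hx⟩ := hNS _ _ hpt
  have hnd : ¬ π ∣ T.det := by
    intro h
    exact hd (by rw [← hTred]; exact (hkP _).mpr h)
  obtain ⟨x', hx'⟩ := exists_mul_eq_of_prime_pow hπ hnd e hx
  refine ⟨rP x', k, ?_⟩
  rw [← hTred, ← map_mul, hx', map_pow, map_mul, hrs, mul_one]

end ET

section Indep

variable {P B Pb Bb : Type*} [CommRing P] [IsDomain P] [IsNoetherianRing P] [CommRing B]
  [Algebra P B] [CommRing Pb] [CommRing Bb] [Algebra Pb Bb]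
variable {ι : Type*} [Fintype ι]

/-- lifts of a basis of the reduction are linearly independent -/
theorem linearIndependent_of_reduction {π : P} (hπ : Prime π)
    (hreg : ∀ x : B, algebraMap P B π * x = 0 → x = 0)
    (rP : P →+* Pb) (rB : B →+* Bb) (hkP : ∀ x, rP x = 0 ↔ π ∣ x)
    (hcomp : ∀ x, rB (algebraMap P B x) = algebraMap Pb Bb (rP x))
    (bb : Basis ι Pb Bb) (b : ι → B) (hb : ∀ i, rB (b i) = bb i) : LinearIndependent P b := by
  classical
  have key : ∀ (k : ℕ) (c : ι → P), ∑ i, c i • b i = 0 → ∀ i, π ^ k ∣ c i := by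
    intro k
    induction k with
    | zero => intro c _ i; simp
    | succ k ih =>
      intro c hc i
      have h1 := congrArg rB hc
      rw [map_sum, map_zero] at h1
      have h2 : ∑ i, rP (c i) • bb i = 0 := by
        rw [← h1]
        refine Finset.sum_congr rfl fun i _ => ?_
        rw [Algebra.smul_def (c i), map_mul, hcomp, hb, Algebra.smul_def]
      have h3 := Fintype.linearIndependent_iff.mp bb.linearIndependent _ h2
      choose c' hc' using fun i => (hkP _).mp (h3 i)
      have h4 : ∑ i, c' i • b i = 0 := by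
        apply hreg
        rw [Finset.mul_sum, ← hc]
        refine Finset.sum_congr rfl fun i _ => ?_
        rw [hc' i, Algebra.smul_def, Algebra.smul_def, map_mul, mul_assoc]
      obtain ⟨w, hw⟩ := ih c' h4 i
      exact ⟨w, by rw [hc' i, hw]; ring⟩
  rw [Fintype.linearIndependent_iff]
  intro c hc i
  have hI : Ideal.span {π} ≠ ⊤ := by
    rw [Ne, Ideal.span_singleton_eq_top]; exact hπ.not_isUnit
  have h5 : c i ∈ ⨅ k : ℕ, Ideal.span {π} ^ k := by
    rw [Ideal.mem_iInf]
    intro k
    rw [Ideal.span_singleton_pow, Ideal.mem_span_singleton]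
    exact key k c hc i
  rw [Ideal.iInf_pow_eq_bot_of_isDomain _ hI] at h5
  exact h5

end Indep

section IC

variable {ι : Type*} [Fintype ι] [DecidableEq ι]

/-- **(IC0)** general-basis version of `Algebra.discr_mul_isIntegral_mem_adjoin`. -/
theorem discr_smul_mem_span {R K L : Type*} [CommRing R] [IsDomain R] [IsIntegrallyClosed R]
    [Field K] [Algebra R K] [IsFractionRing R K] [Field L] [Algebra K L] [Algebra R L]
    [IsScalarTower R K L] (b : Basis ι K L) (hb : ∀ i, IsIntegral R (b i)) {z : L}
    (hz : IsIntegral R z) : Algebra.discr K b • z ∈ Submodule.span R (Set.range b) := by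
  have : FiniteDimensional K L := Module.Finite.of_basis b
  by_cases h0 : Algebra.discr K b = 0
  · rw [h0, zero_smul]; exact Submodule.zero_mem _
  have hinv : IsUnit (Algebra.traceMatrix K b).det := by
    rw [← Algebra.discr_def]; exact isUnit_iff_ne_zero.mpr h0
  have H : (Algebra.traceMatrix K b).det • (Algebra.traceMatrix K b).mulVec (b.equivFun z) =
      (Algebra.traceMatrix K b).det • fun i => Algebra.trace K L (z * b i) := by
    congr; exact Algebra.traceMatrix_of_basis_mulVec _ _
  have cramer := Matrix.mulVec_cramer (Algebra.traceMatrix K b) fun i => Algebra.trace K L (z * b i)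
  suffices ∀ i, ((Algebra.traceMatrix K b).det • b.equivFun z) i ∈ (⊥ : Subalgebra R K) by
    rw [← b.sum_repr z, Finset.smul_sum]
    refine Submodule.sum_mem _ fun i _ => ?_
    replace this := this i
    rw [← Algebra.discr_def, Pi.smul_apply, Algebra.mem_bot] at this
    obtain ⟨r, hr⟩ := this
    rw [Basis.equivFun_apply] at hr
    rw [← smul_assoc, ← hr, algebraMap_smul]
    exact Submodule.smul_mem _ _ (Submodule.subset_span ⟨i, rfl⟩)
  intro i
  rw [← H, ← Matrix.mulVec_smul] at cramer
  replace cramer := congr_arg (Matrix.mulVec (Algebra.traceMatrix K b)⁻¹) cramer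
  rw [Matrix.mulVec_mulVec, Matrix.nonsing_inv_mul _ hinv, Matrix.mulVec_mulVec,
    Matrix.nonsing_inv_mul _ hinv, Matrix.one_mulVec, Matrix.one_mulVec] at cramer
  rw [← congr_fun cramer i, Matrix.cramer_apply, Matrix.det_apply]
  refine
    Subalgebra.sum_mem _ fun σ _ => Subalgebra.zsmul_mem _ (Subalgebra.prod_mem _ fun j _ => ?_) _
  by_cases hji : j = i
  · simp only [Matrix.updateCol_apply, hji]
    exact Algebra.mem_bot.2
      (IsIntegrallyClosed.isIntegral_iff.1 <| Algebra.isIntegral_trace (hz.mul <| hb _))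
  · simp only [Matrix.updateCol_apply, hji]
    exact Algebra.mem_bot.2
      (IsIntegrallyClosed.isIntegral_iff.1 <| Algebra.isIntegral_trace <| (hb _).mul (hb _))

/-- **(IC1)** the discriminant of a basis kills the normalisation modulo the ring. -/
theorem exists_eq_discr_mul_of_isIntegral {Pb Bb : Type*} (K : Type*) {L : Type*} [CommRing Pb]
    [IsDomain Pb] [IsIntegrallyClosed Pb] [CommRing Bb]
    [IsDomain Bb] [Algebra Pb Bb] [Field K] [Algebra Pb K] [IsFractionRing Pb K] [Field L]
    [Algebra Bb L] [IsFractionRing Bb L] [Algebra K L] [Algebra Pb L] [IsScalarTower Pb K L]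
    [IsScalarTower Pb Bb L] (bb : Basis ι Pb Bb) {z : L} (hz : IsIntegral Pb z) :
    ∃ y : Bb, algebraMap Bb L y = algebraMap Pb L (Algebra.discr Pb bb) * z := by
  have : Module.Finite Pb Bb := Module.Finite.of_basis bb
  have : Module.Free Pb Bb := Module.Free.of_basis bb
  have : FaithfulSMul Pb Bb := inferInstance
  have : Algebra.IsAlgebraic Pb Bb := inferInstance
  let bL : Basis ι K L := bb.localizationLocalization K (nonZeroDivisors Pb) L
  have hbL : ∀ i, bL i = algebraMap Bb L (bb i) := fun i =>
    Basis.localizationLocalization_apply _ _ _ _ _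
  have hint : ∀ i, IsIntegral Pb (bL i) := by
    intro i
    rw [hbL]
    exact (Algebra.IsIntegral.isIntegral (R := Pb) (bb i)).algebraMap
  have h1 := discr_smul_mem_span bL hint hz
  have h2 : Algebra.discr K bL = algebraMap Pb K (Algebra.discr Pb bb) :=
    Algebra.discr_localizationLocalization Pb (nonZeroDivisors Pb) L bb
  rw [h2, algebraMap_smul, Algebra.smul_def] at h1
  obtain ⟨c, hc⟩ := (Submodule.mem_span_range_iff_exists_fun Pb).mp h1
  refine ⟨∑ i, c i • bb i, ?_⟩
  rw [← hc, map_sum]
  refine Finset.sum_congr rfl fun i _ => ?_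
  rw [hbL, Algebra.smul_def, map_mul, ← IsScalarTower.algebraMap_apply, Algebra.smul_def]

/-- **(IC2)** unit discriminant implies integrally closed. -/
theorem isIntegrallyClosed_of_isUnit_discr {Pb Bb : Type*} [CommRing Pb]
    [IsDomain Pb] [IsIntegrallyClosed Pb] [CommRing Bb] [IsDomain Bb] [Algebra Pb Bb]
    (bb : Basis ι Pb Bb) (hu : IsUnit (Algebra.discr Pb bb)) : IsIntegrallyClosed Bb := by
  have : Module.Finite Pb Bb := Module.Finite.of_basis bb
  have : Module.Free Pb Bb := Module.Free.of_basis bb
  have : FaithfulSMul Pb Bb := inferInstance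
  have : FaithfulSMul Pb (FractionRing Bb) := by
    rw [faithfulSMul_iff_algebraMap_injective, IsScalarTower.algebraMap_eq Pb Bb (FractionRing Bb)]
    exact (IsFractionRing.injective Bb (FractionRing Bb)).comp
      (FaithfulSMul.algebraMap_injective Pb Bb)
  let _ : Algebra (FractionRing Pb) (FractionRing Bb) := FractionRing.liftAlgebra Pb _
  have : IsScalarTower Pb (FractionRing Pb) (FractionRing Bb) :=
    FractionRing.isScalarTower_liftAlgebra Pb _
  rw [isIntegrallyClosed_iff (FractionRing Bb)]
  intro z hz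
  have hz' : IsIntegral Pb z := isIntegral_trans z hz
  obtain ⟨y, hy⟩ := exists_eq_discr_mul_of_isIntegral (FractionRing Pb) bb hz'
  obtain ⟨w, hw⟩ := hu.exists_left_inv
  refine ⟨algebraMap Pb Bb w * y, ?_⟩
  rw [map_mul, hy, ← IsScalarTower.algebraMap_apply, ← mul_assoc, ← map_mul, hw, map_one, one_mul]

end IC

end Fermat.Agent.ESlib
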