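import Mathlib

/-!
# ES, part C5b: the integral closure in a Kummer extension `z ^ m = unit`, `m` a unit
-/

set_option autoImplicit false

namespace Fermat.Agent.ESlib

open Polynomial

variable {O F E : Type*} [CommRing O] [IsDomain O] [IsIntegrallyClosed O]
  [Field F] [Algebra O F] [IsFractionRing O F] [Field E] [Algebra F E] [Algebra O E]
  [IsScalarTower O F E] [CharZero F] [FiniteDimensional F E]

theorem minpoly_eq_of_pow_eq {m : ℕ} (hm0 : m ≠ 0) (z : E) (a : F) (hz : z ^ m = algebraMap F E a)
    (hfin : Module.finrank F E = m) (htop : Algebra.adjoin F {z} = ⊤) :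
    minpoly F z = X ^ m - C a := by
  have hint : IsIntegral F z := Algebra.IsIntegral.isIntegral z
  have hdeg : (minpoly F z).natDegree = m := by
    rw [← hfin, (PowerBasis.ofAdjoinEqTop' hint htop).finrank, PowerBasis.ofAdjoinEqTop'_dim]
  have hmon : (X ^ m - C a : F[X]).Monic := monic_X_pow_sub_C a hm0
  have hdvd : minpoly F z ∣ X ^ m - C a := by
    apply minpoly.dvd
    simp [hz]
  refine (eq_of_monic_of_dvd_of_natDegree_le (minpoly.monic hint) hmon hdvd ?_).symm
  rw [hdeg, natDegree_X_pow_sub_C]

/-- every element of `E` integral over `O` is an `O`-combination of `1, z, …, z ^ (m - 1)` -/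
theorem exists_coeff_of_isIntegral {m : ℕ} (hm : IsUnit (m : O)) (hm0 : m ≠ 0) (z : E) (ε : O)
    (hε : IsUnit ε) (hz : z ^ m = algebraMap O E ε)
    (hfin : Module.finrank F E = m) (htop : Algebra.adjoin F {z} = ⊤)
    (c : E) (hc : IsIntegral O c) :
    ∃ a : ℕ → O, c = ∑ k ∈ Finset.range m, algebraMap O E (a k) * z ^ k := by
  have hzF : z ^ m = algebraMap F E (algebraMap O F ε) := by
    rw [hz, IsScalarTower.algebraMap_apply O F E]
  have hmin := minpoly_eq_of_pow_eq hm0 z _ hzF hfin htop
  have hintF : IsIntegral F z := Algebra.IsIntegral.isIntegral z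
  have hintO : IsIntegral O z := by
    refine IsIntegral.of_pow (Nat.pos_of_ne_zero hm0) ?_
    rw [hz]; exact isIntegral_algebraMap
  set pb := PowerBasis.ofAdjoinEqTop' hintF htop with hpb
  have hgen : pb.gen = z := PowerBasis.ofAdjoinEqTop'_gen hintF htop
  -- the norm of `z`
  obtain ⟨n0, hn0⟩ := IsIntegrallyClosed.isIntegral_iff.mp (Algebra.isIntegral_norm F hintO)
  have hn0m : n0 ^ m = ε ^ m := by
    apply IsFractionRing.injective O F
    rw [map_pow, hn0, ← map_pow, hzF, Algebra.norm_algebraMap, hfin, map_pow]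
  have hn0u : IsUnit n0 := by
    have : IsUnit (n0 ^ m) := by rw [hn0m]; exact hε.pow m
    exact (isUnit_pow_iff hm0).mp this
  have hdisc : ∃ d : O, IsUnit d ∧ Algebra.discr F pb.basis = algebraMap O F d := by
    refine ⟨(-1) ^ (m * (m - 1) / 2) * ((m : O) ^ m * n0 ^ (m - 1)), ?_, ?_⟩
    · exact ((isUnit_one.neg).pow _).mul ((hm.pow _).mul (hn0u.pow _))
    · rw [Algebra.discr_powerBasis_eq_norm, hgen, hmin, hfin]
      simp only [derivative_sub, derivative_X_pow, derivative_C, sub_zero, map_mul,
        map_pow, aeval_X, map_natCast, map_neg, map_one]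
      congr 1
      rw [← hn0]
      congr 1
      have : ((m : E)) = algebraMap F E (m : F) := by simp
      rw [this, Algebra.norm_algebraMap, hfin]
  obtain ⟨d, hd, hdd⟩ := hdisc
  have h1 := Algebra.discr_mul_isIntegral_mem_adjoin (R := O) (K := F) (B := pb)
    (by rw [hgen]; exact hintO) hc
  rw [hgen, hdd, algebraMap_smul] at h1
  obtain ⟨d', hd'⟩ := hd.exists_left_inv
  have h2 : c ∈ Algebra.adjoin O ({z} : Set E) := by
    have := Subalgebra.smul_mem _ h1 d'
    rwa [smul_smul, hd', one_smul] at this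
  rw [Algebra.adjoin_singleton_eq_range_aeval] at h2
  obtain ⟨p, rfl⟩ := h2
  have hmon : (X ^ m - C ε : O[X]).Monic := monic_X_pow_sub_C ε hm0
  set r := p %ₘ (X ^ m - C ε) with hr
  have hpr : aeval z p = aeval z r := by
    conv_lhs => rw [← modByMonic_add_div p (X ^ m - C ε)]
    simp [hz, hr]
  have hrdeg : r.natDegree < m := by
    have := natDegree_modByMonic_lt p hmon (by
      intro h
      have := congrArg natDegree h
      rw [natDegree_X_pow_sub_C, natDegree_one] at this
      exact hm0 this)
    rwa [natDegree_X_pow_sub_C] at this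
  refine ⟨fun k => r.coeff k, ?_⟩
  show aeval z p = _
  rw [hpr, aeval_eq_sum_range' hrdeg]
  simp [Algebra.smul_def]

end Fermat.Agent.ESlib
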