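import Mathlib
import Fermat.Agent.S57Lib.Free

/-!
# ES, part C5a: a two-dimensional regular local ring is a UFD

`O` local noetherian domain whose maximal ideal is `(π, s)` with `π` prime and `s ∉ (π)`.
-/

set_option autoImplicit false

namespace Fermat.Agent.ESlib

open IsLocalRing RingTheory.Sequence

universe u

/-- a free ideal of a domain is principal -/
theorem isPrincipal_of_free {O : Type u} [CommRing O] [IsDomain O] (P : Ideal O)
    [Module.Free O P] : P.IsPrincipal := by
  classical
  let b := Module.Free.chooseBasis O P
  have hsub : Subsingleton (Module.Free.ChooseBasisIndex O P) := by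
    refine ⟨fun i k => ?_⟩
    by_contra hik
    have hli := b.linearIndependent
    have h0 : ∀ i, (b i : O) ≠ 0 := fun i h => b.ne_zero i (Subtype.ext h)
    have hrel : ((b k : O)) • b i + (-(b i : O)) • b k = 0 := by
      apply Subtype.ext
      simp only [Submodule.coe_add, Submodule.coe_smul, smul_eq_mul, Submodule.coe_zero]
      ring
    have h2 := linearIndependent_iff'.mp hli {i, k}
      (fun t => if t = i then (b k : O) else -(b i : O)) (by
        rw [Finset.sum_pair hik]
        simp only [if_true, if_neg (Ne.symm hik)]
        exact hrel) i (by simp)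
    simp only [if_true] at h2
    exact h0 k h2
  rcases isEmpty_or_nonempty (Module.Free.ChooseBasisIndex O P) with hemp | ⟨⟨i⟩⟩
  · have : P = ⊥ := by
      rw [eq_bot_iff]
      intro x hx
      have : (⟨x, hx⟩ : P) = 0 := by
        have := b.repr.injective (a₁ := (⟨x, hx⟩ : P)) (a₂ := 0) (Subsingleton.elim _ _)
        exact this
      exact congrArg Subtype.val this
    rw [this]; exact bot_isPrincipal
  · refine ⟨⟨(b i : O), ?_⟩⟩
    apply le_antisymm
    · intro x hx
      have h1 : (⟨x, hx⟩ : P) ∈ Submodule.span O (Set.range b) := by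
        rw [b.span_eq]; trivial
      have h2 : Set.range b = {b i} := by
        ext y
        constructor
        · rintro ⟨k, rfl⟩
          rw [Subsingleton.elim k i]; rfl
        · rintro rfl
          exact ⟨i, rfl⟩
      rw [h2, Submodule.mem_span_singleton] at h1
      obtain ⟨c, hc⟩ := h1
      rw [Submodule.mem_span_singleton]
      exact ⟨c, congrArg Subtype.val hc⟩
    · rw [Submodule.span_singleton_le_iff_mem]
      exact (b i).2

theorem ufd_of_regular_two {O : Type u} [CommRing O] [IsDomain O] [IsLocalRing O]
    [IsNoetherianRing O] (π s : O) (hmax : maximalIdeal O = Ideal.span {π, s}) (hπ : Prime π)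
    (hs : ¬ π ∣ s) : UniqueFactorizationMonoid O := by
  classical
  apply UniqueFactorizationMonoid.iff_exists_prime_mem_of_isPrime.mpr
  intro P hP0 hPp
  by_cases hπP : π ∈ P
  · exact ⟨π, hπP, hπ⟩
  have hreg : IsWeaklyRegular P [π, s] := by
    rw [isWeaklyRegular_cons_iff, isWeaklyRegular_singleton_iff]
    constructor
    · intro a b hab
      apply Subtype.ext
      have := congrArg Subtype.val hab
      simp only [Submodule.coe_smul, smul_eq_mul] at this
      exact mul_left_cancel₀ hπ.ne_zero this
    · intro a b hab
      obtain ⟨a, rfl⟩ := Submodule.Quotient.mk_surjective _ a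
      obtain ⟨b, rfl⟩ := Submodule.Quotient.mk_surjective _ b
      simp only [← Submodule.Quotient.mk_smul] at hab
      rw [Submodule.Quotient.eq] at hab ⊢
      rw [← smul_sub] at hab
      set c := a - b with hc
      obtain ⟨d, -, hd⟩ := (Submodule.mem_smul_pointwise_iff_exists _ _ _).mp hab
      have h1 : π * (d : O) = s * (c : O) := by
        have := congrArg Subtype.val hd
        simpa using this
      have h2 : π ∣ (c : O) := (hπ.dvd_or_dvd ⟨_, h1.symm⟩).resolve_left hs
      obtain ⟨c', hc'⟩ := h2
      have h3 : c' ∈ P := by
        have : π * c' ∈ P := hc' ▸ c.2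
        exact (hPp.mem_or_mem this).resolve_left hπP
      rw [Submodule.mem_smul_pointwise_iff_exists]
      exact ⟨⟨c', h3⟩, trivial, Subtype.ext (by simpa using hc'.symm)⟩
  have hfree : Module.Free O P :=
    S57Lib.free_of_isWeaklyRegular 2 O P {π, s} Finset.card_le_two (by
      rw [hmax]; simp) [π, s] rfl (by
      intro r hr
      rw [hmax]
      simp only [List.mem_cons, List.not_mem_nil, or_false] at hr
      rcases hr with rfl | rfl
      · exact Ideal.subset_span (by simp)
      · exact Ideal.subset_span (by simp)) hreg
  obtain ⟨⟨τ, hτ⟩⟩ := isPrincipal_of_free P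
  refine ⟨τ, by rw [hτ]; exact Submodule.mem_span_singleton_self τ, ?_⟩
  have hτ' : P = Ideal.span {τ} := hτ
  have hτ0 : τ ≠ 0 := by
    rintro rfl
    apply hP0
    rw [hτ']; simp
  rw [← Ideal.span_singleton_prime hτ0, ← hτ']
  exact hPp

end Fermat.Agent.ESlib
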